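import Fermat.Agent.X0.Counts

/-!
# The places over `j = ∞`

They are the orbits of `T` on the cosets of `Γ`, with ramification index the orbit length, for the
curve of any `Γ ⊇ Γ(W)`; in particular for `Γ₀(N)`.
-/

noncomputable section

open UpperHalfPlane CongruenceSubgroup Function AlgebraicCurve ModularGroup
open scoped MatrixGroups ModularForm Manifold Topology IntermediateField Real

namespace Fermat.Agent.X0

open Fermat.Agent.MF

local notation "FC" => Fermat.Agent.Mono.FC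
local notation "𝕢" => Periodic.qParam

variable {N : ℕ} [NeZero N]

theorem cuspExp_levelOne {k : ℤ} {f : ℍ → ℂ} (hf : IsFormFn ⊤ k f) (n : ℕ) :
    (cuspExp N (lwide hf)).coeff n = if N ∣ n then (qExpansion 1 f).coeff (n / N) else 0 := by
  rw [cuspExp_apply, show ((N : ℕ) : ℝ) = (N : ℝ) * 1 by ring]
  exact UpperHalfPlane.qExpansion_coeff_nat_mul one_pos hf.isQFnTop.periodic hf.mdiff
    hf.isQFnTop.bdd (Nat.pos_of_ne_zero (NeZero.ne N)) n

theorem cusp_order_delta :
    ((cuspExpansion N).ls (lwide (isFormFn_delta.cast rfl))).order = (N : ℤ) := by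
  have h1 : (qExpansion 1 deltaFn).coeff 1 = 1 := ModularForm.discriminant_qExpansion_coeff_one
  have h0 : (qExpansion 1 deltaFn).coeff 0 = 0 := by rw [qExpansion_delta]; simp
  refine cuspExp_order_eq_of_coeff ?_ fun i hi => ?_
  · rw [cuspExp_levelOne, if_pos dvd_rfl, Nat.div_self (Nat.pos_of_ne_zero (NeZero.ne N)), h1]
    exact one_ne_zero
  · rw [cuspExp_levelOne]
    split_ifs with h
    · rw [Nat.eq_zero_of_dvd_of_lt h hi, Nat.zero_div, h0]
    · rfl

theorem cusp_order_E4_cube :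
    ((cuspExpansion N).ls (lwide (isFormFn_E4.pow 3))).order = 0 := by
  have h0 : (qExpansion 1 (E4fn ^ 3)).coeff 0 = 1 := by
    simpa using qExpansion_E4_E6_coeff_zero 3 0
  refine cuspExp_order_eq_of_coeff (n := 0) ?_ fun i hi => absurd hi (Nat.not_lt_zero i)
  rw [cuspExp_levelOne, if_pos (dvd_zero N), Nat.zero_div, h0]
  exact one_ne_zero

theorem qExpansion_coeff_unique_fun {h : ℝ} {f : ℍ → ℂ} {c : ℕ → ℂ} (hh : 0 < h)
    (han : AnalyticAt ℂ (cuspFunction h f) 0)
    (hf : ∀ τ : ℍ, HasSum (fun m => c m • 𝕢 h (τ : ℂ) ^ m) (f τ)) (m : ℕ) :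
    c m = (qExpansion h f).coeff m := by
  have h1 := (hasFPowerSeriesOnBall_cuspFunction hh han hf).hasFPowerSeriesAt
  have h2 : HasFPowerSeriesAt (cuspFunction h f)
      (FormalMultilinearSeries.ofScalars ℂ fun m => (qExpansion h f).coeff m) 0 := by
    simpa [qExpansion_coeff, div_eq_mul_inv, mul_comm] using han.hasFPowerSeriesAt
  simpa using congr_arg (FormalMultilinearSeries.coeff · m) (h1.eq_formalMultilinearSeries h2)

/-- Translation multiplies the coefficients by roots of unity. -/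
theorem cuspExp_coeff_translate {k : ℤ} {F G : wideAlgebra N} (m : ℤ)
    (hG : (G : ℍ → ℂ) = (F : ℍ → ℂ) ∣[k] (T ^ m)) (n : ℕ) :
    (cuspExp N G).coeff n = (cuspExp N F).coeff n * 𝕢 (N : ℝ) (m : ℂ) ^ n := by
  rw [cuspExp_apply, cuspExp_apply]
  have hG' : AnalyticAt ℂ (cuspFunction (N : ℝ) (G : ℍ → ℂ)) 0 := IsWFn.analyticAt G.2
  refine (qExpansion_coeff_unique_fun (h := (N : ℝ)) (f := (G : ℍ → ℂ))
    (c := fun i => (qExpansion (N : ℝ) (F : ℍ → ℂ)).coeff i * 𝕢 (N : ℝ) (m : ℂ) ^ i)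
    (periodPos N) hG' ?_ n).symm
  intro τ
  have hval : (G : ℍ → ℂ) τ = (F : ℍ → ℂ) ((m : ℝ) +ᵥ τ) := by
    rw [hG, ModularForm.SL_slash_apply, modular_T_zpow_smul, denom_T_zpow, one_zpow, mul_one]
  rw [hval]
  have h := hasSum_qExpansion (periodPos N) F.2.periodic F.2.mdiff F.2.bdd ((m : ℝ) +ᵥ τ)
  have hq : 𝕢 (N : ℝ) (((m : ℝ) +ᵥ τ : ℍ) : ℂ) = 𝕢 (N : ℝ) (m : ℂ) * 𝕢 (N : ℝ) (τ : ℂ) := by
    simp only [Periodic.qParam, UpperHalfPlane.coe_vadd, ← Complex.exp_add]
    congr 1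
    push_cast
    ring
  simp only [hq, mul_pow, smul_eq_mul, mul_assoc] at h ⊢
  exact h

theorem cusp_order_translate {k : ℤ} {F G : wideAlgebra N} (hF : F ≠ 0) (m : ℤ)
    (hG : (G : ℍ → ℂ) = (F : ℍ → ℂ) ∣[k] (T ^ m)) :
    ((cuspExpansion N).ls G).order = ((cuspExpansion N).ls F).order := by
  obtain ⟨n, hn, hn'⟩ := cuspExp_order_eq hF
  rw [hn]
  refine cuspExp_order_eq_of_coeff ?_ fun i hi => ?_
  · rw [cuspExp_coeff_translate m hG]
    exact mul_ne_zero (PowerSeries.order_eq_nat.mp hn').1 (pow_ne_zero _ (Complex.exp_ne_zero _))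
  · rw [cuspExp_coeff_translate m hG, (PowerSeries.order_eq_nat.mp hn').2 i hi, zero_mul]

section General

variable {Γ : Subgroup SL(2, ℤ)} {W : ℕ} {F : IntermediateField ℂ (LaurentSeries ℂ)}

namespace RatioField

variable (D : RatioField Γ W F) [NeZero W]
include D

omit [NeZero W] in
theorem T_pow_smul (q : SL(2, ℤ) ⧸ Γ) : (T : SL(2, ℤ)) ^ W • q = q := by
  induction q using QuotientGroup.induction_on with
  | H g =>
    show ((T ^ W * g : SL(2, ℤ)) : SL(2, ℤ) ⧸ Γ) = _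
    rw [QuotientGroup.eq]
    have h := inv_mem (conj_T_zpow_mem D.gamma_le g⁻¹)
    rw [zpow_natCast, mul_inv_rev, mul_inv_rev, inv_inv] at h
    rw [mul_inv_rev]
    simpa [mul_assoc] using h

/-- The valuations at `i∞` are invariant under translations. -/
theorem cusp_stab {e : SL(2, ℤ)} (he : e ∈ Subgroup.zpowers T) (q : SL(2, ℤ) ⧸ Γ) (x : F) :
    (D.cosetVal (cuspExpansion W) (e • q)).ord x =
      (D.cosetVal (cuspExpansion W) q).ord x := by
  rcases eq_or_ne x 0 with rfl | hx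
  · simp [cosetVal, D.intVal_ord]
  obtain ⟨m, rfl⟩ := Subgroup.mem_zpowers_iff.mp he
  obtain ⟨k, f, g, hf, hg, hg0, h⟩ := D.exists_rep x
  obtain ⟨hf0, -⟩ := D.intVal_ord_rep (cuspExpansion W) 1 hx hf hg hg0 h
  rw [cosetVal, cosetVal, D.intVal_ord, D.conjHom_cosetRep_smul, ← D.intVal_ord,
    (D.intVal_ord_rep _ _ hx hf hg hg0 h).2, (D.intVal_ord_rep _ _ hx hf hg hg0 h).2, ← zpow_neg]
  have key : ∀ (u : ℍ → ℂ) (hu : IsFormFn Γ k u), u ≠ 0 →
      ((cuspExpansion W).ls (D.wslash hu (cosetRep q * T ^ (-m)))).order =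
        ((cuspExpansion W).ls (D.wslash hu (cosetRep q))).order := fun u hu hu0 =>
    cusp_order_translate (k := k) (fun h => slash_ne_zero hu0 _ (congrArg Subtype.val h)) _
      (SlashAction.slash_mul k (cosetRep q) (T ^ (-m)) u)
  rw [key f hf hf0, key g hg hg0]

/-- The width of a cusp times the valuation is a multiple of the period. -/
theorem cusp_dvd (q : SL(2, ℤ) ⧸ Γ) {x : F} (hx : x ≠ 0) :
    (W : ℤ) ∣ (Nat.card (MulAction.orbit (Subgroup.zpowers (T : SL(2, ℤ))) q) : ℤ) *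
      (D.cosetVal (cuspExpansion W) q).ord x := by
  have := D.finiteIndex
  rw [natCard_orbit_zpowers]
  set d := Function.minimalPeriod ((T : SL(2, ℤ)) • ·) q with hd
  have hper : Function.IsPeriodicPt ((T : SL(2, ℤ)) • ·) W q := by
    show ((T : SL(2, ℤ)) • ·)^[W] q = q
    rw [smul_iterate]; exact D.T_pow_smul q
  have hdW : d ∣ W := hper.minimalPeriod_dvd
  have hd0 : 0 < d := hper.minimalPeriod_pos (Nat.pos_of_ne_zero (NeZero.ne W))
  obtain ⟨k, f, g, hf, hg, hg0, h⟩ := D.exists_rep x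
  obtain ⟨hf0, hord⟩ := D.intVal_ord_rep (cuspExpansion W) (cosetRep q) hx hf hg hg0 h
  rw [cosetVal, hord, mul_sub]
  have key : ∀ (u : ℍ → ℂ) (hu : IsFormFn Γ k u), u ≠ 0 →
      (W : ℤ) ∣ (d : ℤ) * ((cuspExpansion W).ls (D.wslash hu (cosetRep q))).order :=
    fun u hu hu0 => order_cusp_dvd (fun h => slash_ne_zero hu0 _ (congrArg Subtype.val h)) hd0 hdW
      (T_zpow_apply_periodic (k := k) d
        (by rw [zpow_natCast]; exact D.wslash_fixed hu q (pow_minimalPeriod_smul T q)))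
  exact dvd_sub (key f hf hf0) (key g hg hg0)

end RatioField

namespace JRatioField

variable (D : JRatioField Γ W F)
include D

theorem cusp_ord_jEl [NeZero W] (γ : SL(2, ℤ)) :
    (D.intVal (cuspExpansion W) γ).ord D.jEl = -(W : ℤ) := by
  have hf : IsFormFn ⊤ 12 (E4fn ^ 3) := (isFormFn_E4.pow 3).cast (by norm_num)
  have hg := isFormFn_delta
  have hrel : ((D.jEl : F) : LaurentSeries ℂ) * lq deltaFn = lq (E4fn ^ 3) := by
    rw [lq_pow isFormFn_E4.isQFnTop]
    exact jqModC_mul_lq_delta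
  rw [D.intVal_ord, D.conjHom_eq (cuspExpansion W) _ _ (hf.mono le_top) (hg.mono le_top)
    deltaFn_ne_zero' hrel, D.wslash_levelOne hf, D.wslash_levelOne hg]
  have hf0 : (lwide hf : wideAlgebra W) ≠ 0 := fun h => by
    have h1 : E4fn ^ 3 = 0 := congrArg Subtype.val h
    have := qExpansion_E4_E6_coeff_zero 3 0
    rw [h1, zero_mul, qExpansion_zero] at this
    simp at this
  have hg0 : (lwide hg : wideAlgebra W) ≠ 0 := lwide_ne_zero hg deltaFn_ne_zero'
  rw [order_div ((map_ne_zero_iff _ (cuspExpansion W).ls_injective).mpr hf0)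
    ((map_ne_zero_iff _ (cuspExpansion W).ls_injective).mpr hg0)]
  have e1 : (lwide hf : wideAlgebra W) = lwide (isFormFn_E4.pow 3) := Subtype.ext rfl
  have e2 : (lwide hg : wideAlgebra W) = lwide (isFormFn_delta.cast rfl) := Subtype.ext rfl
  rw [e1, e2, cusp_order_E4_cube, cusp_order_delta]
  ring

end JRatioField

namespace CurveField

variable (D : CurveField Γ W F)
include D

/-- The cusps of the curve of `Γ`. -/
theorem exists_places_cusp [NeZero W] :
    ∃ pl : MulAction.orbitRel.Quotient (Subgroup.zpowers (T : SL(2, ℤ))) (SL(2, ℤ) ⧸ Γ) →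
        Place ℂ F,
      Injective pl ∧ (∀ w, w.ord D.jEl < 0 ↔ w ∈ Set.range pl) ∧
      ∀ q : SL(2, ℤ) ⧸ Γ, (pl ⟦q⟧).ord D.jEl =
          -(Nat.card (MulAction.orbit (Subgroup.zpowers (T : SL(2, ℤ))) q) : ℤ) ∧
        ∃ k : ℕ, 0 < k ∧ k * Nat.card (MulAction.orbit (Subgroup.zpowers (T : SL(2, ℤ))) q) = W ∧
          ∀ f : F, f ≠ 0 →
            (D.cosetVal (cuspExpansion W) q).ord f = k * (pl ⟦q⟧).ord f := by
  obtain ⟨pl, h1, h2, h3⟩ := D.exists_places_equiv_orbits (cuspExpansion W) T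
    (inv_ne_zero D.jEl_ne_zero) (FF.adjoin_inv_eq _) (Nat.pos_of_ne_zero (NeZero.ne W))
    (fun q => by rw [(D.cosetVal _ q).map_inv D.jEl_ne_zero, RatioField.cosetVal, D.cusp_ord_jEl,
      neg_neg])
    (fun e he q => funext fun x => D.cusp_stab he q x) (fun q f hf => D.cusp_dvd q hf)
  refine ⟨pl, h1, fun w => ?_, fun q => ⟨?_, (h3 q).2⟩⟩
  · rw [← h2 w, w.ord_inv]; omega
  · have := (h3 q).1
    rw [Place.ord_inv] at this
    omega

end CurveField

end General

theorem cusp_ord_jC (q : Coset N) :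
    (cosetVal (cuspExpansion N) q).ord (jC N) = -(N : ℤ) :=
  (curveField N).cusp_ord_jEl _

variable (N) in
/-- Over `j = ∞`. -/
theorem natCard_poles_jC :
    Nat.card {w : Place ℂ (FC N) // w.ord (jC N) < 0} = ModularCurve.cuspCount N := by
  obtain ⟨pl, h1, h2, -⟩ := (curveField N).exists_places_cusp
  have h2' : ∀ w : Place ℂ (FC N), w.ord (jC N) < 0 ↔ w ∈ Set.range pl := h2
  rw [natCard_subtype_eq_of_range pl h1 h2', Grp.natCard_orbits_T]

end Fermat.Agent.X0
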