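import Mathlib.Analysis.Meromorphic.NormalForm
import Fermat.Agent.FF.Curve
import Fermat.Agent.FF.DiffGenus
import Fermat.Agent.X0.CuspCount

/-!
# Regular differentials on `X₀(N)_ℂ` give cusp forms of weight two

For `x` in the Riemann–Roch space of the divisor of `dj`, `x · dj/dτ` extends to a cusp form.
-/

noncomputable section

open UpperHalfPlane CongruenceSubgroup Function AlgebraicCurve Filter
open scoped MatrixGroups ModularForm Manifold Topology IntermediateField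

namespace Fermat.Agent.X0

open Fermat.Agent.MF

local notation "FC" => Fermat.Agent.Mono.FC
local notation "𝕢" => Periodic.qParam

/-- A quotient with nowhere negative order is holomorphic. -/
theorem exists_mdiff_quotient {F G : ℍ → ℂ} (hF : MDiff F) (hG : MDiff G) (hG0 : G ≠ 0)
    (hord : ∀ τ, ordH G τ ≤ ordH F τ) : ∃ h : ℍ → ℂ, MDiff h ∧ G * h = F := by
  set U : Set ℂ := upperHalfPlaneSet
  set Φ : ℂ → ℂ := (F ∘ ofComplex) * (G ∘ ofComplex)⁻¹ with hΦ
  have hmer : MeromorphicOn Φ U := fun z hz => by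
    have hFz := (analyticAt_comp_ofComplex hF ⟨z, hz⟩).meromorphicAt
    have hGz := (analyticAt_comp_ofComplex hG ⟨z, hz⟩).meromorphicAt
    exact hFz.mul hGz.inv
  set Ψ := toMeromorphicNFOn Φ U
  have han : ∀ z ∈ U, AnalyticAt ℂ Ψ z := fun z hz => by
    have hnf := meromorphicNFOn_toMeromorphicNFOn Φ U hz
    refine hnf.meromorphicOrderAt_nonneg_iff_analyticAt.mp ?_
    rw [meromorphicOrderAt_toMeromorphicNFOn hmer hz, hΦ,
      meromorphicOrderAt_mul (analyticAt_comp_ofComplex hF ⟨z, hz⟩).meromorphicAt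
        (analyticAt_comp_ofComplex hG ⟨z, hz⟩).meromorphicAt.inv, meromorphicOrderAt_inv]
    obtain ⟨n, hn⟩ := exists_ordH_eq_natCast hG hG0 ⟨z, hz⟩
    have h := hord ⟨z, hz⟩
    rw [hn] at h
    change _ ≤ meromorphicOrderAt (F ∘ ofComplex) z at h
    change 0 ≤ meromorphicOrderAt (F ∘ ofComplex) z + -(ordH G ⟨z, hz⟩)
    rw [hn]
    cases hc : meromorphicOrderAt (F ∘ ofComplex) z with
    | top => simp
    | coe m =>
      rw [hc] at h
      norm_cast at h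
      rw [← WithTop.LinearOrderedAddCommGroup.coe_neg, ← WithTop.coe_add, ← WithTop.coe_zero,
        WithTop.coe_le_coe]
      omega
  refine ⟨fun τ => Ψ τ, ?_, ?_⟩
  · rw [UpperHalfPlane.mdifferentiable_iff]
    refine DifferentiableOn.congr (f := Ψ) (fun z hz => (han z hz).differentiableWithinAt) ?_
    intro z hz
    simp [ofComplex_apply_of_im_pos hz]
  · funext τ
    have hev : (fun z => G (ofComplex z) * Ψ z) =ᶠ[𝓝[≠] (τ : ℂ)] fun z => F (ofComplex z) := by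
      have h1 : ∀ᶠ z in 𝓝[≠] (τ : ℂ), G (ofComplex z) ≠ 0 := by
        refine (meromorphicOrderAt_ne_top_iff_eventually_ne_zero
          (analyticAt_comp_ofComplex hG τ).meromorphicAt).mp ?_
        obtain ⟨n, hn⟩ := exists_ordH_eq_natCast hG hG0 τ
        exact ne_of_eq_of_ne hn WithTop.coe_ne_top
      filter_upwards [h1, hmer.toMeromorphicNFOn_eq_self_on_nhdsNE τ.im_pos] with z hz1 hz2
      rw [show Ψ z = Φ z from hz2, hΦ]
      simp only [Pi.mul_apply, Pi.inv_apply, Function.comp_apply]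
      field_simp
    have hc1 : ContinuousAt (fun z => G (ofComplex z) * Ψ z) (τ : ℂ) :=
      (analyticAt_comp_ofComplex hG τ).continuousAt.mul (han τ τ.im_pos).continuousAt
    have hc2 : ContinuousAt (fun z => F (ofComplex z)) (τ : ℂ) :=
      (analyticAt_comp_ofComplex hF τ).continuousAt
    have := ((hc1.eventuallyEq_nhds_iff_eventuallyEq_nhdsNE hc2).mp hev).eq_of_nhds
    simpa using this

variable {N : ℕ} [NeZero N]

theorem D_jC_ne_zero : KaehlerDifferential.D ℂ (FC N) (jC N) ≠ 0 := by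
  have := FF.finiteDimensional_adjoin_of_transcendental (transcendental_jC (N := N))
  exact FF.Diff.D_ne_zero_of_span (FF.span_D_eq_top transcendental_jC)

/-- The divisor of `dj`. -/
def djDiv (N : ℕ) [NeZero N] : Divisor ℂ (FC N) :=
  canonicalDivisorOf (ω := KaehlerDifferential.D ℂ (FC N) (jC N))
    D_jC_ne_zero

theorem djDiv_apply (w : Place ℂ (FC N)) :
    djDiv N w = w.ordDifferential (KaehlerDifferential.D ℂ (FC N) (jC N)) :=
  canonicalDivisorOf_apply _ w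

/-- The space of `x` with `x dj` regular. -/
abbrev RegFun (N : ℕ) [NeZero N] : Submodule ℂ (FC N) := riemannRochSpace (djDiv N)

/-- At finite points `ord x ≥ 1 - h`. -/
theorem point_bound {x : FC N} (hxR : x ∈ RegFun N) (hx : x ≠ 0) (τ : ℍ) (q : Coset N) :
    1 - (ellOrder τ : ℤ) ≤ (cosetVal (pointExpansion N τ) q).ord x := by
  set a := X0.jFun τ with ha
  set u := cosetVal (pointExpansion N τ) q
  have hy0 : jC N - algebraMap ℂ (FC N) a ≠ 0 := jC_sub_ne_zero a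
  have huy : u.ord (jC N - algebraMap ℂ (FC N) a) = ellOrder τ := point_ord_jC_sub ha.symm q
  have h1 := one_le_ellOrder τ
  have hnt : ∃ f, f ≠ 0 ∧ u.ord f ≠ 0 := ⟨_, hy0, by rw [huy]; omega⟩
  obtain ⟨k, hk, hkord⟩ := u.exists_ord_eq_mul hnt
  set w := u.place hnt
  have he := hkord _ hy0
  rw [huy] at he
  have hepos : 0 < w.ord (jC N - algebraMap ℂ (FC N) a) := by
    by_contra hcon
    have : (k : ℤ) * w.ord (jC N - algebraMap ℂ (FC N) a) ≤ 0 :=
      mul_nonpos_of_nonneg_of_nonpos (Int.natCast_nonneg k) (not_lt.mp hcon)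
    omega
  have hW : -djDiv N w ≤ w.ord x := (FF.mem_rrSpace_of_ord hx).mp hxR w
  rw [djDiv_apply, FF.Diff.ordDifferential_D_eq_ramification w hepos.ne'] at hW
  rw [hkord x hx]
  have h2 : (k : ℤ) * (-(w.ord (jC N - algebraMap ℂ (FC N) a) - 1)) ≤ k * w.ord x :=
    mul_le_mul_of_nonneg_left hW (Int.natCast_nonneg k)
  have hk' : (1 : ℤ) ≤ k := by exact_mod_cast hk
  rw [mul_neg, mul_sub, mul_one, ← he] at h2
  linarith

/-- At the cusps `ord x ≥ N + 1` in `q_N`. -/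
theorem cusp_bound {x : FC N} (hxR : x ∈ RegFun N) (hx : x ≠ 0) (q : Coset N) :
    (N : ℤ) + 1 ≤ (cosetVal (cuspExpansion N) q).ord x := by
  set u := cosetVal (cuspExpansion N) q
  have huy : u.ord (jC N) = -(N : ℤ) := cusp_ord_jC q
  have hN : (0 : ℤ) < N := by exact_mod_cast Nat.pos_of_ne_zero (NeZero.ne N)
  have hnt : ∃ f, f ≠ 0 ∧ u.ord f ≠ 0 := ⟨_, jC_ne_zero, by rw [huy]; omega⟩
  obtain ⟨k, hk, hkord⟩ := u.exists_ord_eq_mul hnt
  set w := u.place hnt
  have he := hkord _ jC_ne_zero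
  rw [huy] at he
  have hne : w.ord (jC N) ≠ 0 := by
    intro h0; rw [h0, mul_zero] at he; omega
  have hW : -djDiv N w ≤ w.ord x := (FF.mem_rrSpace_of_ord hx).mp hxR w
  rw [djDiv_apply, (FF.Diff.regularPlace_charZero w).ordDifferential_D_of_ord_ne
    (Int.cast_ne_zero.mpr hne)] at hW
  rw [hkord x hx]
  have h2 : (k : ℤ) * (-(w.ord (jC N) - 1)) ≤ k * w.ord x :=
    mul_le_mul_of_nonneg_left hW (Int.natCast_nonneg k)
  have hk' : (1 : ℤ) ≤ k := by exact_mod_cast hk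
  rw [mul_neg, mul_sub, mul_one, ← he] at h2
  linarith

/-- `h` is the differential form `x · dj/dτ`. -/
def IsDiffForm (x : FC N) (h : ℍ → ℂ) : Prop :=
  MDiff h ∧ ∃ (k : ℤ) (f g : ℍ → ℂ), IsFormFn (Gamma0 N) k f ∧ IsFormFn (Gamma0 N) k g ∧ g ≠ 0 ∧
    (x : LaurentSeries ℂ) * lq g = lq f ∧ g * h = f * djFun

theorem mdiff_djFun : MDiff djFun :=
  ((mdiff_E₄.pow 2).mul mdiff_E₆).div mdiff_discriminant ModularForm.discriminant_ne_zero

omit [NeZero N] in
theorem IsDiffForm.mul_eq {x : FC N} {h : ℍ → ℂ} (hh : IsDiffForm x h) {k : ℤ} {f g : ℍ → ℂ}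
    (hf : IsFormFn (Gamma0 N) k f) (hg : IsFormFn (Gamma0 N) k g)
    (hrel : (x : LaurentSeries ℂ) * lq g = lq f) : g * h = f * djFun := by
  obtain ⟨hmd, k', f', g', hf', hg', hg'0, hrel', heq⟩ := hh
  have e : f * g' = f' * g := by
    rw [← lq_inj (hf.isQFn0.mul hg'.isQFn0) (hf'.isQFn0.mul hg.isQFn0),
      lq_mul hf.isQFn0 hg'.isQFn0, lq_mul hf'.isQFn0 hg.isQFn0, ← hrel, ← hrel']
    ring
  refine mdiff_mul_left_cancel hg'.mdiff (hg.mdiff.mul hmd) (hf.mdiff.mul mdiff_djFun) hg'0 ?_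
  rw [← mul_assoc, mul_comm g' g, mul_assoc, heq, ← mul_assoc, mul_comm g f', ← e]
  ring

omit [NeZero N] in
/-- The form of a differential is unique. -/
theorem IsDiffForm.unique {x : FC N} {h h' : ℍ → ℂ} (hh : IsDiffForm x h)
    (hh' : IsDiffForm x h') : h = h' := by
  obtain ⟨k, f, g, hf, hg, hg0, hrel, heq⟩ := hh.2
  exact mdiff_mul_left_cancel hg.mdiff hh.1 hh'.1 hg0 (heq.trans (hh'.mul_eq hf hg hrel).symm)

/-- The valuation of the coset `γ⁻¹ Γ₀(N)` at `x = f / g`, from the expansions of `f ∣ γ`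
and `g ∣ γ`. -/
theorem cosetVal_ord_mk_inv (ψ : Expansion N) (γ : SL(2, ℤ)) {x : FC N} (hx : x ≠ 0) {k : ℤ}
    {f g : ℍ → ℂ} (hf : IsFormFn (Gamma0 N) k f) (hg : IsFormFn (Gamma0 N) k g) (hg0 : g ≠ 0)
    (hrel : (x : LaurentSeries ℂ) * lq g = lq f) :
    f ≠ 0 ∧ (cosetVal ψ (QuotientGroup.mk γ⁻¹)).ord x =
      (ψ.ls (wslash hf γ)).order - (ψ.ls (wslash hg γ)).order := by
  obtain ⟨hf0, hord⟩ :=
    (IsFormField.ratioField N (FC N)).intVal_ord_rep ψ γ hx hf hg hg0 hrel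
  obtain ⟨δ, hδ⟩ := QuotientGroup.mk_out_eq_mul (Gamma0 N) γ⁻¹
  refine ⟨hf0, ?_⟩
  rw [cosetVal_ord, cosetRep, hδ, mul_inv_rev, inv_inv, ψ.conjHom_mul_left (inv_mem δ.2)]
  exact hord

/-- Every regular differential comes from a holomorphic form. -/
theorem exists_isDiffForm {x : FC N} (hxR : x ∈ RegFun N) : ∃ h, IsDiffForm x h := by
  rcases eq_or_ne x 0 with rfl | hx
  · exact ⟨0, mdifferentiable_const, 0, 0, 1, IsFormFn.zero, IsFormFn.one, one_ne_zero,
      by simp, by simp⟩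
  obtain ⟨k, f, g, hf, hg, hg0, hrel⟩ := (Mono.mem_FC_iff N).mp x.2
  obtain ⟨h, hh, heq⟩ := exists_mdiff_quotient (hf.mdiff.mul mdiff_djFun) hg.mdiff hg0 fun τ => by
    obtain ⟨hf0, hord⟩ := cosetVal_ord_mk_inv (pointExpansion N τ) 1 hx hf hg hg0 hrel
    have hb := point_bound hxR hx τ (QuotientGroup.mk (1 : SL(2, ℤ))⁻¹)
    rw [hord] at hb
    have e1 := ordH_point_eq τ 1 hf hf0
    have e2 := ordH_point_eq τ 1 hg hg0
    rw [SlashAction.slash_one] at e1 e2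
    show ordH g τ ≤ ordH (fun z => f z * djFun z) τ
    rw [ordH_mul hf.mdiff mdiff_djFun, e1, e2, ordH_djFun, ← WithTop.coe_add, WithTop.coe_le_coe]
    omega
  exact ⟨h, hh, k, f, g, hf, hg, hg0, hrel, heq⟩

theorem djFun_slash (γ : SL(2, ℤ)) : djFun ∣[(2 : ℤ)] γ = djFun := by
  ext τ
  have hd : denom γ τ ≠ 0 := denom_ne_zero _ _
  have h4 := form_smul_apply (k := 4) ModularForm.E₄ γ τ
  have h6 := form_smul_apply (k := 6) ModularForm.E₆ γ τ
  have h12 : ModularForm.discriminant (γ • τ)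
      = denom γ τ ^ (12 : ℤ) * ModularForm.discriminant τ :=
    form_smul_apply (k := 12) CuspForm.discriminant γ τ
  have := ModularForm.discriminant_ne_zero τ
  rw [ModularForm.SL_slash_apply]
  simp only [djFun, h4, h6, h12]
  field_simp

omit [NeZero N] in
theorem IsDiffForm.slash_mul_eq {x : FC N} {h : ℍ → ℂ} (hh : IsDiffForm x h) {k : ℤ}
    {f g : ℍ → ℂ} (hf : IsFormFn (Gamma0 N) k f) (hg : IsFormFn (Gamma0 N) k g)
    (hrel : (x : LaurentSeries ℂ) * lq g = lq f) (γ : SL(2, ℤ)) :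
    (g ∣[k] γ) * (h ∣[(2 : ℤ)] γ) = (f ∣[k] γ) * djFun := by
  have e := hh.mul_eq hf hg hrel
  have := congrArg (fun u => u ∣[k + 2] γ) e
  rwa [ModularForm.mul_slash_SL2, ModularForm.mul_slash_SL2, djFun_slash] at this

omit [NeZero N] in
theorem IsDiffForm.slash_eq {x : FC N} {h : ℍ → ℂ} (hh : IsDiffForm x h) {γ : SL(2, ℤ)}
    (hγ : γ ∈ Gamma0 N) : h ∣[(2 : ℤ)] γ = h := by
  obtain ⟨k, f, g, hf, hg, hg0, hrel, heq⟩ := hh.2
  have e := hh.slash_mul_eq hf hg hrel γ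
  rw [hf.slash_eq γ hγ, hg.slash_eq γ hγ, ← heq] at e
  exact mdiff_mul_left_cancel hg.mdiff (by rw [ModularForm.SL_slash]; exact hh.1.slash _ _) hh.1
    hg0 e

/-- Factorisation at `q = 0`. -/
theorem exists_cusp_factor {F : wideAlgebra N} (hF : F ≠ 0) :
    ∃ (n : ℕ) (u : ℂ → ℂ), ((cuspExpansion N).ls F).order = n ∧ AnalyticAt ℂ u 0 ∧ u 0 ≠ 0 ∧
      ∀ᶠ τ in atImInfty, (F : ℍ → ℂ) τ = 𝕢 (N : ℝ) (τ : ℂ) ^ n * u (𝕢 (N : ℝ) (τ : ℂ)) := by
  obtain ⟨n, hn, hn'⟩ := cuspExp_order_eq hF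
  have han : AnalyticAt ℂ (cuspFunction (N : ℝ) (F : ℍ → ℂ)) 0 := IsWFn.analyticAt F.2
  have ho : analyticOrderAt (cuspFunction (N : ℝ) (F : ℍ → ℂ)) 0 = n := by
    rw [← order_taylorPS han]
    exact hn'
  obtain ⟨u, hu, hu0, hev⟩ := han.analyticOrderAt_eq_natCast.mp ho
  refine ⟨n, u, hn, hu, hu0, ?_⟩
  filter_upwards [(qParam_tendsto_atImInfty (periodPos N)).eventually hev] with τ hτ
  rw [← eq_cuspFunction τ (periodPos N).ne' F.2.periodic]
  simpa using hτ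

/-- The form of a regular differential vanishes at every cusp. -/
theorem IsDiffForm.isZeroAtImInfty {x : FC N} {h : ℍ → ℂ} (hxR : x ∈ RegFun N)
    (hh : IsDiffForm x h) (γ : SL(2, ℤ)) : IsZeroAtImInfty (h ∣[(2 : ℤ)] γ) := by
  rcases eq_or_ne x 0 with rfl | hx
  · have : h = 0 := hh.unique ⟨mdifferentiable_const, 0, 0, 1, IsFormFn.zero, IsFormFn.one,
      one_ne_zero, by simp, by simp⟩
    rw [this, SlashAction.zero_slash]
    exact Filter.zero_zeroAtFilter _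
  obtain ⟨k, f, g, hf, hg, hg0, hrel, -⟩ := hh.2
  obtain ⟨hf0, hord⟩ := cosetVal_ord_mk_inv (cuspExpansion N) γ hx hf hg hg0 hrel
  have hb := cusp_bound hxR hx (QuotientGroup.mk γ⁻¹)
  rw [hord] at hb
  have e := hh.slash_mul_eq hf hg hrel γ
  obtain ⟨a, u, ha, hu, hu0, hua⟩ :=
    exists_cusp_factor (F := wslash hf γ) fun h0 => slash_ne_zero hf0 γ (congrArg Subtype.val h0)
  obtain ⟨b, v, hb', hv, hv0, hvb⟩ :=
    exists_cusp_factor (F := wslash hg γ) fun h0 => slash_ne_zero hg0 γ (congrArg Subtype.val h0)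
  have hΔ : IsFormFn ⊤ 12 deltaFn := isFormFn_delta.cast rfl
  obtain ⟨c, w, hc, hw, hw0, hwc⟩ :=
    exists_cusp_factor (F := (lwide hΔ : wideAlgebra N)) (lwide_ne_zero hΔ deltaFn_ne_zero')
  rw [ha, hb'] at hb
  rw [show (lwide hΔ : wideAlgebra N) = lwide (isFormFn_delta.cast rfl) from rfl,
    cusp_order_delta] at hc
  obtain ⟨d, hd⟩ : ∃ d : ℕ, a = b + c + (d + 1) := ⟨a - b - c - 1, by omega⟩
  have hb4 : IsBoundedAtImInfty ((E4fn ^ 2 * E6fn : ℍ → ℂ)) := by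
    have := ((isFormFn_E4.pow 2).mul isFormFn_E6).bdd 1
    rwa [SlashAction.slash_one] at this
  have hq := qParam_tendsto_atImInfty (periodPos N)
  have key : ∀ᶠ τ in atImInfty, (h ∣[(2 : ℤ)] γ) τ =
      (E4fn ^ 2 * E6fn) τ * (𝕢 (N : ℝ) (τ : ℂ) ^ (d + 1) * u (𝕢 (N : ℝ) (τ : ℂ)) /
        (v (𝕢 (N : ℝ) (τ : ℂ)) * w (𝕢 (N : ℝ) (τ : ℂ)))) := by
    filter_upwards [hua, hvb, hwc, hq.eventually (hv.continuousAt.eventually_ne hv0),
      hq.eventually (hw.continuousAt.eventually_ne hw0)] with τ h1 h2 h3 h4 h5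
    have e' := congrFun e τ
    simp only [Pi.mul_apply] at e'
    have hj : djFun τ = (E4fn ^ 2 * E6fn) τ / deltaFn τ := rfl
    change (f ∣[k] γ) τ = _ at h1
    change (g ∣[k] γ) τ = _ at h2
    change deltaFn τ = _ at h3
    rw [h1, h2, hj, h3] at e'
    set Q := 𝕢 (N : ℝ) (τ : ℂ) with hQ
    have hQ0 : Q ≠ 0 := Complex.exp_ne_zero _
    rw [hd] at e'
    field_simp at e' ⊢
    rw [pow_add, pow_add] at e'
    have hQb : Q ^ b * Q ^ c ≠ 0 := mul_ne_zero (pow_ne_zero _ hQ0) (pow_ne_zero _ hQ0)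
    apply mul_left_cancel₀ hQb
    linear_combination e'
  have hlim : Tendsto (fun τ : ℍ => 𝕢 (N : ℝ) (τ : ℂ) ^ (d + 1) * u (𝕢 (N : ℝ) (τ : ℂ)) /
      (v (𝕢 (N : ℝ) (τ : ℂ)) * w (𝕢 (N : ℝ) (τ : ℂ)))) atImInfty (𝓝 0) := by
    have hcts : ContinuousAt (fun q : ℂ => q ^ (d + 1) * u q / (v q * w q)) 0 :=
      (((continuous_pow _).continuousAt.mul hu.continuousAt).div
        (hv.continuousAt.mul hw.continuousAt) (mul_ne_zero hv0 hw0))
    have := hcts.tendsto.comp hq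
    simpa [zero_pow (Nat.succ_ne_zero d)] using! this
  refine Tendsto.congr' (key.mono fun _ h => h.symm) ?_
  have := Asymptotics.IsBigO.mul_isLittleO hb4 ((Asymptotics.isLittleO_one_iff ℝ).mpr hlim)
  exact (Asymptotics.isLittleO_one_iff ℝ).mp (by simpa using this)

/-- The cusp form of `x`. -/
def cuspFormOf (x : RegFun N) : CuspForm (Gamma0 N) 2 where
  toFun := (exists_isDiffForm x.2).choose
  slash_action_eq' := by
    rintro _ ⟨γ, hγ, rfl⟩
    exact (exists_isDiffForm x.2).choose_spec.slash_eq hγ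
  holo' := (exists_isDiffForm x.2).choose_spec.1
  zero_at_cusps' {c} hc := by
    rw [Subgroup.IsArithmetic.isCusp_iff_isCusp_SL2Z] at hc
    rw [OnePoint.isZeroAt_iff_forall_SL2Z hc]
    exact fun γ _ => (exists_isDiffForm x.2).choose_spec.isZeroAtImInfty x.2 γ

theorem cuspFormOf_spec (x : RegFun N) : IsDiffForm (x : FC N) (cuspFormOf x) :=
  (exists_isDiffForm x.2).choose_spec

omit [NeZero N] in
theorem IsDiffForm.add {x y : FC N} {h h' : ℍ → ℂ} (hh : IsDiffForm x h) (hh' : IsDiffForm y h') :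
    IsDiffForm (x + y) (h + h') := by
  obtain ⟨k, f, g, hf, hg, hg0, hrel, heq⟩ := hh.2
  obtain ⟨k', f', g', hf', hg', hg'0, hrel', heq'⟩ := hh'.2
  refine ⟨hh.1.add hh'.1, k + k', f * g' + g * f', g * g', (hf.mul hg').add (hg.mul hf'),
    hg.mul hg', fun h0 => ((UpperHalfPlane.mul_eq_zero_iff hg.mdiff hg'.mdiff).mp h0).elim
      hg0 hg'0, ?_, ?_⟩
  · rw [lq_add (hf.isQFn0.mul hg'.isQFn0) (hg.isQFn0.mul hf'.isQFn0),
      lq_mul hg.isQFn0 hg'.isQFn0, lq_mul hf.isQFn0 hg'.isQFn0, lq_mul hg.isQFn0 hf'.isQFn0,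
      ← hrel, ← hrel']
    push_cast
    ring
  · linear_combination g' * heq + g * heq'

omit [NeZero N] in
theorem IsDiffForm.smul {x : FC N} {h : ℍ → ℂ} (hh : IsDiffForm x h) (c : ℂ) :
    IsDiffForm (c • x) (c • h) := by
  obtain ⟨k, f, g, hf, hg, hg0, hrel, heq⟩ := hh.2
  refine ⟨hh.1.const_smul c, k, c • f, g, hf.smul c, hg, hg0, ?_, ?_⟩
  · rw [lq_smul hf.isQFn0, ← hrel]
    rw [show ((c • x : FC N) : LaurentSeries ℂ) = algebraMap ℂ (LaurentSeries ℂ) c * x by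
      rw [Algebra.smul_def]; rfl, ModularCurve.algebraMap_laurentSeries_eq_single, mul_assoc]
    rfl
  · rw [mul_smul_comm, heq, smul_mul_assoc]

/-- `x ↦ x dj` as a linear map into cusp forms. -/
def diffFormLin : RegFun N →ₗ[ℂ] CuspForm (Gamma0 N) 2 where
  toFun := cuspFormOf
  map_add' x y := DFunLike.ext' <| by
    rw [FunLike.coe_add]
    exact (cuspFormOf_spec (x + y)).unique ((cuspFormOf_spec x).add (cuspFormOf_spec y))
  map_smul' c x := DFunLike.ext' <| by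
    rw [RingHom.id_apply, FunLike.coe_smul]
    exact (cuspFormOf_spec (c • x)).unique ((cuspFormOf_spec x).smul c)

theorem djFun_ne_zero : djFun ≠ 0 := fun h => by
  have h1 := ordH_djFun UpperHalfPlane.I
  have h0 : ordH (0 : ℍ → ℂ) UpperHalfPlane.I = ⊤ := by
    rw [ordH, meromorphicOrderAt_eq_top_iff]
    exact Filter.Eventually.of_forall fun _ => rfl
  rw [h, h0] at h1
  exact WithTop.top_ne_coe h1

theorem diffFormLin_injective : Injective (diffFormLin (N := N)) := by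
  rw [injective_iff_map_eq_zero]
  intro x hx
  obtain ⟨k, f, g, hf, hg, hg0, hrel, heq⟩ := (cuspFormOf_spec x).2
  have hx' : cuspFormOf x = 0 := hx
  rw [hx', FunLike.coe_zero, mul_zero] at heq
  have hf0 : f = 0 :=
    ((UpperHalfPlane.mul_eq_zero_iff hf.mdiff mdiff_djFun).mp heq.symm).resolve_right djFun_ne_zero
  rw [hf0, lq_zero, mul_eq_zero, lq_eq_zero_iff hg.isQFn0] at hrel
  exact Subtype.ext (Subtype.ext (hrel.resolve_right hg0))

end Fermat.Agent.X0
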