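import Fermat.Agent.FF.Curve
import Fermat.Agent.FF.DiffGenus
import Fermat.Agent.Mono.BaseChange
import Fermat.Agent.X0.CuspCount

/-!
# The genus of `X₀(N)` over `ℂ` and over `ℚ̄`

Riemann–Hurwitz for `j` gives the classical formula over `ℂ`; it descends to `ℚ̄` because places
over a fibre correspond under base change.
-/

noncomputable section

open AlgebraicCurve
open scoped IntermediateField

namespace Fermat.Agent.X0

local notation "FC" => Fermat.Agent.Mono.FC
local notation "ℚbar" => AlgebraicClosure ℚ

/-- Riemann–Hurwitz for a function branched only over `0`, `1728`, `∞`. -/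
theorem two_genus_eq_of_counts {K F : Type*} [Field K] [Field F] [Algebra K F] [IsAlgClosed K]
    [CharZero K] [FF.IsFunctionField K F] {x : F} (hx : Transcendental K x)
    (hunr : ∀ v : Place K F, ∀ c : K, c ≠ 0 → c ≠ 1728 → 0 < v.ord (x - algebraMap K F c) →
      v.ord (x - algebraMap K F c) = 1) :
    2 * (genusFF K F : ℤ) - 2 = (Module.finrank K⟮x⟯ F : ℤ)
      - (Nat.card {w : Place K F // w.ord x < 0} : ℤ)
      - (Nat.card {w : Place K F // 0 < w.ord x} : ℤ)
      - (Nat.card {w : Place K F // 0 < w.ord (x - algebraMap K F 1728)} : ℤ) := by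
  classical
  obtain ⟨T, hT⟩ := FF.Diff.exists_fibres x ({0, 1728} : Finset K)
  have hS : ({0, 1728} : Finset K).card = 2 :=
    Finset.card_pair (by norm_num : (0 : K) ≠ 1728)
  have h := FF.Diff.two_genus_sub_two_eq hx {0, 1728} T hT fun v c hc hpos =>
    hunr v c (fun h => hc (by simp [h])) (fun h => hc (by simp [h])) hpos
  rw [hS] at h
  have hfin : ({w : Place K F | w.ord x < 0}).Finite :=
    (FF.finite_ord_ne_zero (K := K) x).subset fun w (hw : w.ord x < 0) => ne_of_lt hw
  have hf0 := FF.finite_ord_pos (K := K) x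
  have hf1 := FF.finite_ord_pos (K := K) (x - algebraMap K F 1728)
  have hTeq : T = hfin.toFinset ∪ (hf0.toFinset ∪ hf1.toFinset) := by
    ext v
    simp [hT]
  have hd1 : Disjoint hf0.toFinset hf1.toFinset := by
    rw [Finset.disjoint_left]
    intro v h0 h1
    simp only [Set.Finite.mem_toFinset, Set.mem_ofPred_eq] at h0 h1
    have hne : (1728 : K) ≠ 0 := by norm_num
    have hcne : algebraMap K F 1728 ≠ 0 := (_root_.map_ne_zero _).mpr hne
    have hlt := FF.ord_add_eq_of_lt v (f := -algebraMap K F 1728) (g := x)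
      (neg_ne_zero.mpr hcne) (Or.inr (by rw [FF.ord_neg, FF.ord_algebraMap]; exact h0))
    rw [FF.ord_neg, FF.ord_algebraMap, neg_add_eq_sub] at hlt
    omega
  have hd2 : Disjoint hfin.toFinset (hf0.toFinset ∪ hf1.toFinset) := by
    rw [Finset.disjoint_left]
    intro v hneg hv
    simp only [Set.Finite.mem_toFinset, Set.mem_ofPred_eq, Finset.mem_union] at hneg hv
    rcases hv with hv | hv
    · omega
    · rw [sub_eq_add_neg, FF.ord_add_eq_of_lt v (fun h => by simp [h] at hneg)
        (Or.inr (by rw [FF.ord_neg, FF.ord_algebraMap]; exact hneg))] at hv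
      omega
  rw [hTeq, Finset.card_union_of_disjoint hd2, Finset.card_union_of_disjoint hd1,
    ← Nat.card_eq_card_finite_toFinset hfin, ← Nat.card_eq_card_finite_toFinset hf0,
    ← Nat.card_eq_card_finite_toFinset hf1] at h
  push_cast at h
  simp only [Set.coe_ofPred, one_mul] at h
  linarith [h]

variable (N : ℕ) [NeZero N]

/-- The genus of `X₀(N)_ℂ`. -/
theorem genusFF_FC : (genusFF ℂ (FC N) : ℚ) = ModularCurve.genusFormula N := by
  have h := two_genus_eq_of_counts (transcendental_jC (N := N))
    fun v c h0 h1 hpos => ord_jC_sub_eq_one N h0 h1 v hpos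
  rw [finrank_jC, ← Subgroup.index_eq_card, Grp.index_Gamma0, natCard_poles_jC] at h
  have h0 := natCard_zeros_jC N
  have h1 := natCard_zeros_jC_sub_1728 N
  rw [ModularCurve.genusFormula]
  qify at h h0 h1
  linarith

/-! ### Descent to `ℚ̄` -/

/-- `j` in `ℚ̄(X₀(N))`. -/
def jBar : ModularCurve.modularFunctionFieldBar N :=
  ⟨ModularCurve.jqModC ℚbar, by
    rw [show ModularCurve.modularFunctionFieldBar N = _ from
      MF.laurentBaseChange_full_eq_pair ℚbar N]
    exact ModularCurve.jqModC_mem ℚbar N⟩

variable {N}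

theorem toFC_jBar : Mono.toFC N (jBar N) = jC N :=
  Subtype.ext (ModularCurve.map_jqModC _)

omit [NeZero N] in
theorem toFC_algebraMap (c : ℚbar) :
    Mono.toFC N (algebraMap ℚbar (ModularCurve.modularFunctionFieldBar N) c) =
      algebraMap ℂ (FC N) (complexEmbedding c) :=
  (Mono.isConstExt_baseChangeHom _ complexEmbedding).compat c

/-- Places over a fibre correspond under base change. -/
theorem natCard_pos_toFC (y : ModularCurve.modularFunctionFieldBar N) :
    Nat.card {v : Place ℚbar (ModularCurve.modularFunctionFieldBar N) // 0 < v.ord y} =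
      Nat.card {W : Place ℂ (FC N) // 0 < W.ord (Mono.toFC N y)} := by
  refine Nat.card_eq_of_bijective
    (fun v => ⟨Mono.placeC N v.1, by rw [Mono.ord_placeC]; exact v.2⟩) ⟨?_, ?_⟩
  · exact fun a b h => Subtype.ext (Mono.placeC_injective N (congrArg Subtype.val h))
  · rintro ⟨W, hW⟩
    have hinj := (Mono.toFC N).injective
    let u : IntVal ℚbar (ModularCurve.modularFunctionFieldBar N) :=
      { ord := fun f => W.ord (Mono.toFC N f)
        map_mul := fun {f g} hf hg => by
          rw [map_mul]
          exact W.ord_mul ((_root_.map_ne_zero _).mpr hf) ((_root_.map_ne_zero _).mpr hg)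
        map_add := fun {f g} hf hg hfg => by
          rw [map_add]
          exact (intValOfPlace W).map_add ((_root_.map_ne_zero _).mpr hf)
            ((_root_.map_ne_zero _).mpr hg)
            (by rw [← map_add]; exact (_root_.map_ne_zero _).mpr hfg)
        map_const := fun {c} _ => by
          rw [toFC_algebraMap]
          exact FF.ord_algebraMap W _ }
    have hy0 : y ≠ 0 := fun h => by simp [h] at hW
    have hnt : ∃ f, f ≠ 0 ∧ u.ord f ≠ 0 := ⟨y, hy0, (ne_of_gt hW)⟩
    have hWv : W = Mono.placeC N (u.place hnt) := Mono.placeC_unique N _ _ fun x => by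
      show _ ↔ (x ≠ 0 → 0 ≤ W.ord (Mono.toFC N x))
      rw [mem_place_iff]
      exact imp_congr_left (_root_.map_ne_zero _)
    refine ⟨⟨u.place hnt, ?_⟩, Subtype.ext hWv.symm⟩
    rw [← Mono.ord_placeC N, ← hWv]
    exact hW

theorem natCard_neg_toFC (y : ModularCurve.modularFunctionFieldBar N) :
    Nat.card {v : Place ℚbar (ModularCurve.modularFunctionFieldBar N) // v.ord y < 0} =
      Nat.card {W : Place ℂ (FC N) // W.ord (Mono.toFC N y) < 0} := by
  have h := natCard_pos_toFC (y⁻¹)
  rw [map_inv₀] at h
  simp only [Place.ord_inv] at h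
  simpa only [neg_pos] using h

theorem transcendental_jBar : Transcendental ℚbar (jBar N) :=
  MF.transcendental_elem _ (jBar N) rfl

variable (N) in
/-- The genus of `X₀(N)_ℚ̄`. -/
theorem genusFF_bar :
    (genusFF ℚbar (ModularCurve.modularFunctionFieldBar N) : ℚ) = ModularCurve.genusFormula N := by
  have h := two_genus_eq_of_counts (transcendental_jBar (N := N)) fun v c h0 h1 hpos => by
    rw [← Mono.ord_placeC N, map_sub, toFC_jBar, toFC_algebraMap] at hpos ⊢
    refine ord_jC_sub_eq_one N (by simpa using h0) ?_ _ hpos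
    rw [← map_ofNat complexEmbedding 1728]
    exact fun h => h1 ((complexEmbedding : ℚbar →+* ℂ).injective h)
  rw [(MF.finrank_adjoin_eq N _ (MF.laurentBaseChange_full_eq_pair ℚbar N) (jBar N) rfl).2,
    natCard_neg_toFC, natCard_pos_toFC, natCard_pos_toFC, map_sub, toFC_jBar, toFC_algebraMap,
    map_ofNat, ← Subgroup.index_eq_card, Grp.index_Gamma0, natCard_poles_jC] at h
  have h0 := natCard_zeros_jC N
  have h1 := natCard_zeros_jC_sub_1728 N
  rw [ModularCurve.genusFormula]
  qify at h h0 h1
  linarith

end Fermat.Agent.X0
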