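import Fermat.Agent.Periods.Range
import Fermat.Agent.X0.DiffForms
import Fermat.Agent.X0.Genus

/-!
# `g(X₀(N)) ≤ dim S₂(Γ₀(N))`

Regular differentials map injectively to cusp forms of weight two. Together with the period map
this gives the dimension formula and the Eichler–Shimura isomorphism.
-/

noncomputable section

open AlgebraicCurve CongruenceSubgroup
open scoped IntermediateField

namespace Fermat.Agent.X0

local notation "FC" => Fermat.Agent.Mono.FC

variable (N : ℕ) [NeZero N]

/-- The space of regular differentials has dimension `g`. -/
theorem finrank_regFun : Module.finrank ℂ (RegFun N) = genusFF ℂ (FC N) := by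
  have := FF.finiteDimensional_adjoin_of_transcendental (transcendental_jC (N := N))
  exact FF.Diff.ell_divDifferential (transcendental_jC (N := N)) D_jC_ne_zero djDiv_apply

/-- The lower bound `g ≤ dim S₂`. -/
theorem genusFormula_le_finrank :
    ModularCurve.genusFormula N ≤ (Module.finrank ℂ (CuspForm (Gamma0 N) 2) : ℚ) := by
  have := Periods.finiteDimensional_cuspForm_two N
  have h := LinearMap.finrank_le_finrank_of_injective (diffFormLin_injective (N := N))
  rw [finrank_regFun] at h
  rw [← genusFF_FC]
  exact_mod_cast h

end Fermat.Agent.X0
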