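import Mathlib.Algebra.Polynomial.Div
import Mathlib.FieldTheory.IntermediateField.Adjoin.Basic
import Mathlib.RingTheory.Valuation.ValuationSubring
import Fermat.Prelude.Def_AlgebraicCurve_Repartitions

/-!
# Integer valuations and places

An additive integer valuation, trivial on the constants and nonzero somewhere, is a positive
multiple of the order at a place; on `K(y)` all valuations positive at `y` are proportional.
-/

noncomputable section

open AlgebraicCurve Polynomial
open scoped IntermediateField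

namespace Fermat.Agent.X0

variable {K F : Type*} [Field K] [Field F] [Algebra K F]

/-- An additive `ℤ`-valued valuation on `F`, trivial on `K` (the value at `0` is junk). -/
structure IntVal (K F : Type*) [Field K] [Field F] [Algebra K F] where
  /-- the valuation -/
  ord : F → ℤ
  map_mul : ∀ {f g : F}, f ≠ 0 → g ≠ 0 → ord (f * g) = ord f + ord g
  map_add : ∀ {f g : F}, f ≠ 0 → g ≠ 0 → f + g ≠ 0 → min (ord f) (ord g) ≤ ord (f + g)
  map_const : ∀ {c : K}, c ≠ 0 → ord (algebraMap K F c) = 0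

namespace IntVal

variable (u : IntVal K F)

theorem map_one : u.ord 1 = 0 := by
  simpa using u.map_const (one_ne_zero (α := K))

theorem map_inv {f : F} (hf : f ≠ 0) : u.ord f⁻¹ = -u.ord f := by
  have := u.map_mul hf (inv_ne_zero hf)
  rw [mul_inv_cancel₀ hf, u.map_one] at this
  omega

theorem map_div {f g : F} (hf : f ≠ 0) (hg : g ≠ 0) : u.ord (f / g) = u.ord f - u.ord g := by
  rw [div_eq_mul_inv, u.map_mul hf (inv_ne_zero hg), u.map_inv hg, sub_eq_add_neg]

theorem map_neg {f : F} (hf : f ≠ 0) : u.ord (-f) = u.ord f := by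
  have h : u.ord (algebraMap K F (-1)) = 0 := u.map_const (neg_ne_zero.mpr one_ne_zero)
  simp only [_root_.map_neg, _root_.map_one] at h
  rw [← neg_one_mul f, u.map_mul (neg_ne_zero.mpr one_ne_zero) hf, h, zero_add]

theorem map_pow {f : F} (hf : f ≠ 0) (n : ℕ) : u.ord (f ^ n) = n * u.ord f := by
  induction n with
  | zero => simp [u.map_one]
  | succ n ih =>
    rw [pow_succ, u.map_mul (pow_ne_zero n hf) hf, ih]
    push_cast
    ring

theorem map_zpow {f : F} (hf : f ≠ 0) (n : ℤ) : u.ord (f ^ n) = n * u.ord f := by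
  obtain ⟨m, rfl | rfl⟩ := n.eq_nat_or_neg
  · simpa using u.map_pow hf m
  · rw [zpow_neg, zpow_natCast, u.map_inv (pow_ne_zero m hf), u.map_pow hf]
    ring

theorem map_add_eq_of_lt {f g : F} (hf : f ≠ 0) (hg : g ≠ 0) (h : u.ord f < u.ord g) :
    f + g ≠ 0 ∧ u.ord (f + g) = u.ord f := by
  have hs : f + g ≠ 0 := by
    intro h0
    rw [eq_neg_of_add_eq_zero_left h0, u.map_neg hg] at h
    exact lt_irrefl _ h
  refine ⟨hs, le_antisymm ?_ ?_⟩
  · have := u.map_add hs (neg_ne_zero.mpr hg) (by simpa using hf)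
    simp only [add_neg_cancel_right, u.map_neg hg] at this
    omega
  · have := u.map_add hf hg hs
    omega

/-- The valuation subring of `u`. -/
def valuationSubring : ValuationSubring F where
  carrier := {f | f ≠ 0 → 0 ≤ u.ord f}
  mul_mem' {f g} hf hg hfg := by
    rw [u.map_mul (left_ne_zero_of_mul hfg) (right_ne_zero_of_mul hfg)]
    exact add_nonneg (hf (left_ne_zero_of_mul hfg)) (hg (right_ne_zero_of_mul hfg))
  one_mem' _ := u.map_one.ge
  add_mem' {f g} hf hg hfg := by
    rcases eq_or_ne f 0 with rfl | hf0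
    · simpa using hg (by simpa using hfg)
    rcases eq_or_ne g 0 with rfl | hg0
    · simpa using hf hf0
    exact le_trans (le_min (hf hf0) (hg hg0)) (u.map_add hf0 hg0 hfg)
  zero_mem' h := absurd rfl h
  neg_mem' {f} hf hne := by
    rw [u.map_neg (neg_ne_zero.mp hne)]
    exact hf (neg_ne_zero.mp hne)
  mem_or_inv_mem' f := by
    rcases eq_or_ne f 0 with rfl | hf
    · exact Or.inl fun h => absurd rfl h
    rcases le_total 0 (u.ord f) with h | h
    · exact Or.inl fun _ => h
    · exact Or.inr fun _ => by rw [u.map_inv hf]; omega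

theorem mem_valuationSubring_iff {f : F} :
    f ∈ u.valuationSubring ↔ (f ≠ 0 → 0 ≤ u.ord f) := Iff.rfl

theorem isPrincipalIdealRing : IsPrincipalIdealRing u.valuationSubring := by
  classical
  refine ⟨fun I => ⟨?_⟩⟩
  by_cases hI : ∀ a ∈ I, a = (0 : u.valuationSubring)
  · refine ⟨0, ?_⟩
    rw [Submodule.span_zero_singleton]
    exact (Submodule.eq_bot_iff I).mpr hI
  push Not at hI
  obtain ⟨a₀, ha₀, ha₀0⟩ := hI
  have hex : ∃ n : ℕ, ∃ a ∈ I, a ≠ 0 ∧ (u.ord (a : F)).toNat = n := ⟨_, a₀, ha₀, ha₀0, rfl⟩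
  obtain ⟨a, ha, ha0, han⟩ := Nat.find_spec hex
  refine ⟨a, le_antisymm (fun b hb => ?_) ((Submodule.span_singleton_le_iff_mem a I).mpr ha)⟩
  rcases eq_or_ne b 0 with rfl | hb0
  · exact zero_mem _
  have haF : (a : F) ≠ 0 := by simpa using ha0
  have hbF : (b : F) ≠ 0 := by simpa using hb0
  have hle : u.ord (a : F) ≤ u.ord (b : F) := by
    have := Nat.find_min' hex ⟨b, hb, hb0, rfl⟩
    have := a.2 haF
    have := b.2 hbF
    omega
  refine Submodule.mem_span_singleton.mpr ⟨⟨(b : F) / a, fun _ => ?_⟩, ?_⟩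
  · rw [u.map_div hbF haF]; omega
  · exact Subtype.ext (div_mul_cancel₀ _ haF)

/-- The place of a nontrivial `IntVal`. -/
def place (h : ∃ f : F, f ≠ 0 ∧ u.ord f ≠ 0) : Place K F where
  toValuationSubring := u.valuationSubring
  algebraMap_mem' c hc := (u.map_const (fun h0 => hc (by simp [h0]))).ge
  ne_top' htop := by
    obtain ⟨f, hf, hne⟩ := h
    have h1 : f ∈ u.valuationSubring := by rw [htop]; exact ValuationSubring.mem_top _
    have h2 : f⁻¹ ∈ u.valuationSubring := by rw [htop]; exact ValuationSubring.mem_top _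
    have := h1 hf
    have := h2 (inv_ne_zero hf)
    rw [u.map_inv hf] at this
    omega
  isPrincipalIdealRing' := u.isPrincipalIdealRing

end IntVal

/-- Membership in the ring of a place. -/
theorem mem_place_iff (w : Place K F) {f : F} :
    f ∈ w.toValuationSubring ↔ (f ≠ 0 → 0 ≤ w.ord f) := by
  refine ⟨fun h hf => ?_, fun h => ?_⟩
  · exact ((w.adicValuation_le_one_iff).mp (w.adicValuation_le_one_of_mem h)).resolve_left hf
  · rcases eq_or_ne f 0 with rfl | hf
    · exact zero_mem _
    obtain ⟨π, hπ⟩ := IsDiscreteValuationRing.exists_irreducible w.toValuationSubring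
    obtain ⟨v, hv⟩ := w.exists_unit_mul_zpow hf hπ
    obtain ⟨n, hn⟩ := Int.eq_ofNat_of_zero_le (h hf)
    rw [hv, hn, zpow_natCast]
    exact mul_mem (SetLike.coe_mem _) (pow_mem (SetLike.coe_mem _) n)

/-- The order at a place, as an `IntVal`. -/
def intValOfPlace (w : Place K F) : IntVal K F where
  ord := w.ord
  map_mul hf hg := w.ord_mul hf hg
  map_add {f g} hf hg hfg := by
    have h := Valuation.map_add w.adicValuation f g
    rw [w.adicValuation_eq_exp_neg_ord hfg, w.adicValuation_eq_exp_neg_ord hf,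
      w.adicValuation_eq_exp_neg_ord hg] at h
    rcases le_max_iff.mp h with h' | h' <;> rw [WithZero.exp_le_exp] at h' <;> omega
  map_const {c} hc := by
    have h1 : 0 ≤ w.ord (algebraMap K F c) :=
      (mem_place_iff w).mp (w.algebraMap_mem' c) (by simpa using hc)
    have h2 : 0 ≤ w.ord (algebraMap K F c⁻¹) :=
      (mem_place_iff w).mp (w.algebraMap_mem' c⁻¹) (by simpa using hc)
    rw [map_inv₀, w.ord_inv] at h2
    omega

@[simp] theorem intValOfPlace_ord (w : Place K F) (f : F) : (intValOfPlace w).ord f = w.ord f :=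
  rfl

/-- A nontrivial `IntVal` is a positive multiple of the order at its place. -/
theorem IntVal.exists_ord_eq_mul (u : IntVal K F) (h : ∃ f : F, f ≠ 0 ∧ u.ord f ≠ 0) :
    ∃ k : ℕ, 0 < k ∧ ∀ f : F, f ≠ 0 → u.ord f = k * (u.place h).ord f := by
  set w := u.place h
  obtain ⟨π, hπ⟩ := IsDiscreteValuationRing.exists_irreducible w.toValuationSubring
  have hπF : (π : F) ≠ 0 := by simpa using hπ.ne_zero
  have hπ1 : w.ord (π : F) = 1 := w.ord_coe_irreducible hπ
  have hunit : ∀ f : F, f ≠ 0 → w.ord f = 0 → u.ord f = 0 := fun f hf h0 => by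
    have h1 : f ∈ u.valuationSubring := (mem_place_iff w).mpr fun _ => h0.ge
    have h2 : f⁻¹ ∈ u.valuationSubring :=
      (mem_place_iff w).mpr fun _ => by rw [w.ord_inv, h0]; simp
    have h1' := h1 hf
    have h2' := h2 (inv_ne_zero hf)
    rw [u.map_inv hf] at h2'
    omega
  have key : ∀ f : F, f ≠ 0 → u.ord f = u.ord (π : F) * w.ord f := by
    intro f hf
    have hp : (π : F) ^ w.ord f ≠ 0 := zpow_ne_zero _ hπF
    have := hunit (f / (π : F) ^ w.ord f) (div_ne_zero hf hp) (by
      have hh := (intValOfPlace w).map_div hf hp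
      simp only [intValOfPlace_ord] at hh
      rw [hh, w.ord_zpow, hπ1]
      ring)
    rw [u.map_div hf hp, u.map_zpow hπF] at this
    linarith [this, mul_comm (w.ord f) (u.ord (π : F))]
  have hπ0 : 0 ≤ u.ord (π : F) :=
    ((mem_place_iff w).mpr fun _ => by rw [hπ1]; norm_num : (π : F) ∈ u.valuationSubring) hπF
  obtain ⟨k, hk⟩ := Int.eq_ofNat_of_zero_le hπ0
  refine ⟨k, Nat.pos_of_ne_zero fun hk0 => ?_, fun f hf => by rw [← hk]; exact key f hf⟩
  obtain ⟨f, hf, hne⟩ := h
  apply hne
  rw [key f hf, hk, hk0]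
  simp

/-- An element integral over the ring of a place lies in it. -/
theorem nonneg_of_monic_root (w : Place K F) {f : F} (hf : f ≠ 0) {P : Polynomial F}
    (hP : P.Monic) (hroot : P.eval f = 0) (hc : ∀ i, P.coeff i ≠ 0 → 0 ≤ w.ord (P.coeff i)) :
    0 ≤ w.ord f := by
  by_contra hneg
  push Not at hneg
  obtain ⟨n, hn⟩ : ∃ n, P.natDegree = n := ⟨_, rfl⟩
  let u := intValOfPlace w
  -- the lower terms all have order above that of the leading term
  have hsum : ∀ m ≤ n, (∑ i ∈ Finset.range m, P.coeff i * f ^ i) = 0 ∨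
      ((n : ℤ) * w.ord f) < w.ord (∑ i ∈ Finset.range m, P.coeff i * f ^ i) := by
    intro m hm
    induction m with
    | zero => simp
    | succ m ih =>
      rw [Finset.sum_range_succ]
      rcases eq_or_ne (P.coeff m) 0 with hz | hz
      · simpa [hz] using ih (by omega)
      have ht : P.coeff m * f ^ m ≠ 0 := mul_ne_zero hz (pow_ne_zero _ hf)
      have hto : (n : ℤ) * w.ord f < w.ord (P.coeff m * f ^ m) := by
        have h1 : u.ord (P.coeff m * f ^ m) = w.ord (P.coeff m) + m * w.ord f := by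
          rw [u.map_mul hz (pow_ne_zero _ hf), u.map_pow hf]; rfl
        simp only [u, intValOfPlace_ord] at h1
        rw [h1]
        have h2 := hc m hz
        have hmn : (m : ℤ) + 1 ≤ n := by omega
        have h3 : (n : ℤ) * w.ord f ≤ ((m : ℤ) + 1) * w.ord f :=
          mul_le_mul_of_nonpos_right hmn hneg.le
        linarith
      by_cases hz0 : (∑ i ∈ Finset.range m, P.coeff i * f ^ i) = 0
      · exact Or.inr (by simpa [hz0] using hto)
      rcases ih (by omega) with h0 | h0
      · exact absurd h0 hz0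
      by_cases hs : (∑ i ∈ Finset.range m, P.coeff i * f ^ i) + P.coeff m * f ^ m = 0
      · exact Or.inl hs
      refine Or.inr (lt_of_lt_of_le (lt_min h0 hto) ?_)
      exact u.map_add hz0 ht hs
  rw [Polynomial.eval_eq_sum_range, Finset.sum_range_succ, hn] at hroot
  rw [← hn, hP.coeff_natDegree, one_mul, hn] at hroot
  rcases hsum n le_rfl with h0 | h0
  · rw [h0, zero_add] at hroot
    exact pow_ne_zero _ hf hroot
  · rw [eq_neg_of_add_eq_zero_left hroot] at h0
    have h1 := u.map_neg (pow_ne_zero n hf)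
    have h2 := u.map_pow hf n
    simp only [u, intValOfPlace_ord] at h1 h2
    rw [h1, h2] at h0
    exact lt_irrefl _ h0

/-- The order of a polynomial in `y`, for a valuation positive at `y`. -/
theorem IntVal.aeval_ord (u : IntVal K F) {y : F} (hy0 : y ≠ 0) (hy : 0 < u.ord y)
    {P : Polynomial K} (hP : P ≠ 0) :
    aeval y P ≠ 0 ∧ u.ord (aeval y P) = (P.natTrailingDegree : ℤ) * u.ord y := by
  have hnn : ∀ Q : Polynomial K, aeval y Q ≠ 0 → 0 ≤ u.ord (aeval y Q) := fun Q hQ => by
    have hmem : aeval y Q ∈ u.valuationSubring := by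
      rw [Polynomial.aeval_eq_sum_range]
      refine sum_mem fun i _ => ?_
      rw [Algebra.smul_def]
      have hym : y ∈ u.valuationSubring := fun _ => hy.le
      exact mul_mem (fun h => (u.map_const (by simpa using h)).ge) (pow_mem hym _)
    exact hmem hQ
  obtain ⟨P₁, hP₁, hndvd⟩ := P.exists_eq_pow_rootMultiplicity_mul_and_not_dvd hP 0
  rw [map_zero, sub_zero] at hP₁ hndvd
  have hc0 : P₁.coeff 0 ≠ 0 := fun h => hndvd (X_dvd_iff.mpr h)
  have hdec : aeval y P₁ = algebraMap K F (P₁.coeff 0) + y * aeval y P₁.divX := by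
    conv_lhs => rw [← P₁.X_mul_divX_add]
    simp only [_root_.map_add, _root_.map_mul, aeval_X, aeval_C]
    ring
  have hc : algebraMap K F (P₁.coeff 0) ≠ 0 := by simpa using hc0
  have h1 : aeval y P₁ ≠ 0 ∧ u.ord (aeval y P₁) = 0 := by
    rw [hdec]
    rcases eq_or_ne (aeval y P₁.divX) 0 with h | h
    · simp [h, hc, u.map_const hc0]
    · have hlt : u.ord (algebraMap K F (P₁.coeff 0)) < u.ord (y * aeval y P₁.divX) := by
        rw [u.map_const hc0, u.map_mul hy0 h]
        exact add_pos_of_pos_of_nonneg hy (hnn _ h)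
      have := u.map_add_eq_of_lt hc (mul_ne_zero hy0 h) hlt
      rwa [u.map_const hc0] at this
  have hdeg : P.natTrailingDegree = P.rootMultiplicity 0 :=
    (Polynomial.rootMultiplicity_eq_natTrailingDegree' (p := P)).symm
  constructor
  · rw [hP₁]; simp [hy0, h1.1]
  · rw [hdeg]
    conv_lhs => rw [hP₁]
    rw [_root_.map_mul, _root_.map_pow, aeval_X, u.map_mul (pow_ne_zero _ hy0) h1.1, u.map_pow hy0,
      h1.2,
      add_zero]

/-- On `K(y)` any valuation positive at `y` is proportional to the `y`-adic one. -/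
theorem exists_ord_eq_of_mem_adjoin {y c : F} (hy0 : y ≠ 0) (hc0 : c ≠ 0) (hc : c ∈ K⟮y⟯) :
    ∃ m : ℤ, ∀ u : IntVal K F, 0 < u.ord y → u.ord c = m * u.ord y := by
  obtain ⟨R, S, rfl⟩ := (IntermediateField.mem_adjoin_simple_iff K c).mp hc
  have hR : R ≠ 0 := fun h => hc0 (by simp [h])
  have hS : S ≠ 0 := fun h => hc0 (by simp [h])
  refine ⟨(R.natTrailingDegree : ℤ) - S.natTrailingDegree, fun u hu => ?_⟩
  obtain ⟨hR0, hRo⟩ := u.aeval_ord hy0 hu hR
  obtain ⟨hS0, hSo⟩ := u.aeval_ord hy0 hu hS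
  rw [u.map_div hR0 hS0, hRo, hSo]
  ring

end Fermat.Agent.X0
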