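import Mathlib.Algebra.Order.BigOperators.Group.Finset
import Mathlib.Data.Fintype.Card
import Fermat.Agent.X0.IntVal

/-!
# Places over a point of the line, from a finite family of valuations

If a finite family of valuations `v q` on `F` (all with the same positive value `h` at `y`) is big
enough to test integrality over `K(y)`, and classes of `q`'s with the same valuation force enough
divisibility, then the zeros of `y` are in bijection with the classes and the ramification index
is the size of the class.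
-/

noncomputable section

open AlgebraicCurve Polynomial
open scoped IntermediateField

namespace Fermat.Agent.X0

variable {K F : Type*} [Field K] [Field F] [Algebra K F]

/-- Zeros of `y` correspond to classes of valuations; see the module docstring. -/
theorem exists_places_equiv_classes {Q : Type*} [Finite Q] (v : Q → IntVal K F) {y : F}
    (hy0 : y ≠ 0) {h : ℕ} (hh : 0 < h) (hvy : ∀ q, (v q).ord y = h)
    (s : Setoid Q) (hs : ∀ q q', s.r q q' → (v q).ord = (v q').ord)
    (hdvd : ∀ q f, f ≠ 0 → (h : ℤ) ∣ (Nat.card {q' // s.r q q'} : ℤ) * (v q).ord f)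
    (hint : ∀ f : F, f ≠ 0 → (∀ q, 0 ≤ (v q).ord f) →
      ∃ P : Polynomial F, P.Monic ∧ P.eval f = 0 ∧
        ∀ i, P.coeff i ≠ 0 → P.coeff i ∈ K⟮y⟯ ∧ ∃ q, 0 ≤ (v q).ord (P.coeff i))
    (Z : Finset (Place K F)) (hZ : ∀ w, w ∈ Z ↔ 0 < w.ord y)
    (hsum : ∑ w ∈ Z, w.ord y = Nat.card Q)
    (happ : ∀ (S : Finset (Place K F)) (w : Place K F), w ∉ S →
      ∃ f : F, f ≠ 0 ∧ w.ord f < 0 ∧ ∀ v ∈ S, 0 ≤ v.ord f) :
    ∃ pl : Quotient s → Place K F, Function.Injective pl ∧
      (∀ w, 0 < w.ord y ↔ w ∈ Set.range pl) ∧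
      ∀ q, (pl ⟦q⟧).ord y = Nat.card {q' // s.r q q'} ∧
        ∃ k : ℕ, 0 < k ∧ k * Nat.card {q' // s.r q q'} = h ∧
          ∀ f : F, f ≠ 0 → (v q).ord f = k * (pl ⟦q⟧).ord f := by
  classical
  have := Fintype.ofFinite Q
  have hnt : ∀ q, ∃ f : F, f ≠ 0 ∧ (v q).ord f ≠ 0 := fun q =>
    ⟨y, hy0, by rw [hvy]; omega⟩
  choose k hk0 hk using fun q => (v q).exists_ord_eq_mul (hnt q)
  let w : Q → Place K F := fun q => (v q).place (hnt q)
  have hke : ∀ q, (k q : ℤ) * (w q).ord y = h := fun q => (hk q y hy0).symm.trans (hvy q)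
  have he0 : ∀ q, 0 < (w q).ord y := fun q => by
    by_contra hcon
    have := hke q
    have h1 : (k q : ℤ) * (w q).ord y ≤ 0 :=
      mul_nonpos_of_nonneg_of_nonpos (Int.natCast_nonneg _) (not_lt.mp hcon)
    omega
  -- every zero of `y` arises
  have hsurj : ∀ P, 0 < P.ord y → ∃ q, w q = P := by
    intro P hP
    by_contra hcon
    obtain ⟨f, hf, hfP, hfS⟩ := happ (Finset.univ.image w) P (by simpa using hcon)
    have hv : ∀ q, 0 ≤ (v q).ord f := fun q => by
      rw [hk q f hf]
      exact mul_nonneg (Int.natCast_nonneg _)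
        (hfS _ (Finset.mem_image_of_mem w (Finset.mem_univ q)))
    obtain ⟨R, hR, hRf, hRc⟩ := hint f hf hv
    have := nonneg_of_monic_root P hf hR hRf fun i hi => by
      obtain ⟨hmem, q, hq⟩ := hRc i hi
      obtain ⟨m, hm⟩ := exists_ord_eq_of_mem_adjoin hy0 hi hmem
      rw [hm (v q) (by rw [hvy]; exact_mod_cast hh), hvy] at hq
      have h2 := hm (intValOfPlace P) hP
      simp only [intValOfPlace_ord] at h2
      rw [h2]
      exact mul_nonneg (nonneg_of_mul_nonneg_left hq (by exact_mod_cast hh)) hP.le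
    omega
  -- the ramification index is at most the size of the class
  set d : Q → ℕ := fun q => Nat.card {q' // s.r q q'} with hd
  have hd0 : ∀ q, 0 < d q := fun q => by
    have : Nonempty {q' // s.r q q'} := ⟨⟨q, s.refl' q⟩⟩
    exact Nat.card_pos
  have hwconst : ∀ q q', s.r q q' → w q = w q' := fun q q' hqq => by
    apply Place.ext
    ext f
    show (f ≠ 0 → 0 ≤ (v q).ord f) ↔ (f ≠ 0 → 0 ≤ (v q').ord f)
    rw [hs q q' hqq]
  have hle : ∀ q, (w q).ord y ≤ d q := fun q => by
    obtain ⟨π, hπ⟩ := IsDiscreteValuationRing.exists_irreducible (w q).toValuationSubring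
    have hπ0 : (π : F) ≠ 0 := by simpa using hπ.ne_zero
    have h1 := hdvd q π hπ0
    rw [hk q π hπ0, (w q).ord_coe_irreducible hπ, mul_one, ← hke q, mul_comm (d q : ℤ)] at h1
    exact Int.le_of_dvd (by exact_mod_cast hd0 q)
      ((mul_dvd_mul_iff_left (by exact_mod_cast (hk0 q).ne')).mp h1)
  set fib : Place K F → Finset Q := fun P => Finset.univ.filter fun q => w q = P with hfib
  have hclass : ∀ q, (Finset.univ.filter fun q' => s.r q q') ⊆ fib (w q) := fun q q' hq' => by
    simp only [Finset.mem_filter, Finset.mem_univ, true_and, hfib] at hq' ⊢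
    exact (hwconst q q' hq').symm
  have hdcard : ∀ q, d q = (Finset.univ.filter fun q' => s.r q q').card := fun q => by
    simp [hd, Nat.card_eq_fintype_card, Fintype.card_subtype]
  have hPle : ∀ P ∈ Z, P.ord y ≤ (fib P).card := fun P hP => by
    obtain ⟨q, rfl⟩ := hsurj P ((hZ P).mp hP)
    refine (hle q).trans ?_
    rw [hdcard]
    exact_mod_cast Finset.card_le_card (hclass q)
  have htot : ∑ P ∈ Z, ((fib P).card : ℤ) = Nat.card Q := by
    rw [← Nat.cast_sum, Nat.card_eq_fintype_card]
    exact congrArg _ (Finset.card_eq_sum_card_fiberwise (f := w) (s := Finset.univ) (t := Z)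
      fun q _ => (hZ _).mpr (he0 q)).symm
  have heq := (Finset.sum_eq_sum_iff_of_le hPle).mp (hsum.trans htot.symm)
  have hqe : ∀ q, (w q).ord y = d q ∧ (Finset.univ.filter fun q' => s.r q q') = fib (w q) :=
    fun q => by
      have h1 := heq (w q) ((hZ _).mpr (he0 q))
      have h2 := hle q
      have h3 : (d q : ℤ) ≤ (fib (w q)).card := by
        rw [hdcard]; exact_mod_cast Finset.card_le_card (hclass q)
      refine ⟨by omega, Finset.eq_of_subset_of_card_le (hclass q) ?_⟩
      rw [← hdcard]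
      omega
  refine ⟨Quotient.lift w hwconst, ?_, fun P => ⟨fun hP => ?_, ?_⟩, fun q => ⟨(hqe q).1, k q,
    hk0 q, ?_, hk q⟩⟩
  · rintro ⟨q⟩ ⟨q'⟩ (hww : w q = w q')
    apply Quotient.sound
    have : q' ∈ fib (w q) := by simp [hfib, hww]
    rw [← (hqe q).2] at this
    simpa using this
  · obtain ⟨q, rfl⟩ := hsurj P hP
    exact ⟨⟦q⟧, rfl⟩
  · rintro ⟨⟨q⟩, rfl⟩
    exact he0 q
  · have := hke q
    rw [(hqe q).1] at this
    exact_mod_cast this

end Fermat.Agent.X0
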