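import Fermat.Agent.X0.FormField

/-!
# The characteristic polynomial over `ℂ(j)`

For `x` in a field of ratios of forms, `∏_q (Y - x∣γ_q)` has coefficients in `ℂ(j)`. Hence the
conjugate valuations detect integrality over `ℂ[j]`.
-/

noncomputable section

open UpperHalfPlane CongruenceSubgroup Function Polynomial
open scoped MatrixGroups ModularForm Manifold IntermediateField

namespace Fermat.Agent.X0

open Fermat.Agent.MF

/-- A field of ratios of forms on `Γ` containing `j`. -/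
structure JRatioField (Γ : Subgroup SL(2, ℤ)) (W : ℕ)
    (F : IntermediateField ℂ (LaurentSeries ℂ)) : Prop extends RatioField Γ W F where
  jq_mem : ModularCurve.jqModC ℂ ∈ F

/-- A field of ratios of forms containing `j`. -/
class IsX0Field (N : ℕ) (L : IntermediateField ℂ (LaurentSeries ℂ)) : Prop
    extends IsFormField N L where
  jq_mem : ModularCurve.jqModC ℂ ∈ L

theorem IsX0Field.jRatioField (N : ℕ) (L : IntermediateField ℂ (LaurentSeries ℂ))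
    [IsX0Field N L] : JRatioField (Gamma0 N) N L :=
  ⟨IsFormField.ratioField N L, IsX0Field.jq_mem N⟩

variable {N : ℕ} [NeZero N] {L : IntermediateField ℂ (LaurentSeries ℂ)} [IsX0Field N L]

variable (N L) in
/-- `j` as an element of `L`. -/
def jEl : L := ⟨ModularCurve.jqModC ℂ, IsX0Field.jq_mem N⟩

omit [NeZero N] in
/-- A level one form, as a wide function. -/
def lwide {k : ℤ} {f : ℍ → ℂ} (hf : IsFormFn ⊤ k f) : wideAlgebra N :=
  ⟨f, by simpa using slash_mem_wideAlgebra (hf.mono (le_top : Gamma0 N ≤ ⊤)) 1⟩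

omit [NeZero N] in
theorem lwide_ne_zero {k : ℤ} {f : ℍ → ℂ} (hf : IsFormFn ⊤ k f) (h : f ≠ 0) :
    (lwide hf : wideAlgebra N) ≠ 0 := fun h0 => h (congrArg Subtype.val h0)

theorem weight_nonneg_of_ne_zero {k : ℤ} {g : ℍ → ℂ} (hg : IsFormFn ⊤ k g) (h : g ≠ 0) : 0 ≤ k :=
  not_lt.mp fun hk => h (hg.eq_zero_of_neg hk)

instance : Fintype (SL(2, ℤ) ⧸ Gamma0 N) := Fintype.ofFinite _

/-- Coset representatives: `Γ γ_q`. -/
def cosetRep {Γ : Subgroup SL(2, ℤ)} (q : SL(2, ℤ) ⧸ Γ) : SL(2, ℤ) := q.out⁻¹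

section Cosets

variable {Γ : Subgroup SL(2, ℤ)}

theorem exists_cosetRep_mul (q : SL(2, ℤ) ⧸ Γ) (γ : SL(2, ℤ)) :
    ∃ δ ∈ Γ, cosetRep q * γ = δ * cosetRep (γ⁻¹ • q) := by
  obtain ⟨δ, hδ⟩ := QuotientGroup.mk_out_eq_mul Γ (γ⁻¹ * q.out)
  have hq : γ⁻¹ • q = ((γ⁻¹ * q.out : SL(2, ℤ)) : SL(2, ℤ) ⧸ Γ) := by
    conv_lhs => rw [← q.out_eq]
    rfl
  refine ⟨δ, δ.2, ?_⟩
  rw [cosetRep, cosetRep, hq, hδ]
  group

theorem cosetRep_one_mem : cosetRep ((1 : SL(2, ℤ)) : SL(2, ℤ) ⧸ Γ) ∈ Γ := by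
  obtain ⟨δ, hδ⟩ := QuotientGroup.mk_out_eq_mul Γ (1 : SL(2, ℤ))
  rw [cosetRep, hδ, one_mul]
  exact inv_mem δ.2

end Cosets

/-- Evaluation at a point. -/
def evalAt (τ : ℍ) : wideAlgebra N →+* ℂ :=
  (Pi.evalRingHom (fun _ : ℍ => ℂ) τ).comp (wideAlgebra N).val.toRingHom

theorem map_prod_linear {R S ι : Type*} [CommRing R] [CommRing S] [Fintype ι] (φ : R →+* S)
    (a b : ι → R) :
    (∏ i, (C (a i) * X - C (b i))).map φ = ∏ i, (C (φ (a i)) * X - C (φ (b i))) := by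
  simp [Polynomial.map_prod]

theorem prod_linear_scale {S ι : Type*} [CommRing S] [Fintype ι] (e : ι ≃ ι) (d : S)
    (a b a' b' : ι → S) (ha : ∀ i, a i = d * a' (e i)) (hb : ∀ i, b i = d * b' (e i)) :
    ∏ i, (C (a i) * X - C (b i))
      = C (d ^ Fintype.card ι) * ∏ i, (C (a' i) * X - C (b' i)) := by
  rw [map_pow, ← Finset.card_univ, ← Finset.prod_const,
    ← Equiv.prod_comp e (fun i => C (a' i) * X - C (b' i)), ← Finset.prod_mul_distrib]
  refine Finset.prod_congr rfl fun i _ => ?_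
  rw [ha, hb, map_mul, map_mul]
  ring

theorem linear_eq_C_mul {S : Type*} [Field S] (a b : S) (ha : a ≠ 0) :
    C a * X - C b = C a * (X - C (b / a)) := by
  rw [mul_sub, ← map_mul, mul_div_cancel₀ _ ha]

namespace JRatioField

variable {Γ : Subgroup SL(2, ℤ)} {W : ℕ} {F : IntermediateField ℂ (LaurentSeries ℂ)}
  (D : JRatioField Γ W F)
include D

/-- `j` in `F`. -/
def jEl : F := ⟨ModularCurve.jqModC ℂ, D.jq_mem⟩

theorem wslash_levelOne {k : ℤ} {f : ℍ → ℂ} (hf : IsFormFn ⊤ k f) (γ : SL(2, ℤ)) :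
    D.wslash (hf.mono le_top) γ = lwide (N := W) hf :=
  Subtype.ext (hf.slash_eq γ trivial)

/-- A ratio of level one forms is in `ℂ(j)`, compatibly with all conjugate expansions. -/
theorem exists_mem_adjoin_ratio {w : ℤ} {A B : ℍ → ℂ} (hA : IsFormFn ⊤ w A)
    (hB : IsFormFn ⊤ w B) (hB0 : B ≠ 0) :
    ∃ c : F, c ∈ ℂ⟮D.jEl⟯ ∧ ∀ (ψ : Expansion W) (γ : SL(2, ℤ)),
      D.conjHom ψ γ c = ψ.ls (lwide hA) / ψ.ls (lwide hB) := by
  obtain ⟨m, rfl⟩ := Int.eq_ofNat_of_zero_le (weight_nonneg_of_ne_zero hB hB0)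
  have hB12 : IsFormFn ⊤ (12 * (m : ℤ)) (B ^ 12) := (hB.pow 12).cast (by push_cast; ring)
  have hAB : IsFormFn ⊤ (12 * (m : ℤ)) (A * B ^ 11) :=
    (hA.mul (hB.pow 11)).cast (by ring)
  obtain ⟨P, _, hP⟩ := hAB.exists_polynomial
  obtain ⟨R, _, hR⟩ := hB12.exists_polynomial
  have hΔ : IsFormFn ⊤ (12 * (m : ℤ)) (deltaFn ^ m) :=
    (isFormFn_delta.pow m).cast (by ring)
  have hΔ0 : deltaFn ^ m ≠ 0 := fun h =>
    pow_ne_zero m (deltaFn_ne_zero UpperHalfPlane.I) (congrFun h UpperHalfPlane.I)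
  have key : ∀ (ψ : Expansion W) (γ : SL(2, ℤ)) (Q : ℂ[X]) (H : ℍ → ℂ)
      (hH : IsFormFn ⊤ (12 * (m : ℤ)) H),
      lq H = aeval (ModularCurve.jqModC ℂ) Q * lq deltaFn ^ m →
      D.conjHom ψ γ (aeval D.jEl Q) = ψ.ls (lwide hH) / ψ.ls (lwide hΔ) := by
    intro ψ γ Q H hH h
    rw [D.conjHom_eq ψ γ (aeval D.jEl Q) (hH.mono le_top) (hΔ.mono le_top) hΔ0,
      D.wslash_levelOne hH, D.wslash_levelOne hΔ]
    rw [h, lq_pow isFormFn_delta.isQFnTop]
    congr 1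
    exact (aeval_algHom_apply F.val D.jEl Q).symm
  refine ⟨aeval D.jEl P / aeval D.jEl R, ?_, fun ψ γ => ?_⟩
  · exact (IntermediateField.mem_adjoin_simple_iff ℂ _).mpr ⟨P, R, rfl⟩
  · rw [map_div₀, key ψ γ P _ hAB hP, key ψ γ R _ hB12 hR]
    have e1 : lwide (N := W) hAB = lwide hA * lwide hB ^ 11 := Subtype.ext rfl
    have e2 : lwide (N := W) hB12 = lwide hB ^ 12 := Subtype.ext rfl
    have hne : ψ.ls (lwide hB) ≠ 0 :=
      (map_ne_zero_iff _ ψ.ls_injective).mpr (lwide_ne_zero hB hB0)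
    have hne' : ψ.ls (lwide hΔ) ≠ 0 :=
      (map_ne_zero_iff _ ψ.ls_injective).mpr (lwide_ne_zero hΔ hΔ0)
    rw [e1, e2, _root_.map_mul, _root_.map_pow, _root_.map_pow, div_div_div_cancel_right₀ hne',
      pow_succ (ψ.ls (lwide hB)) 11, mul_comm (ψ.ls (lwide hB) ^ 11) (ψ.ls (lwide hB)),
      mul_div_mul_right _ _ (pow_ne_zero _ hne)]

theorem wslash_apply_smul {k : ℤ} {f : ℍ → ℂ} (hf : IsFormFn Γ k f)
    (q : SL(2, ℤ) ⧸ Γ) (γ : SL(2, ℤ)) (τ : ℍ) :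
    evalAt (γ • τ) (D.wslash hf (cosetRep q)) =
      denom γ τ ^ k * evalAt τ (D.wslash hf (cosetRep (γ⁻¹ • q))) := by
  obtain ⟨δ, hδ, hδq⟩ := exists_cosetRep_mul q γ
  show (f ∣[k] cosetRep q) (γ • τ) = denom γ τ ^ k * (f ∣[k] cosetRep (γ⁻¹ • q)) τ
  have h : (f ∣[k] cosetRep q) ∣[k] γ = f ∣[k] cosetRep (γ⁻¹ • q) := by
    rw [← SlashAction.slash_mul, hδq, SlashAction.slash_mul, hf.slash_eq δ hδ]
  rw [← h, ModularForm.SL_slash_apply (f ∣[k] cosetRep q) γ τ, mul_left_comm,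
    ← zpow_add₀ (UpperHalfPlane.denom_ne_zero _ _)]
  simp

/-- The numerator polynomial `∏_q (g_q Y - f_q)`. -/
def numPoly [Fintype (SL(2, ℤ) ⧸ Γ)] {k : ℤ} {f g : ℍ → ℂ} (hf : IsFormFn Γ k f)
    (hg : IsFormFn Γ k g) : (wideAlgebra W)[X] :=
  ∏ q : SL(2, ℤ) ⧸ Γ,
    (C (D.wslash hg (cosetRep q)) * X - C (D.wslash hf (cosetRep q)))

theorem numPoly_coeff_isFormFn [Fintype (SL(2, ℤ) ⧸ Γ)] {k : ℤ} {f g : ℍ → ℂ}
    (hf : IsFormFn Γ k f) (hg : IsFormFn Γ k g) (i : ℕ) :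
    IsFormFn ⊤ (k * Fintype.card (SL(2, ℤ) ⧸ Γ)) ((D.numPoly hf hg).coeff i : ℍ → ℂ) := by
  set n := Fintype.card (SL(2, ℤ) ⧸ Γ)
  have hev : ∀ (γ : SL(2, ℤ)) (τ : ℍ), (D.numPoly hf hg).map (evalAt (γ • τ))
      = C ((denom γ τ ^ k) ^ n) * (D.numPoly hf hg).map (evalAt τ) := by
    intro γ τ
    unfold numPoly
    rw [map_prod_linear, map_prod_linear]
    exact prod_linear_scale (MulAction.toPerm γ⁻¹) _ _ _ _ _
      (fun q => D.wslash_apply_smul hg q γ τ) (fun q => D.wslash_apply_smul hf q γ τ)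
  set G : ℍ → ℂ := ((D.numPoly hf hg).coeff i : ℍ → ℂ)
  have hcoe : ∀ τ, ((D.numPoly hf hg).map (evalAt τ)).coeff i = G τ := fun τ => by
    rw [Polynomial.coeff_map]; rfl
  have hslash : ∀ γ : SL(2, ℤ), G ∣[k * (n : ℤ)] γ = G := by
    intro γ
    ext τ
    rw [ModularForm.SL_slash_apply, ← hcoe (γ • τ), hev, Polynomial.coeff_C_mul, hcoe,
      ← zpow_natCast,
      ← zpow_mul, mul_right_comm, ← zpow_add₀ (UpperHalfPlane.denom_ne_zero _ _)]
    simp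
  exact ⟨fun γ _ => hslash γ, ((D.numPoly hf hg).coeff i).2.mdiff,
    fun γ => by rw [hslash γ]; exact ((D.numPoly hf hg).coeff i).2.bdd⟩

/-- The characteristic polynomial of `x` over `ℂ(j)`. -/
theorem exists_charPoly [NeZero W] [Fintype (SL(2, ℤ) ⧸ Γ)] (x : F) :
    ∃ P : F[X], (∀ i, P.coeff i ∈ ℂ⟮D.jEl⟯) ∧
    ∀ (ψ : Expansion W) (γ : SL(2, ℤ)), P.map (D.conjHom ψ γ) =
      ∏ q : SL(2, ℤ) ⧸ Γ, (X - C (D.conjHom ψ (cosetRep q) x)) := by
  classical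
  obtain ⟨k, f, g, hf, hg, hg0, h⟩ := D.exists_rep x
  set n := Fintype.card (SL(2, ℤ) ⧸ Γ)
  set G : wideAlgebra W := ∏ q : SL(2, ℤ) ⧸ Γ, D.wslash hg (cosetRep q) with hGdef
  have hfac : ∀ ψ : Expansion W, (D.numPoly hf hg).map ψ.ls =
      C (ψ.ls G) * ∏ q : SL(2, ℤ) ⧸ Γ, (X - C (D.conjHom ψ (cosetRep q) x)) := by
    intro ψ
    rw [numPoly, map_prod_linear, hGdef, map_prod, map_prod, ← Finset.prod_mul_distrib]
    refine Finset.prod_congr rfl fun q _ => ?_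
    rw [D.conjHom_eq ψ _ x hf hg hg0 h]
    exact linear_eq_C_mul _ _ (D.ls_wslash_ne_zero ψ hg hg0 _)
  have hG0 : G ≠ 0 := Finset.prod_ne_zero_iff.mpr fun q _ h0 =>
    slash_ne_zero hg0 (cosetRep q) (congrArg Subtype.val h0)
  have hmonic : ∀ ψ : Expansion W,
      (∏ q : SL(2, ℤ) ⧸ Γ, (X - C (D.conjHom ψ (cosetRep q) x))).Monic ∧
      (∏ q : SL(2, ℤ) ⧸ Γ, (X - C (D.conjHom ψ (cosetRep q) x))).natDegree = n := by
    intro ψ
    refine ⟨monic_prod_X_sub_C _ _, ?_⟩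
    rw [natDegree_prod _ _ fun q _ => X_sub_C_ne_zero _]
    simp [n]
  have hlead : (D.numPoly hf hg).coeff n = G := by
    apply (cuspExpansion W).ls_injective
    have := congrArg (fun p => coeff p n) (hfac (cuspExpansion W))
    simp only [Polynomial.coeff_map, Polynomial.coeff_C_mul] at this
    rw [this]
    conv_lhs => rw [← (hmonic (cuspExpansion W)).2]
    rw [(hmonic (cuspExpansion W)).1.coeff_natDegree, mul_one]
  have hGform := D.numPoly_coeff_isFormFn hf hg n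
  choose c hc hcval using fun i => D.exists_mem_adjoin_ratio (D.numPoly_coeff_isFormFn hf hg i)
    hGform (by rw [hlead]; exact fun h0 => hG0 (Subtype.ext h0))
  refine ⟨∑ i ∈ Finset.range (n + 1), C (c i) * X ^ i, fun i => ?_, fun ψ γ => ?_⟩
  · rw [finsetSum_coeff]
    refine sum_mem fun j _ => ?_
    rw [coeff_C_mul_X_pow]
    split
    · exact hc j
    · exact zero_mem _
  · ext i
    rw [Polynomial.coeff_map, finsetSum_coeff]
    simp only [coeff_C_mul_X_pow, Finset.sum_ite_eq, Finset.mem_range]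
    split
    next hi =>
      rw [hcval]
      have h1 : ψ.ls (lwide (D.numPoly_coeff_isFormFn hf hg i)) =
          ψ.ls ((D.numPoly hf hg).coeff i) := congrArg _ (Subtype.ext rfl)
      have h2 : ψ.ls (lwide hGform) = ψ.ls G := congrArg _ (Subtype.ext (by rw [← hlead]; rfl))
      have h3 := congrArg (fun p => coeff p i) (hfac ψ)
      simp only [Polynomial.coeff_map, Polynomial.coeff_C_mul] at h3
      rw [h1, h2, h3, mul_div_cancel_left₀ _ ((map_ne_zero_iff _ ψ.ls_injective).mpr hG0)]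
    next hi =>
      rw [map_zero, coeff_eq_zero_of_natDegree_lt]
      rw [(hmonic ψ).2]
      omega

end JRatioField

end Fermat.Agent.X0
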