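import Fermat.Prelude.Thm_UpperHalfPlane_qExpansion_coeff_nat_mul
import Fermat.Agent.X0.CharPoly

/-!
# Orders of expansions at points and cusps, and their behaviour under stabilisers

An elliptic stabiliser, or a smaller period at a cusp, forces divisibility of the order. This is
what makes the local degrees equal to the orbit lengths.
-/

noncomputable section

open UpperHalfPlane CongruenceSubgroup Function
open scoped MatrixGroups ModularForm Manifold Topology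

namespace Fermat.Agent.X0

open Fermat.Agent.MF

variable {N : ℕ} [NeZero N]

theorem det_SL_eq_one (γ : SL(2, ℤ)) : (γ : GL (Fin 2) ℝ).val.det = 1 := by
  rw [← Matrix.GeneralLinearGroup.val_det_apply]; simp

theorem laurent_order_eq {x : LaurentSeries ℂ} {n : ℤ} (h : x.coeff n ≠ 0)
    (hlt : ∀ j < n, x.coeff j = 0) : x.order = n := by
  refine le_antisymm (HahnSeries.order_le_of_coeff_ne_zero h) ?_
  by_contra hcon
  have hx : x ≠ 0 := fun h0 => h (by simp [h0])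
  exact HahnSeries.coeff_order_eq_zero.not.mpr hx (hlt _ (not_le.mp hcon))

theorem order_ofPowerSeries_eq {p : PowerSeries ℂ} {n : ℕ} (hn : p.coeff n ≠ 0)
    (hlt : ∀ i < n, p.coeff i = 0) : (HahnSeries.ofPowerSeries ℤ ℂ p).order = n := by
  refine laurent_order_eq ?_ fun j hj => ?_
  · rwa [HahnSeries.ofPowerSeries_apply_coeff]
  · rcases lt_or_ge j 0 with h | h
    · exact ModularCurve.ofPowerSeries_coeff_of_neg _ h
    · obtain ⟨i, rfl⟩ := Int.eq_ofNat_of_zero_le h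
      rw [HahnSeries.ofPowerSeries_apply_coeff]
      exact hlt i (by exact_mod_cast hj)

theorem order_ofPowerSeries_of_order_eq {p : PowerSeries ℂ} {n : ℕ} (h : p.order = n) :
    (HahnSeries.ofPowerSeries ℤ ℂ p).order = n :=
  order_ofPowerSeries_eq (PowerSeries.order_eq_nat.mp h).1 (PowerSeries.order_eq_nat.mp h).2

theorem cuspExp_order_eq_of_coeff {F : wideAlgebra N} {n : ℕ} (h : (cuspExp N F).coeff n ≠ 0)
    (hlt : ∀ i < n, (cuspExp N F).coeff i = 0) : ((cuspExpansion N).ls F).order = n :=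
  order_ofPowerSeries_eq h hlt

theorem cuspExp_order_eq {F : wideAlgebra N} (hF : F ≠ 0) :
    ∃ n : ℕ, ((cuspExpansion N).ls F).order = n ∧ (cuspExp N F).order = n := by
  have hne : cuspExp N F ≠ 0 := (map_ne_zero_iff _ (cuspExp_injective N)).mpr hF
  obtain ⟨n, hn⟩ : ∃ n : ℕ, (cuspExp N F).order = n :=
    ⟨_, (ENat.natCast_toNat (PowerSeries.order_eq_top.not.mpr hne)).symm⟩
  exact ⟨n, order_ofPowerSeries_of_order_eq hn, hn⟩

omit [NeZero N] in
/-- The order at `τ` is the order of the Taylor expansion. -/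
theorem ordH_eq_order_point (τ : ℍ) {f : wideAlgebra N} (hf : f ≠ 0) :
    ordH (f : ℍ → ℂ) τ = (((pointExpansion N τ).ls f).order : ℤ) := by
  obtain ⟨n, hn⟩ := exists_ordH_eq_natCast f.2.mdiff (fun h => hf (Subtype.ext h)) τ
  have hne : pointExp N τ f ≠ 0 := (map_ne_zero_iff _ (pointExp_injective N τ)).mpr hf
  have h1 := order_pointExp N τ f
  have h2 : analyticOrderAt ((f : ℍ → ℂ) ∘ ofComplex) (τ : ℂ) = n := by
    rw [ordH, (analyticAt_comp_ofComplex f.2.mdiff τ).meromorphicOrderAt_eq] at hn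
    cases h : analyticOrderAt ((f : ℍ → ℂ) ∘ ofComplex) (τ : ℂ) with
    | top => simp [h] at hn
    | coe m =>
      rw [h] at hn
      simp only [ENat.map_natCast] at hn
      norm_cast at hn
      rw [hn]
  rw [hn]
  congr 1
  show (n : ℤ) = (HahnSeries.ofPowerSeries ℤ ℂ (pointExp N τ f)).order
  rw [h2] at h1
  exact (order_ofPowerSeries_of_order_eq h1).symm

theorem ordH_slash {k : ℤ} {f : ℍ → ℂ} (γ : SL(2, ℤ)) (τ : ℍ) :
    ordH (f ∣[k] γ) τ = ordH f (γ • τ) := by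
  have hg : 0 < (γ : GL (Fin 2) ℝ).val.det := by rw [det_SL_eq_one]; exact one_pos
  have hd : AnalyticAt ℂ (fun z : ℂ => denom γ z ^ (-k)) (τ : ℂ) :=
    (AnalyticAt.zpow (by unfold denom; fun_prop) (denom_ne_zero _ _))
  have hfun : (f ∣[k] γ) ∘ ofComplex =ᶠ[𝓝 (τ : ℂ)]
      (fun z : ℂ => denom γ z ^ (-k)) * fun z : ℂ => f (γ • ofComplex z) := by
    filter_upwards [isOpen_upperHalfPlaneSet.mem_nhds τ.im_pos] with z hz
    rw [Function.comp_apply, Pi.mul_apply, ModularForm.SL_slash_apply, mul_comm,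
      ofComplex_apply_of_im_pos hz]
  rw [ordH, meromorphicOrderAt_congr (hfun.filter_mono nhdsWithin_le_nhds),
    meromorphicOrderAt_mul_of_ne_zero hd (zpow_ne_zero _ (denom_ne_zero _ _))]
  exact UpperHalfPlane.meromorphicOrderAt_comp_smul hg

theorem denom_mul_SL (γ δ : SL(2, ℤ)) (τ : ℍ) :
    denom ((γ * δ : SL(2, ℤ)) : GL (Fin 2) ℝ) (τ : ℂ) =
      denom (γ : GL (Fin 2) ℝ) ((δ • τ : ℍ) : ℂ) * denom (δ : GL (Fin 2) ℝ) (τ : ℂ) := by
  rw [map_mul, map_mul, denom_cocycle']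
  simp [σ]
  rfl

theorem smul_pow_fixed {R : SL(2, ℤ)} {τ : ℍ} (hR : R • τ = τ) (n : ℕ) : (R ^ n) • τ = τ := by
  induction n with
  | zero => rw [pow_zero, one_smul]
  | succ n ih => rw [pow_succ, mul_smul, hR, ih]

theorem denom_pow_fixed {R : SL(2, ℤ)} {τ : ℍ} (hR : R • τ = τ) (n : ℕ) :
    denom ((R ^ n : SL(2, ℤ)) : GL (Fin 2) ℝ) (τ : ℂ) =
      denom (R : GL (Fin 2) ℝ) (τ : ℂ) ^ n := by
  induction n with
  | zero => simp [ModularGroup.denom_apply]
  | succ n ih => rw [pow_succ, denom_mul_SL, hR, ih, pow_succ]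

/-- If `e` fixes `τ` and `F` is `e`-invariant of weight `k`, then `λ ^ ord F = d ^ k`. -/
theorem multiplier_pow_order {k : ℤ} {F : ℍ → ℂ} (hF : MDiff F) {e : SL(2, ℤ)} {τ : ℍ}
    (he : e • τ = τ) (hinv : F ∣[k] e = F) {n : ℤ} (hn : ordH F τ = n) :
    ((denom e τ : ℂ) ^ (2 : ℕ))⁻¹ ^ n = denom e τ ^ k := by
  have hmer := (analyticAt_comp_ofComplex hF τ).meromorphicAt
  obtain ⟨g, hga, hg0, hg⟩ := (meromorphicOrderAt_eq_int_iff hmer).mp hn
  set E : ℂ → ℂ := fun z => ((e • ofComplex z : ℍ) : ℂ) with hE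
  have hgl : 0 < (e : GL (Fin 2) ℝ).val.det := by rw [det_SL_eq_one]; exact one_pos
  have hd : HasDerivAt E (((denom e τ : ℂ) ^ (2 : ℕ))⁻¹) τ := by
    have := (hasStrictDerivAt_smul hgl τ).hasDerivAt
    rw [det_SL_eq_one, Complex.ofReal_one, one_div] at this
    exact this
  have hEτ : E τ = τ := by
    show ((e • ofComplex (τ : ℂ) : ℍ) : ℂ) = τ
    rw [ofComplex_apply, he]
  have hslope : Filter.Tendsto (fun z => (E z - τ) / (z - τ)) (𝓝[≠] (τ : ℂ))
      (𝓝 ((denom e τ : ℂ) ^ (2 : ℕ))⁻¹) := by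
    have := hasDerivAt_iff_tendsto_slope.mp hd
    simpa [slope_fun_def_field, hEτ] using this
  have hEne : ∀ᶠ z in 𝓝[≠] (τ : ℂ), E z ≠ τ := by
    have := hd.eventually_ne (c := E τ) (inv_ne_zero (pow_ne_zero _ (denom_ne_zero _ _)))
    rwa [hEτ] at this
  have hEt : Filter.Tendsto E (𝓝[≠] (τ : ℂ)) (𝓝[≠] (τ : ℂ)) := by
    refine tendsto_nhdsWithin_iff.mpr ⟨?_, hEne⟩
    have := hd.continuousAt.tendsto
    rw [hEτ] at this
    exact this.mono_left nhdsWithin_le_nhds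
  have key : ∀ᶠ z in 𝓝[≠] (τ : ℂ),
      ((E z - τ) / (z - τ)) ^ n * g (E z) = denom e z ^ k * g z := by
    filter_upwards [hg, hEt.eventually hg, self_mem_nhdsWithin,
      nhdsWithin_le_nhds (isOpen_upperHalfPlaneSet.mem_nhds τ.im_pos)] with z hz hEz hzne hzim
    have hz' : z - (τ : ℂ) ≠ 0 := sub_ne_zero.mpr hzne
    have h2 : F (e • ofComplex z) = denom e z ^ k * F (ofComplex z) := by
      rw [form_smul_of_slash_eq hinv, ofComplex_apply_of_im_pos hzim]
    have hEz' : F (e • ofComplex z) = (E z - τ) ^ n * g (E z) := by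
      simpa [hE] using hEz
    have hz'' : F (ofComplex z) = (z - τ) ^ n * g z := by simpa using hz
    rw [hEz', hz''] at h2
    rw [div_zpow, div_mul_eq_mul_div, h2]
    field_simp
  have hL : Filter.Tendsto (fun z => ((E z - τ) / (z - τ)) ^ n * g (E z)) (𝓝[≠] (τ : ℂ))
      (𝓝 (((denom e τ : ℂ) ^ (2 : ℕ))⁻¹ ^ n * g τ)) :=
    (hslope.zpow₀ n (Or.inl (inv_ne_zero (pow_ne_zero _ (denom_ne_zero _ _))))).mul
      (hga.continuousAt.tendsto.comp (hEt.mono_right nhdsWithin_le_nhds))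
  have hdc : ContinuousAt (fun z : ℂ => denom e z ^ k) (τ : ℂ) :=
    (by unfold denom; fun_prop : ContinuousAt (fun z : ℂ => denom e z) (τ : ℂ)).zpow₀ k
      (Or.inl (denom_ne_zero _ _))
  have hR : Filter.Tendsto (fun z => denom e z ^ k * g z) (𝓝[≠] (τ : ℂ))
      (𝓝 (denom e τ ^ k * g τ)) :=
    (hdc.tendsto.mul hga.continuousAt.tendsto).mono_left nhdsWithin_le_nhds
  exact mul_right_cancel₀ hg0 (tendsto_nhds_unique (hL.congr' key) hR)

/-- The expansion at `i∞` of a function of smaller period `d`. -/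
theorem dvd_mul_of_coeff_ne_zero {F : wideAlgebra N} {d : ℕ} (hd : 0 < d) (hdN : d ∣ N)
    (hper : Periodic ((F : ℍ → ℂ) ∘ ofComplex) ((d : ℝ) : ℂ)) {n : ℕ}
    (hn : (cuspExp N F).coeff n ≠ 0) : N ∣ d * n := by
  obtain ⟨M, hM⟩ := hdN
  have hM0 : 0 < M := Nat.pos_of_ne_zero fun h => NeZero.ne N (by rw [hM, h, mul_zero])
  rw [cuspExp_apply, show ((N : ℕ) : ℝ) = (M : ℝ) * (d : ℝ) by rw [hM]; push_cast; ring,
    UpperHalfPlane.qExpansion_coeff_nat_mul (Nat.cast_pos.mpr hd) hper F.2.mdiff F.2.bdd hM0]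
    at hn
  split_ifs at hn with h
  · rw [hM]; exact mul_dvd_mul_left d h
  · exact absurd rfl hn

theorem order_cusp_dvd {F : wideAlgebra N} (hF : F ≠ 0) {d : ℕ} (hd : 0 < d) (hdN : d ∣ N)
    (hper : Periodic ((F : ℍ → ℂ) ∘ ofComplex) ((d : ℝ) : ℂ)) :
    (N : ℤ) ∣ (d : ℤ) * ((cuspExpansion N).ls F).order := by
  obtain ⟨n, hn, hn'⟩ := cuspExp_order_eq hF
  rw [hn]
  exact_mod_cast dvd_mul_of_coeff_ne_zero hd hdN hper (PowerSeries.order_eq_nat.mp hn').1

end Fermat.Agent.X0
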