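import Fermat.Agent.FF.Degree
import Fermat.Agent.FF.Modular
import Fermat.Agent.MF.Degree
import Fermat.Agent.Mono.FunctionFieldC
import Fermat.Agent.X0.Orbits
import Fermat.Agent.X0.PointOrd

/-!
# Places of a curve over a value of `j` and over `∞`, from cosets

The valuations of the coset charts exhaust the zeros of `j - a`: the abstract orbit lemma,
specialised to the function field of a group `Γ ⊇ Γ(W)` (`CurveField`), in particular `X₀(N)`.
-/

noncomputable section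

open UpperHalfPlane CongruenceSubgroup Function AlgebraicCurve Polynomial
open scoped MatrixGroups ModularForm Manifold Topology IntermediateField

namespace Fermat.Agent.X0

open Fermat.Agent.MF

local notation "FC" => Fermat.Agent.Mono.FC

/-- Cosets `SL(2, ℤ) ⧸ Γ₀(N)`. -/
abbrev Coset (N : ℕ) : Type := SL(2, ℤ) ⧸ Gamma0 N

variable {N : ℕ} [NeZero N]

/-- `ℂ(X₀(N))` is a field of ratios of forms. -/
instance isX0Field_FC : IsX0Field N (FC N) where
  exists_rep x hx := (Mono.mem_FC_iff N).mp hx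
  jq_mem := by
    show _ ∈ ModularCurve.laurentBaseChange ℂ _
    rw [MF.laurentBaseChange_full_eq_pair ℂ N]
    exact ModularCurve.jqModC_mem ℂ N

/-- `j` in `ℂ(X₀(N))`. -/
abbrev jC (N : ℕ) [NeZero N] : FC N := jEl N (FC N)

theorem transcendental_jC : Transcendental ℂ (jC N) :=
  MF.transcendental_elem (FC N) (jC N) rfl

/-- The degree of `j` is the index of `Γ₀(N)`. -/
theorem finrank_jC : Module.finrank ℂ⟮jC N⟯ (FC N) = Nat.card (Coset N) :=
  (MF.finrank_adjoin_eq N (FC N) (MF.laurentBaseChange_full_eq_pair ℂ N) (jC N) rfl).2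

theorem exists_ofPowerSeries {x : LaurentSeries ℂ} (h : 0 ≤ x.order) :
    ∃ p : PowerSeries ℂ, HahnSeries.ofPowerSeries ℤ ℂ p = x := by
  obtain ⟨n, hn⟩ := Int.eq_ofNat_of_zero_le h
  refine ⟨PowerSeries.X ^ n * x.powerSeriesPart, ?_⟩
  rw [map_mul, HahnSeries.ofPowerSeries_X_pow]
  conv_rhs => rw [← LaurentSeries.single_order_mul_powerSeriesPart x, hn]

theorem order_ofPowerSeries_nonneg (p : PowerSeries ℂ) :
    0 ≤ (HahnSeries.ofPowerSeries ℤ ℂ p).order := by
  rcases eq_or_ne (HahnSeries.ofPowerSeries ℤ ℂ p) 0 with h | h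
  · simp [h]
  by_contra hneg
  exact HahnSeries.coeff_order_eq_zero.not.mpr h
    (ModularCurve.ofPowerSeries_coeff_of_neg p (not_le.mp hneg))

theorem order_div {a b : LaurentSeries ℂ} (ha : a ≠ 0) (hb : b ≠ 0) :
    (a / b).order = a.order - b.order := by
  have h := HahnSeries.order_mul (div_ne_zero ha hb) hb
  rw [div_mul_cancel₀ a hb] at h
  omega

theorem map_prod_X_sub_C {R S ι : Type*} [CommRing R] [CommRing S] [Fintype ι] (φ : R →+* S)
    (a : ι → R) : (∏ i, (X - C (a i))).map φ = ∏ i, (X - C (φ (a i))) := by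
  simp [Polynomial.map_prod]

/-- The function field of the curve of `Γ ⊇ Γ(W)`: all ratios of forms, of degree the index
over `ℂ(j)`. -/
structure CurveField (Γ : Subgroup SL(2, ℤ)) (W : ℕ)
    (F : IntermediateField ℂ (LaurentSeries ℂ)) : Prop extends JRatioField Γ W F where
  neg_one_mem : (-1 : SL(2, ℤ)) ∈ Γ
  mem_of_ratio : ∀ x, IsRatioOn Γ x → x ∈ F
  degree : Module.finrank ℂ⟮(⟨ModularCurve.jqModC ℂ, jq_mem⟩ : F)⟯ F = Γ.index

section General

variable {Γ : Subgroup SL(2, ℤ)} {W : ℕ} {F : IntermediateField ℂ (LaurentSeries ℂ)}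

namespace RatioField

variable (D : RatioField Γ W F)
include D

/-- The valuation of the coset `q` in the chart `ψ`. -/
def cosetVal (ψ : Expansion W) (q : SL(2, ℤ) ⧸ Γ) : IntVal ℂ F := D.intVal ψ (cosetRep q)

theorem intVal_ord_rep (ψ : Expansion W) (γ : SL(2, ℤ)) {x : F} (hx : x ≠ 0) {k : ℤ}
    {f g : ℍ → ℂ} (hf : IsFormFn Γ k f) (hg : IsFormFn Γ k g) (hg0 : g ≠ 0)
    (h : (x : LaurentSeries ℂ) * lq g = lq f) :
    f ≠ 0 ∧ (D.intVal ψ γ).ord x =
      (ψ.ls (D.wslash hf γ)).order - (ψ.ls (D.wslash hg γ)).order := by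
  have hf0 : f ≠ 0 := by
    rintro rfl
    rw [lq_zero, mul_eq_zero, lq_eq_zero_iff (D.isQFn hg)] at h
    exact h.elim (fun h => hx (Subtype.ext h)) hg0
  refine ⟨hf0, ?_⟩
  rw [D.intVal_ord, D.conjHom_eq ψ γ x hf hg hg0 h]
  exact order_div (D.ls_wslash_ne_zero ψ hf hf0 γ) (D.ls_wslash_ne_zero ψ hg hg0 γ)

/-- The valuations of the right translates of a coset. -/
theorem conjHom_cosetRep_smul (ψ : Expansion W) (q : SL(2, ℤ) ⧸ Γ) (e : SL(2, ℤ)) (x : F) :
    D.conjHom ψ (cosetRep (e • q)) x = D.conjHom ψ (cosetRep q * e⁻¹) x := by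
  obtain ⟨δ, hδ, h⟩ := exists_cosetRep_mul q e⁻¹
  rw [inv_inv] at h
  rw [h, D.conjHom_mul_left ψ hδ]

theorem wslash_fixed {k : ℤ} {f : ℍ → ℂ} (hf : IsFormFn Γ k f) (q : SL(2, ℤ) ⧸ Γ)
    {e : SL(2, ℤ)} (he : e • q = q) :
    (D.wslash hf (cosetRep q) : ℍ → ℂ) ∣[k] e = (D.wslash hf (cosetRep q) : ℍ → ℂ) := by
  have he' : e⁻¹ • q = q := by rw [inv_smul_eq_iff, he]
  obtain ⟨δ, hδ, h⟩ := exists_cosetRep_mul q e
  rw [he'] at h
  show (f ∣[k] cosetRep q) ∣[k] e = f ∣[k] cosetRep q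
  rw [← SlashAction.slash_mul, h, SlashAction.slash_mul, hf.slash_eq δ hδ]

theorem ordH_point_eq (τ : ℍ) (γ : SL(2, ℤ)) {k : ℤ} {f : ℍ → ℂ} (hf : IsFormFn Γ k f)
    (h0 : f ≠ 0) :
    ordH (f ∣[k] γ) τ = (((pointExpansion W τ).ls (D.wslash hf γ)).order : ℤ) :=
  ordH_eq_order_point τ (f := D.wslash hf γ) fun h => slash_ne_zero h0 γ (congrArg Subtype.val h)

/-- The valuations at a point are invariant under its stabiliser. -/
theorem point_stab (τ : ℍ) {e : SL(2, ℤ)} (he : e • τ = τ) (q : SL(2, ℤ) ⧸ Γ) (x : F) :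
    (D.cosetVal (pointExpansion W τ) (e • q)).ord x =
      (D.cosetVal (pointExpansion W τ) q).ord x := by
  rcases eq_or_ne x 0 with rfl | hx
  · simp [cosetVal, D.intVal_ord]
  obtain ⟨k, f, g, hf, hg, hg0, h⟩ := D.exists_rep x
  obtain ⟨hf0, -⟩ := D.intVal_ord_rep (pointExpansion W τ) 1 hx hf hg hg0 h
  have he' : e⁻¹ • τ = τ := by rw [inv_smul_eq_iff, he]
  have key : ∀ (u : ℍ → ℂ) (hu : IsFormFn Γ k u), u ≠ 0 →
      ((pointExpansion W τ).ls (D.wslash hu (cosetRep q * e⁻¹))).order =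
        ((pointExpansion W τ).ls (D.wslash hu (cosetRep q))).order := by
    intro u hu hu0
    have h1 := D.ordH_point_eq τ (cosetRep q * e⁻¹) hu hu0
    rw [SlashAction.slash_mul, ordH_slash, he', D.ordH_point_eq τ (cosetRep q) hu hu0] at h1
    exact_mod_cast h1.symm
  rw [cosetVal, cosetVal, D.intVal_ord, D.conjHom_cosetRep_smul, ← D.intVal_ord,
    (D.intVal_ord_rep _ _ hx hf hg hg0 h).2, (D.intVal_ord_rep _ _ hx hf hg hg0 h).2,
    key f hf hf0, key g hg hg0]

/-- An element fixing a point and a coset constrains the valuation of the coset at the point. -/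
theorem point_multiplier (τ : ℍ) {e : SL(2, ℤ)} (he : e • τ = τ) {q : SL(2, ℤ) ⧸ Γ}
    (heq : e • q = q) {x : F} (hx : x ≠ 0) :
    ((denom e τ : ℂ) ^ (2 : ℕ))⁻¹ ^ (D.cosetVal (pointExpansion W τ) q).ord x = 1 := by
  obtain ⟨k, f, g, hf, hg, hg0, h⟩ := D.exists_rep x
  obtain ⟨hf0, hord⟩ := D.intVal_ord_rep (pointExpansion W τ) (cosetRep q) hx hf hg hg0 h
  have h1 := multiplier_pow_order (D.wslash hf (cosetRep q)).2.mdiff he (D.wslash_fixed hf q heq)
    (D.ordH_point_eq τ (cosetRep q) hf hf0)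
  have h2 := multiplier_pow_order (D.wslash hg (cosetRep q)).2.mdiff he (D.wslash_fixed hg q heq)
    (D.ordH_point_eq τ (cosetRep q) hg hg0)
  rw [cosetVal, hord, zpow_sub₀ (inv_ne_zero (pow_ne_zero _ (denom_ne_zero _ _))), h1, h2,
    div_self (zpow_ne_zero _ (denom_ne_zero _ _))]

end RatioField

namespace JRatioField

variable (D : JRatioField Γ W F)
include D

theorem transcendental_jEl : Transcendental ℂ D.jEl := MF.transcendental_elem F D.jEl rfl

theorem sub_const_ne_zero (a : ℂ) : D.jEl - algebraMap ℂ F a ≠ 0 := fun h =>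
  D.transcendental_jEl (sub_eq_zero.mp h ▸ isAlgebraic_algebraMap a)

theorem jEl_ne_zero : D.jEl ≠ 0 := fun h => D.transcendental_jEl (h ▸ isAlgebraic_zero)

/-- The integrality input of the orbit lemma. -/
theorem exists_integral_poly [NeZero W] (ψ : Expansion W) (f : F)
    (hv : ∀ q, 0 ≤ (D.cosetVal ψ q).ord f) :
    ∃ P : Polynomial F, P.Monic ∧ P.eval f = 0 ∧
      ∀ i, P.coeff i ≠ 0 → P.coeff i ∈ ℂ⟮D.jEl⟯ ∧ ∃ q, 0 ≤ (D.cosetVal ψ q).ord (P.coeff i) := by
  classical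
  have := D.finiteIndex
  let _ : Fintype (SL(2, ℤ) ⧸ Γ) := Fintype.ofFinite _
  obtain ⟨P, hP, hmap⟩ := D.exists_charPoly f
  choose s hs using fun q => exists_ofPowerSeries (x := D.conjHom ψ (cosetRep q) f) (hv q)
  have hinj : Injective (D.conjHom ψ 1) := RingHom.injective _
  refine ⟨P, ?_, ?_, fun i _ => ⟨hP i, (QuotientGroup.mk 1), ?_⟩⟩
  · refine Polynomial.monic_of_injective hinj ?_
    rw [hmap]
    exact monic_prod_X_sub_C _ _
  · apply hinj
    rw [map_zero, ← Polynomial.eval_map_apply, hmap, eval_prod]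
    refine Finset.prod_eq_zero (Finset.mem_univ (QuotientGroup.mk 1)) ?_
    rw [← mul_one (cosetRep (QuotientGroup.mk 1)), D.conjHom_mul_left ψ cosetRep_one_mem]
    simp
  · rw [RatioField.cosetVal, D.intVal_ord, ← Polynomial.coeff_map, hmap]
    simp_rw [← hs]
    rw [← map_prod_X_sub_C, Polynomial.coeff_map]
    exact order_ofPowerSeries_nonneg _

end JRatioField

namespace CurveField

variable (D : CurveField Γ W F)
include D

/-- The field of a curve is a function field. -/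
theorem isFunctionField [NeZero W] : FF.IsFunctionField ℂ F := by
  have := D.finiteIndex
  have hpos : 0 < Module.finrank ℂ⟮D.jEl⟯ F := by
    show 0 < Module.finrank ℂ⟮(⟨ModularCurve.jqModC ℂ, D.jq_mem⟩ : F)⟯ F
    rw [D.degree]
    exact Nat.pos_of_ne_zero Subgroup.FiniteIndex.index_ne_zero
  have : FiniteDimensional ℂ⟮D.jEl⟯ F := Module.finite_of_finrank_pos hpos
  exact FF.isFunctionField_of_finite D.transcendental_jEl

/-- Places over a zero of `y`, for a chart and a stabilising element. -/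
theorem exists_places_equiv_orbits [NeZero W] (ψ : Expansion W) (R : SL(2, ℤ)) {y : F} (hy0 : y ≠ 0)
    (hyadj : ℂ⟮y⟯ = ℂ⟮D.jEl⟯) {h : ℕ} (hh : 0 < h) (hvy : ∀ q, (D.cosetVal ψ q).ord y = h)
    (hstab : ∀ e ∈ Subgroup.zpowers R, ∀ q : SL(2, ℤ) ⧸ Γ,
      (D.cosetVal ψ (e • q)).ord = (D.cosetVal ψ q).ord)
    (hdvd : ∀ (q : SL(2, ℤ) ⧸ Γ) (f : F), f ≠ 0 → (h : ℤ) ∣
      (Nat.card (MulAction.orbit (Subgroup.zpowers R) q) : ℤ) * (D.cosetVal ψ q).ord f) :
    ∃ pl : MulAction.orbitRel.Quotient (Subgroup.zpowers R) (SL(2, ℤ) ⧸ Γ) → Place ℂ F,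
      Injective pl ∧ (∀ w, 0 < w.ord y ↔ w ∈ Set.range pl) ∧
      ∀ q : SL(2, ℤ) ⧸ Γ, (pl ⟦q⟧).ord y = Nat.card (MulAction.orbit (Subgroup.zpowers R) q) ∧
        ∃ k : ℕ, 0 < k ∧ k * Nat.card (MulAction.orbit (Subgroup.zpowers R) q) = h ∧
          ∀ f : F, f ≠ 0 → (D.cosetVal ψ q).ord f = k * (pl ⟦q⟧).ord f := by
  classical
  have := D.finiteIndex
  have := D.isFunctionField
  have hdeg : Module.finrank ℂ⟮D.jEl⟯ F = Nat.card (SL(2, ℤ) ⧸ Γ) := by
    rw [← Subgroup.index_eq_card]; exact D.degree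
  set s := MulAction.orbitRel (Subgroup.zpowers R) (SL(2, ℤ) ⧸ Γ) with hsdef
  have hcard : ∀ q, Nat.card {q' // s.r q q'}
      = Nat.card (MulAction.orbit (Subgroup.zpowers R) q) := fun q =>
    Nat.card_congr (Equiv.subtypeEquivRight fun q' => by
      show q ∈ MulAction.orbit _ q' ↔ _
      exact MulAction.mem_orbit_symm)
  have hyt : Transcendental ℂ y := by
    rcases FF.mem_range_or_transcendental (K := ℂ) y with ⟨c, hc⟩ | h
    · have := hvy (QuotientGroup.mk 1)
      rw [← hc, (D.cosetVal ψ _).map_const (fun h0 => hy0 (by rw [← hc, h0, map_zero]))] at this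
      omega
    · exact h
  set Z : Finset (Place ℂ F) := (FF.zeroDiv y).support with hZdef
  have hZ : ∀ w, w ∈ Z ↔ 0 < w.ord y := fun w => by
    rw [hZdef, Finsupp.mem_support_iff, FF.zeroDiv_apply]; omega
  have hsum : ∑ w ∈ Z, w.ord y = Nat.card (SL(2, ℤ) ⧸ Γ) := by
    have h1 := FF.degree_zeroDiv (K := ℂ) hyt
    rw [hyadj, hdeg, FF.degree_eq_sum] at h1
    rw [← h1, Finsupp.sum]
    refine Finset.sum_congr rfl fun w hw => ?_
    rw [FF.zeroDiv_apply]
    have := (hZ w).mp hw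
    omega
  obtain ⟨pl, h1, h2, h3⟩ := exists_places_equiv_classes (D.cosetVal ψ) hy0 hh hvy s
    (fun q q' hqq => by
      obtain ⟨⟨e, he⟩, heq⟩ : q ∈ MulAction.orbit (Subgroup.zpowers R) q' := hqq
      rw [← heq]
      exact hstab e he q')
    (fun q f hf => by rw [hcard]; exact hdvd q f hf)
    (fun f _ hv => by rw [hyadj]; exact D.exists_integral_poly ψ f hv)
    Z hZ hsum
    (fun S w hw => by
      obtain ⟨f, hf, hf'⟩ := FF.exists_ord_eq (insert w S) fun v => if v = w then -1 else 0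
      refine ⟨f, hf, ?_, fun v hv => ?_⟩
      · rw [hf' w (Finset.mem_insert_self _ _), if_pos rfl]; norm_num
      · rw [hf' v (Finset.mem_insert_of_mem hv), if_neg fun hvw : v = w => hw (hvw ▸ hv)])
  refine ⟨pl, h1, h2, fun q => ?_⟩
  rw [← hcard]
  exact h3 q

end CurveField

end General

/-! ### The curve of `Γ₀(N)` -/

variable (N) in
/-- `ℂ(X₀(N))` is the function field of the curve of `Γ₀(N)`. -/
theorem curveField : CurveField (Gamma0 N) N (FC N) where
  toJRatioField := IsX0Field.jRatioField N (FC N)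
  neg_one_mem := by simp [Gamma0_mem]
  mem_of_ratio _ := (Mono.mem_FC_iff N).mpr
  degree := by rw [Subgroup.index_eq_card]; exact finrank_jC

/-- The valuation of the coset `q` in the chart `ψ`, at level `Γ₀(N)`. -/
def cosetVal (ψ : Expansion N) (q : Coset N) : IntVal ℂ (FC N) := ψ.intVal (cosetRep q)

theorem cosetVal_ord (ψ : Expansion N) (q : Coset N) (x : FC N) :
    (cosetVal ψ q).ord x = (ψ.conjHom (cosetRep q) x).order := rfl

omit [NeZero N] in
theorem ordH_point_eq (τ : ℍ) (γ : SL(2, ℤ)) {k : ℤ} {f : ℍ → ℂ}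
    (hf : IsFormFn (Gamma0 N) k f) (h0 : f ≠ 0) :
    ordH (f ∣[k] γ) τ = (((pointExpansion N τ).ls (wslash hf γ)).order : ℤ) :=
  ordH_eq_order_point τ (f := wslash hf γ) fun h => slash_ne_zero h0 γ (congrArg Subtype.val h)

end Fermat.Agent.X0
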