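import Mathlib.Analysis.Calculus.MeanValue
import Mathlib.Analysis.Complex.Liouville
import Mathlib.Analysis.Meromorphic.Order
import Mathlib.NumberTheory.ModularForms.Derivative
import Mathlib.NumberTheory.ModularForms.LevelOne.GradedRing

/-!
# Level one facts about the `j`-invariant

`j = E₄ ^ 3 / Δ` is onto `ℂ`; the order of `j - j τ` at `τ` is `3`, `2` or `1` according to
whether `E₄ τ = 0`, `E₆ τ = 0` or neither.
-/

noncomputable section

open UpperHalfPlane Complex OnePoint ModularForm EisensteinSeries Derivative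
open scoped MatrixGroups Manifold ModularForm Topology

namespace Fermat.Agent.X0

/-- The modular invariant. -/
def jFun (τ : ℍ) : ℂ := E₄ τ ^ 3 / discriminant τ

/-- Order of a function on `ℍ` at a point. -/
def ordH (f : ℍ → ℂ) (τ : ℍ) : WithTop ℤ :=
  meromorphicOrderAt (f ∘ ofComplex) (τ : ℂ)

theorem analyticAt_comp_ofComplex {f : ℍ → ℂ} (hf : MDiff f) (τ : ℍ) :
    AnalyticAt ℂ (f ∘ ofComplex) (τ : ℂ) :=
  ((UpperHalfPlane.mdifferentiable_iff.mp hf).analyticAt
    (isOpen_upperHalfPlaneSet.mem_nhds τ.im_pos))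

theorem mdiff_E₄ : MDiff (E₄ : ℍ → ℂ) := E₄.holo'
theorem mdiff_E₆ : MDiff (E₆ : ℍ → ℂ) := E₆.holo'
theorem mdiff_discriminant : MDiff discriminant := CuspForm.discriminant.holo'

theorem mdiff_jFun : MDiff jFun :=
  (mdiff_E₄.pow 3).div mdiff_discriminant discriminant_ne_zero

theorem slash_SL_of_form {k : ℤ} {F : Type*} [FunLike F ℍ ℂ] [SlashInvariantFormClass F 𝒮ℒ k]
    (f : F) (γ : SL(2, ℤ)) : (⇑f : ℍ → ℂ) ∣[k] γ = ⇑f := by
  rw [ModularForm.SL_slash]
  exact SlashInvariantFormClass.slash_action_eq f _ ⟨γ, rfl⟩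

theorem form_smul_of_slash_eq {k : ℤ} {F : ℍ → ℂ} {e : SL(2, ℤ)} (hF : F ∣[k] e = F) (σ : ℍ) :
    F (e • σ) = denom e σ ^ k * F σ := by
  have h := congrFun hF σ
  rw [ModularForm.SL_slash_apply] at h
  rw [← h, mul_left_comm, ← zpow_add₀ (denom_ne_zero _ _)]
  simp

theorem form_smul_apply {k : ℤ} {F : Type*} [FunLike F ℍ ℂ] [SlashInvariantFormClass F 𝒮ℒ k]
    (f : F) (γ : SL(2, ℤ)) (τ : ℍ) :
    f (γ • τ) = denom γ τ ^ k * f τ :=
  form_smul_of_slash_eq (slash_SL_of_form f γ) τ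

theorem jFun_smul (γ : SL(2, ℤ)) (τ : ℍ) : jFun (γ • τ) = jFun τ := by
  have hd : denom γ τ ≠ 0 := denom_ne_zero _ _
  have h4 := form_smul_apply (k := 4) E₄ γ τ
  have h12 : discriminant (γ • τ) = denom γ τ ^ (12 : ℤ) * discriminant τ :=
    form_smul_apply (k := 12) CuspForm.discriminant γ τ
  have := discriminant_ne_zero τ
  simp only [jFun, h4, h12]
  field_simp

theorem E₄_ne_zero_of_E₆_eq_zero {τ : ℍ} (h : E₆ τ = 0) : E₄ τ ≠ 0 := by
  intro h4
  apply discriminant_ne_zero τ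
  simp [ModularForm.discriminant_eq_E₄_cube_sub_E₆_sq, h, h4]

theorem E₆_ne_zero_of_E₄_eq_zero {τ : ℍ} (h : E₄ τ = 0) : E₆ τ ≠ 0 :=
  fun h6 ↦ E₄_ne_zero_of_E₆_eq_zero h6 h

theorem jFun_eq_zero_iff {τ : ℍ} : jFun τ = 0 ↔ E₄ τ = 0 := by
  simp [jFun, discriminant_ne_zero]

theorem jFun_sub_1728 (τ : ℍ) : jFun τ - 1728 = E₆ τ ^ 2 / discriminant τ := by
  have h := discriminant_ne_zero τ
  rw [jFun, eq_div_iff h, sub_mul, div_mul_cancel₀ _ h,
    ModularForm.discriminant_eq_E₄_cube_sub_E₆_sq]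
  ring

theorem jFun_eq_1728_iff {τ : ℍ} : jFun τ = 1728 ↔ E₆ τ = 0 := by
  rw [← sub_eq_zero, jFun_sub_1728]
  simp [discriminant_ne_zero]

/-- `j` takes every complex value. -/
theorem jFun_surjective : Function.Surjective jFun := by
  intro a
  by_contra hcon
  push Not at hcon
  have hne : ∀ τ, E₄ τ ^ 3 - a * discriminant τ ≠ 0 := fun τ h ↦ by
    apply hcon τ
    rw [jFun, div_eq_iff (discriminant_ne_zero τ)]
    exact sub_eq_zero.mp h
  let g : ℍ → ℂ := fun τ ↦ discriminant τ / (E₄ τ ^ 3 - a * discriminant τ)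
  have hg : ∀ τ, g τ * (jFun τ - a) = 1 := fun τ ↦ by
    have := discriminant_ne_zero τ
    have := hne τ
    simp only [g, jFun]
    field_simp
    exact div_self (by rwa [mul_comm a] at *)
  have hga : ∀ (γ : SL(2, ℤ)) τ, g (γ • τ) = g τ := fun γ τ ↦ by
    have h1 := hg (γ • τ)
    rw [jFun_smul] at h1
    exact mul_right_cancel₀ (fun h0 ↦ by simp [h0] at h1) (h1.trans (hg τ).symm)
  have hinf : IsZeroAtImInfty g := by
    have hd : Filter.Tendsto discriminant atImInfty (𝓝 0) := discriminant_isZeroAtImInfty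
    have hE : Filter.Tendsto (E₄ : ℍ → ℂ) atImInfty (𝓝 1) := by
      have hanal := ModularFormClass.analyticAt_cuspFunction_zero E₄ one_pos
        one_mem_strictPeriods_SL
      have hper := SlashInvariantFormClass.periodic_comp_ofComplex E₄ one_mem_strictPeriods_SL
      have h0 : cuspFunction 1 (E₄ : ℍ → ℂ) 0 = 1 := by
        rw [cuspFunction_apply_zero one_pos hanal hper,
          ← qExpansion_coeff_zero one_pos hanal hper]
        exact E_qExpansion_coeff_zero _ ⟨2, rfl⟩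
      rw [← h0]
      exact (hanal.continuousAt.tendsto.comp (qParam_tendsto_atImInfty one_pos)).congr
        (fun τ ↦ SlashInvariantFormClass.eq_cuspFunction E₄ τ one_mem_strictPeriods_SL one_ne_zero)
    have h := hd.div ((hE.pow 3).sub (hd.const_mul a)) (by norm_num)
    rw [zero_div] at h
    exact h
  let G : ModularForm 𝒮ℒ 0 :=
    { toFun := g
      slash_action_eq' := fun γ' ⟨γ, hγ⟩ ↦ by
        subst hγ
        ext τ
        exact (ModularForm.SL_slash_apply g γ τ).trans (by simpa using hga γ τ)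
      holo' := mdiff_discriminant.div
        ((mdiff_E₄.pow 3).sub (mdifferentiable_const.mul mdiff_discriminant)) hne
      bdd_at_cusps' := fun {c} hc ↦ by
        rw [Subgroup.IsArithmetic.isCusp_iff_isCusp_SL2Z] at hc
        rw [isBoundedAt_iff_forall_SL2Z hc]
        intro γ _
        have : g ∣[(0 : ℤ)] γ = g := by
          ext τ
          simpa [ModularForm.SL_slash_apply] using hga γ τ
        rw [this]
        exact hinf.isBoundedAtImInfty }
  obtain ⟨c, hc⟩ := ModularFormClass.levelOne_weight_zero_const G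
  have hc' : g = Function.const ℍ c := hc
  have h0 : c = 0 := by
    rw [hc'] at hinf
    exact tendsto_nhds_unique tendsto_const_nhds hinf
  have := hg UpperHalfPlane.I
  simp [hc', h0] at this

theorem isBoundedAtImInfty_D {F : ℍ → ℂ} (hF : MDiff F) (hb : IsBoundedAtImInfty F) :
    IsBoundedAtImInfty (normalizedDerivOfComplex F) := by
  obtain ⟨M, A, hMA⟩ := isBoundedAtImInfty_iff.mp hb
  refine isBoundedAtImInfty_iff.mpr ⟨‖(2 * Real.pi * Complex.I)⁻¹‖ * M, max A 1 + 1, fun z hz ↦ ?_⟩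
  rw [normalizedDerivOfComplex, norm_mul]
  gcongr
  have him : ∀ w ∈ Metric.closedBall (z : ℂ) 1, max A 1 ≤ w.im := fun w hw ↦ by
    have h1 : |(w - (z : ℂ)).im| ≤ 1 := (abs_im_le_norm _).trans (mem_closedBall_iff_norm.mp hw)
    rw [sub_im, abs_le] at h1
    simp only [UpperHalfPlane.coe_im] at h1
    linarith
  have hpos : ∀ w ∈ Metric.closedBall (z : ℂ) 1, 0 < w.im := fun w hw ↦
    lt_of_lt_of_le one_pos ((le_max_right A 1).trans (him w hw))
  have h := Complex.norm_deriv_le_of_forall_mem_sphere_norm_le (F := ℂ) (f := F ∘ ofComplex)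
    (c := (z : ℂ)) (C := M) one_pos ?_ ?_
  · simpa using h
  · refine DifferentiableOn.diffContOnCl ?_
    rw [closure_ball _ one_ne_zero]
    exact (UpperHalfPlane.mdifferentiable_iff.mp hF).mono hpos
  · intro w hw
    have hw' := Metric.sphere_subset_closedBall hw
    rw [Function.comp_apply]
    refine hMA _ ?_
    rw [ofComplex_apply_of_im_pos (hpos w hw')]
    exact (le_max_left A 1).trans (him w hw')

theorem D_discriminant (τ : ℍ) :
    normalizedDerivOfComplex discriminant τ = EisensteinSeries.E2 τ * discriminant τ := by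
  have hev : (discriminant ∘ ofComplex) =ᶠ[𝓝 (τ : ℂ)] fun z ↦ ModularForm.eta z ^ 24 := by
    filter_upwards [isOpen_upperHalfPlaneSet.mem_nhds τ.im_pos] with z hz
    simp [ModularForm.discriminant, ofComplex_apply_of_im_pos hz]
  have hd := ModularForm.differentiableAt_eta_of_mem_upperHalfPlaneSet τ.2
  rw [normalizedDerivOfComplex, hev.deriv_eq]
  have h1 : logDeriv (fun z ↦ ModularForm.eta z ^ 24) (τ : ℂ)
      = 24 * logDeriv ModularForm.eta τ := by
    simpa using logDeriv_fun_pow hd 24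
  rw [logDeriv_apply, ModularForm.logDeriv_eta_eq_E2] at h1
  have hne : ModularForm.eta (τ : ℂ) ^ 24 ≠ 0 := pow_ne_zero _ (ModularForm.eta_ne_zero τ.2)
  rw [div_eq_iff hne] at h1
  rw [h1, ModularForm.discriminant]
  field_simp
  ring

/-- The modular form `∂₄ E₄` of weight six. -/
def serreE₄ : ModularForm 𝒮ℒ 6 where
  toFun := serreDerivative 4 E₄
  slash_action_eq' := fun γ' ⟨γ, hγ⟩ ↦ by
    subst hγ
    have := serreDerivative_slash_invariant (k := 4) mdiff_E₄ (γ := γ) (slash_SL_of_form E₄ γ)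
    simpa [ModularForm.SL_slash] using! this
  holo' := serreDerivative_mdifferentiable 4 mdiff_E₄
  bdd_at_cusps' := fun {c} hc ↦ by
    rw [Subgroup.IsArithmetic.isCusp_iff_isCusp_SL2Z] at hc
    rw [isBoundedAt_iff_forall_SL2Z hc]
    intro γ _
    have h := serreDerivative_slash_invariant (k := 4) mdiff_E₄ (γ := γ) (slash_SL_of_form E₄ γ)
    have hb : IsBoundedAtImInfty (E₄ : ℍ → ℂ) := ModularFormClass.bdd_at_infty E₄
    have key : IsBoundedAtImInfty (serreDerivative 4 E₄) :=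
      (isBoundedAtImInfty_D mdiff_E₄ hb).sub
        (((Filter.const_boundedAtFilter atImInfty ((4 : ℂ) * 12⁻¹)).mul
          isBoundedAtImInfty_E2).mul hb)
    norm_num only at h
    rw [h]
    exact key

/-- `dj/dτ` is a nonzero multiple of `E₄² E₆ / Δ`, because `∂₄ E₄` is a multiple of `E₆`. -/
theorem exists_D_jFun : ∃ c : ℂ, c ≠ 0 ∧
    ∀ τ : ℍ, deriv (jFun ∘ ofComplex) (τ : ℂ) = c * (E₄ τ ^ 2 * E₆ τ / discriminant τ) := by
  obtain ⟨c, hc⟩ := (finrank_eq_one_iff_of_nonzero' (E₆ : ModularForm 𝒮ℒ 6)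
    (EisensteinSeries.E_ne_zero _ ⟨3, rfl⟩)).mp
    (Module.rank_eq_one_iff_finrank_eq_one.mp ModularForm.levelOne_weight_six_rank_one) serreE₄
  have hder : ∀ τ : ℍ, deriv (jFun ∘ ofComplex) (τ : ℂ)
      = 2 * Real.pi * Complex.I * (3 * c) * (E₄ τ ^ 2 * E₆ τ / discriminant τ) := by
    intro τ
    have hcτ : c * E₆ τ = normalizedDerivOfComplex (E₄ : ℍ → ℂ) τ
        - 4 * 12⁻¹ * EisensteinSeries.E2 τ * E₄ τ := congrArg (fun f : ModularForm 𝒮ℒ 6 ↦ f τ) hc
    have hΔ := D_discriminant τ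
    rw [normalizedDerivOfComplex] at hcτ hΔ
    have d4 := UpperHalfPlane.mdifferentiableAt_iff.mp (mdiff_E₄ τ)
    have dΔ := UpperHalfPlane.mdifferentiableAt_iff.mp (mdiff_discriminant τ)
    have hne := discriminant_ne_zero τ
    have key : deriv (jFun ∘ ofComplex) (τ : ℂ) =
        (3 * E₄ τ ^ 2 * deriv ((E₄ : ℍ → ℂ) ∘ ofComplex) τ * discriminant τ
          - E₄ τ ^ 3 * deriv (discriminant ∘ ofComplex) τ) / discriminant τ ^ 2 := by
      rw [show jFun ∘ ofComplex
        = fun z ↦ (((E₄ : ℍ → ℂ) ∘ ofComplex) z) ^ 3 / (discriminant ∘ ofComplex) z from rfl,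
        deriv_fun_div (d4.fun_pow 3) dΔ (by simpa using hne), deriv_fun_pow d4]
      simp
    rw [key]
    have hπ : (2 : ℂ) * Real.pi * Complex.I ≠ 0 := Complex.two_pi_I_ne_zero
    have e4 : deriv ((E₄ : ℍ → ℂ) ∘ ofComplex) τ
        = 2 * Real.pi * Complex.I * (c * E₆ τ + 4 * 12⁻¹ * EisensteinSeries.E2 τ * E₄ τ) := by
      rw [hcτ, sub_add_cancel, mul_inv_cancel_left₀ hπ]
    have eΔ : deriv (discriminant ∘ ofComplex) τ
        = 2 * Real.pi * Complex.I * (EisensteinSeries.E2 τ * discriminant τ) := by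
      rw [← hΔ, mul_inv_cancel_left₀ hπ]
    rw [e4, eΔ]
    field_simp
    ring
  refine ⟨_, mul_ne_zero Complex.two_pi_I_ne_zero (mul_ne_zero three_ne_zero ?_), hder⟩
  intro h0
  obtain ⟨a, ha⟩ := jFun_surjective 0
  obtain ⟨b, hb⟩ := jFun_surjective 1
  have hd : DifferentiableOn ℂ (jFun ∘ ofComplex) upperHalfPlaneSet :=
    UpperHalfPlane.mdifferentiable_iff.mp mdiff_jFun
  have hconst := (convex_halfSpace_im_gt 0).is_const_of_fderivWithin_eq_zero hd (fun z hz ↦ by
    rw [fderivWithin_of_isOpen isOpen_upperHalfPlaneSet hz]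
    have hz' : deriv (jFun ∘ ofComplex) z = 0 := by
      have := hder ⟨z, hz⟩
      simpa [h0] using this
    ext
    exact hz') a.im_pos b.im_pos
  simp [ha, hb] at hconst

theorem ordH_const_mul {c : ℂ} (hc : c ≠ 0) (f : ℍ → ℂ) (τ : ℍ) :
    ordH (fun z ↦ c * f z) τ = ordH f τ :=
  meromorphicOrderAt_mul_of_ne_zero (g := fun _ : ℂ ↦ c) analyticAt_const hc

theorem ordH_div_of_ne_zero {f g : ℍ → ℂ} (hg : MDiff g) {τ : ℍ} (h : g τ ≠ 0) :
    ordH (fun z ↦ f z / g z) τ = ordH f τ := by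
  have hg' := analyticAt_comp_ofComplex hg τ
  have h' : (g ∘ ofComplex) (τ : ℂ) ≠ 0 := by simpa using h
  have := meromorphicOrderAt_mul_of_ne_zero (f := f ∘ ofComplex) (hg'.inv h') (inv_ne_zero h')
  rw [mul_comm] at this
  exact this

theorem ordH_eq_zero_of_ne_zero {f : ℍ → ℂ} (hf : MDiff f) {τ : ℍ} (h : f τ ≠ 0) :
    ordH f τ = 0 := by
  have hf' := analyticAt_comp_ofComplex hf τ
  rw [ordH, hf'.meromorphicOrderAt_eq, hf'.analyticOrderAt_eq_zero.mpr (by simpa using h)]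
  simp

theorem ordH_mul {f g : ℍ → ℂ} (hf : MDiff f) (hg : MDiff g) (τ : ℍ) :
    ordH (fun z ↦ f z * g z) τ = ordH f τ + ordH g τ :=
  meromorphicOrderAt_mul (analyticAt_comp_ofComplex hf τ).meromorphicAt
    (analyticAt_comp_ofComplex hg τ).meromorphicAt

/-- A nonzero holomorphic function on `ℍ` has finite order everywhere. -/
theorem exists_ordH_eq_natCast {f : ℍ → ℂ} (hf : MDiff f) (hne : f ≠ 0) (τ : ℍ) :
    ∃ n : ℕ, ordH f τ = (n : ℤ) := by
  have hf' := analyticAt_comp_ofComplex hf τ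
  rw [ordH, hf'.meromorphicOrderAt_eq]
  cases hn : analyticOrderAt (f ∘ ofComplex) (τ : ℂ) with
  | top =>
    exfalso
    apply hne
    have hA : AnalyticOnNhd ℂ (f ∘ ofComplex) upperHalfPlaneSet :=
      (UpperHalfPlane.mdifferentiable_iff.mp hf).analyticOnNhd isOpen_upperHalfPlaneSet
    have := hA.eqOn_zero_of_preconnected_of_eventuallyEq_zero
      (convex_halfSpace_im_gt 0).isPreconnected τ.im_pos (analyticOrderAt_eq_top.mp hn)
    funext z
    simpa using this z.im_pos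
  | coe n => exact ⟨n, rfl⟩

/-- `3`, `2` or `1`: the order of `j - j τ` at `τ`. -/
def ellOrder (τ : ℍ) : ℕ := if E₄ τ = 0 then 3 else if E₆ τ = 0 then 2 else 1

theorem one_le_ellOrder (τ : ℍ) : 1 ≤ ellOrder τ := by
  unfold ellOrder; split_ifs <;> norm_num

theorem ellOrder_eq (τ : ℍ) :
    ellOrder τ = if jFun τ = 0 then 3 else if jFun τ = 1728 then 2 else 1 := by
  simp only [ellOrder, jFun_eq_zero_iff, jFun_eq_1728_iff]

/-- The function `E₄²E₆/Δ`, a nonzero multiple of `dj/dτ`. -/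
def djFun (τ : ℍ) : ℂ := E₄ τ ^ 2 * E₆ τ / discriminant τ

/-- At `τ`, `j - j τ` has order `ellOrder τ` and `dj/dτ` one less. -/
theorem ordH_sub_and_djFun (τ : ℍ) :
    ordH (fun z ↦ jFun z - jFun τ) τ = (ellOrder τ : ℤ) ∧
      ordH djFun τ = ((ellOrder τ : ℤ) - 1 : ℤ) := by
  obtain ⟨c, hc, hder⟩ := exists_D_jFun
  set g : ℍ → ℂ := fun z ↦ jFun z - jFun τ with hgdef
  have hg : MDiff g := mdiff_jFun.sub mdifferentiable_const
  have hgne : g ≠ 0 := by
    intro h
    obtain ⟨b, hb⟩ := jFun_surjective (jFun τ + 1)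
    have := congrFun h b
    simp [hgdef, hb] at this
  obtain ⟨m, hm⟩ := exists_ordH_eq_natCast hg hgne τ
  have hm1 : 1 ≤ m := by
    by_contra h
    obtain rfl : m = 0 := by omega
    have hg' := analyticAt_comp_ofComplex hg τ
    rw [ordH, hg'.meromorphicOrderAt_eq] at hm
    have : analyticOrderAt (g ∘ ofComplex) (τ : ℂ) = 0 := by
      cases h0 : analyticOrderAt (g ∘ ofComplex) (τ : ℂ) <;> simp [h0] at hm ⊢
      exact_mod_cast hm
    exact hg'.analyticOrderAt_eq_zero.mp this (by simp [hgdef])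
  have hdj : ordH djFun τ = ((m : ℤ) - 1 : ℤ) := by
    have h1 := meromorphicOrderAt_deriv_eq_sub_one (f := g ∘ ofComplex) (x := (τ : ℂ))
      (n := (m : ℤ)) (by simp; omega) hm
    rw [← h1, ← ordH_const_mul hc djFun τ]
    apply meromorphicOrderAt_congr
    apply Filter.Eventually.filter_mono nhdsWithin_le_nhds
    filter_upwards [isOpen_upperHalfPlaneSet.mem_nhds τ.im_pos] with z hz
    have h2 : deriv (g ∘ ofComplex) z = deriv (jFun ∘ ofComplex) z := deriv_sub_const _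
    rw [h2, Function.comp_apply, ofComplex_apply_of_im_pos hz]
    exact (hder ⟨z, hz⟩).symm
  suffices m = ellOrder τ by subst this; exact ⟨hm, hdj⟩
  have h46 : ordH djFun τ = ordH (fun z ↦ E₄ z ^ 2) τ + ordH (E₆ : ℍ → ℂ) τ := by
    rw [← ordH_mul (f := fun z ↦ E₄ z ^ 2) (mdiff_E₄.pow 2) mdiff_E₆]
    exact ordH_div_of_ne_zero (f := fun z ↦ E₄ z ^ 2 * E₆ z) mdiff_discriminant
      (discriminant_ne_zero τ)
  have hp4 : ∀ k : ℕ, ordH (fun z ↦ E₄ z ^ k) τ = k * ordH (E₄ : ℍ → ℂ) τ := fun k ↦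
    meromorphicOrderAt_pow (analyticAt_comp_ofComplex mdiff_E₄ τ).meromorphicAt
  have hp6 : ordH (fun z ↦ E₆ z ^ 2) τ = (2 : ℕ) * ordH (E₆ : ℍ → ℂ) τ :=
    meromorphicOrderAt_pow (analyticAt_comp_ofComplex mdiff_E₆ τ).meromorphicAt
  rw [hp4, hdj] at h46
  unfold ellOrder
  split_ifs with h4 h6
  · have hgeq : g = fun z ↦ E₄ z ^ 3 / discriminant z := by
      funext z
      simp [hgdef, jFun, h4]
    rw [hgeq, ordH_div_of_ne_zero (f := fun z ↦ E₄ z ^ 3) mdiff_discriminant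
        (discriminant_ne_zero τ),
      hp4] at hm
    obtain ⟨n, hn⟩ := exists_ordH_eq_natCast mdiff_E₄
      (fun h ↦ EisensteinSeries.E_ne_zero _ ⟨2, rfl⟩ (DFunLike.ext' h)) τ
    rw [ordH_eq_zero_of_ne_zero mdiff_E₆ (E₆_ne_zero_of_E₄_eq_zero h4), hn] at h46
    rw [hn] at hm
    have e1 : (3 : ℤ) * n = m := WithTop.coe_injective (by push_cast at hm ⊢; exact hm)
    have e2 : (m : ℤ) - 1 = 2 * n := WithTop.coe_injective (by push_cast at h46 ⊢; simpa using h46)
    omega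
  · have hgeq : g = fun z ↦ E₆ z ^ 2 / discriminant z := by
      funext z
      simp [hgdef, jFun_eq_1728_iff.mpr h6, jFun_sub_1728]
    rw [hgeq, ordH_div_of_ne_zero (f := fun z ↦ E₆ z ^ 2) mdiff_discriminant
        (discriminant_ne_zero τ),
      hp6] at hm
    obtain ⟨n, hn⟩ := exists_ordH_eq_natCast mdiff_E₆
      (fun h ↦ EisensteinSeries.E_ne_zero _ ⟨3, rfl⟩ (DFunLike.ext' h)) τ
    rw [ordH_eq_zero_of_ne_zero mdiff_E₄ h4, hn] at h46
    rw [hn] at hm
    have e1 : (2 : ℤ) * n = m := WithTop.coe_injective (by push_cast at hm ⊢; exact hm)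
    have e2 : (m : ℤ) - 1 = n := WithTop.coe_injective (by push_cast at h46 ⊢; simpa using h46)
    omega
  · rw [ordH_eq_zero_of_ne_zero mdiff_E₄ h4, ordH_eq_zero_of_ne_zero mdiff_E₆ h6] at h46
    norm_cast at h46
    simp at h46
    omega

theorem ordH_jFun_sub (τ : ℍ) :
    ordH (fun z ↦ jFun z - jFun τ) τ = (ellOrder τ : ℤ) :=
  (ordH_sub_and_djFun τ).1

theorem ordH_djFun (τ : ℍ) : ordH djFun τ = ((ellOrder τ : ℤ) - 1 : ℤ) :=
  (ordH_sub_and_djFun τ).2

end Fermat.Agent.X0
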