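import Fermat.Agent.MF.Form
import Fermat.Agent.MF.Product
import Fermat.Agent.X0.LevelOne

/-!
# Holomorphic `N`-periodic functions bounded at `i∞`, and their expansions

All conjugates `f ∣ γ` of forms of level `Γ₀(N)` lie in this algebra.  Both the expansion at
`i∞` in `q_N` and the Taylor expansion at a point are injective algebra maps on it.
-/

noncomputable section

open UpperHalfPlane CongruenceSubgroup Filter Function ModularGroup
open scoped MatrixGroups ModularForm Manifold Topology Nat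

namespace Fermat.Agent.X0

open Fermat.Agent.MF (IsFormFn taylorPS)

/-- A wide function of width `N`: holomorphic, `N`-periodic and bounded at `i∞`. -/
structure IsWFn (N : ℕ) (f : ℍ → ℂ) : Prop where
  periodic : Periodic (f ∘ ofComplex) ((N : ℝ) : ℂ)
  mdiff : MDiff f
  bdd : IsBoundedAtImInfty f

/-- The algebra of `IsWFn N` functions. -/
def wideAlgebra (N : ℕ) : Subalgebra ℂ (ℍ → ℂ) where
  carrier := {f | IsWFn N f}
  mul_mem' hf hg := ⟨fun z => congrArg₂ (· * ·) (hf.periodic z) (hg.periodic z),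
    hf.mdiff.mul hg.mdiff, hf.bdd.mul hg.bdd⟩
  one_mem' := ⟨fun _ => rfl, mdifferentiable_const, Filter.const_boundedAtFilter _ 1⟩
  add_mem' hf hg := ⟨fun z => congrArg₂ (· + ·) (hf.periodic z) (hg.periodic z),
    hf.mdiff.add hg.mdiff, hf.bdd.add hg.bdd⟩
  zero_mem' := ⟨fun _ => rfl, mdifferentiable_const, Filter.const_boundedAtFilter _ 0⟩
  algebraMap_mem' c := ⟨fun _ => rfl, mdifferentiable_const, Filter.const_boundedAtFilter _ c⟩

variable {N : ℕ}

theorem denom_T_zpow (m : ℤ) (τ : ℍ) :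
    denom (ModularGroup.T ^ m : SL(2, ℤ)) (τ : ℂ) = 1 := by
  rw [ModularGroup.denom_apply, ModularGroup.coe_T_zpow]
  simp

theorem T_zpow_apply_periodic {k : ℤ} {h : ℍ → ℂ} (n : ℕ)
    (hh : h ∣[k] (ModularGroup.T ^ (n : ℤ)) = h) :
    Periodic (h ∘ ofComplex) ((n : ℝ) : ℂ) :=
  MF.periodic_comp_ofComplex fun τ => by
    have h1 := congrFun hh τ
    rw [ModularForm.SL_slash_apply, modular_T_zpow_smul, denom_T_zpow, one_zpow, mul_one] at h1
    exact_mod_cast h1

theorem conj_T_zpow_mem {Γ : Subgroup SL(2, ℤ)} {W : ℕ} (hΓ : Gamma W ≤ Γ) (γ : SL(2, ℤ)) :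
    γ * ModularGroup.T ^ (W : ℤ) * γ⁻¹ ∈ Γ := by
  refine hΓ ((Gamma_normal W).conj_mem _ ?_ γ)
  simpa using ModularGroup_T_pow_mem_Gamma (W : ℤ) (W : ℤ) dvd_rfl

theorem Gamma_le_Gamma0_self : Gamma N ≤ Gamma0 N := fun _ hγ =>
  Gamma0_mem.mpr ((Gamma_mem).mp hγ).2.2.1

/-- The conjugates of a form on `Γ ⊇ Γ(W)` lie in the wide algebra of width `W`. -/
theorem slash_mem_wide {Γ : Subgroup SL(2, ℤ)} {W : ℕ} (hΓ : Gamma W ≤ Γ) {k : ℤ} {f : ℍ → ℂ}
    (hf : IsFormFn Γ k f) (γ : SL(2, ℤ)) : f ∣[k] γ ∈ wideAlgebra W where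
  periodic := by
    refine T_zpow_apply_periodic (k := k) W ?_
    rw [← SlashAction.slash_mul]
    conv_lhs => rw [show γ * ModularGroup.T ^ (W : ℤ)
      = γ * ModularGroup.T ^ (W : ℤ) * γ⁻¹ * γ by group]
    rw [SlashAction.slash_mul, hf.slash_eq _ (conj_T_zpow_mem hΓ γ)]
  mdiff := by
    rw [ModularForm.SL_slash]
    exact hf.mdiff.slash _ _
  bdd := hf.bdd γ

theorem slash_mem_wideAlgebra {k : ℤ} {f : ℍ → ℂ} (hf : IsFormFn (Gamma0 N) k f) (γ : SL(2, ℤ)) :
    f ∣[k] γ ∈ wideAlgebra N :=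
  slash_mem_wide Gamma_le_Gamma0_self hf γ

variable (N) [NeZero N]

theorem periodPos : (0 : ℝ) < N := Nat.cast_pos.mpr (Nat.pos_of_ne_zero (NeZero.ne N))

variable {N}

theorem IsWFn.analyticAt {f : ℍ → ℂ} (hf : IsWFn N f) :
    AnalyticAt ℂ (cuspFunction N f) 0 :=
  analyticAt_cuspFunction_zero (periodPos N) hf.periodic hf.mdiff hf.bdd

variable (N)

/-- The expansion at `i∞` in `q_N`. -/
def cuspExp : wideAlgebra N →ₐ[ℂ] PowerSeries ℂ :=
  AlgHom.ofLinearMap
    { toFun := fun f => qExpansion N (f : ℍ → ℂ)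
      map_add' := fun f g => qExpansion_add f.2.analyticAt g.2.analyticAt
      map_smul' := fun c f => qExpansion_smul f.2.analyticAt c }
    (qExpansion_one _) (fun f g => qExpansion_mul f.2.analyticAt g.2.analyticAt)

theorem cuspExp_apply (f : wideAlgebra N) : cuspExp N f = qExpansion N (f : ℍ → ℂ) := rfl

theorem cuspExp_injective : Injective (cuspExp N) := by
  rw [injective_iff_map_eq_zero]
  intro f hf
  exact Subtype.ext ((qExpansion_eq_zero_iff (periodPos N) f.2.periodic f.2.mdiff f.2.bdd).mp hf)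

theorem shift_analyticAt (τ : ℍ) {f : ℍ → ℂ} (hf : MDiff f) :
    AnalyticAt ℂ (fun z : ℂ => f (ofComplex (z + τ))) 0 :=
  (analyticAt_comp_ofComplex hf τ).comp_of_eq (analyticAt_id.add analyticAt_const) (zero_add _)

/-- The Taylor expansion at `τ`. -/
def pointExp (τ : ℍ) : wideAlgebra N →ₐ[ℂ] PowerSeries ℂ :=
  AlgHom.ofLinearMap
    { toFun := fun f => taylorPS (fun z : ℂ => (f : ℍ → ℂ) (ofComplex (z + τ)))
      map_add' := fun f g => by
        ext n
        simp only [taylorPS, PowerSeries.coeff_mk, map_add, ← mul_add]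
        congr 1
        exact iteratedDeriv_fun_add ((shift_analyticAt τ f.2.mdiff).contDiffAt)
          ((shift_analyticAt τ g.2.mdiff).contDiffAt)
      map_smul' := fun c f => by
        ext n
        simp only [taylorPS, PowerSeries.coeff_mk, RingHom.id_apply, map_smul, smul_eq_mul]
        rw [show (fun z : ℂ => (c • f : wideAlgebra N).1 (ofComplex (z + τ)))
          = fun z : ℂ => c * (f : ℍ → ℂ) (ofComplex (z + τ)) from rfl,
        iteratedDeriv_const_mul_field]
        ring }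
    MF.taylorPS_one
    (fun f g => MF.taylorPS_mul (shift_analyticAt τ f.2.mdiff) (shift_analyticAt τ g.2.mdiff))

/-- The order of the Taylor expansion is the analytic order. -/
theorem order_taylorPS {g : ℂ → ℂ} (hg : AnalyticAt ℂ g 0) :
    (taylorPS g).order = analyticOrderAt g 0 := by
  refine ENat.eq_of_forall_natCast_le_iff fun n => ?_
  rw [natCast_le_analyticOrderAt_iff_iteratedDeriv_eq_zero hg]
  constructor
  · intro h i hi
    have := PowerSeries.coeff_of_lt_order i (lt_of_lt_of_le (by exact_mod_cast hi) h)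
    simpa [taylorPS, Nat.factorial_ne_zero] using this
  · intro h
    exact PowerSeries.nat_le_order _ n fun i hi => by simp [taylorPS, h i hi]

omit [NeZero N] in
theorem order_pointExp (τ : ℍ) (f : wideAlgebra N) :
    (pointExp N τ f).order = analyticOrderAt ((f : ℍ → ℂ) ∘ ofComplex) (τ : ℂ) := by
  show (taylorPS _).order = _
  rw [order_taylorPS (shift_analyticAt τ f.2.mdiff)]
  rw [show (fun z : ℂ => (f : ℍ → ℂ) (ofComplex (z + τ)))
    = ((f : ℍ → ℂ) ∘ ofComplex) ∘ (fun z : ℂ => z + τ) from rfl]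
  rw [analyticOrderAt_comp_of_deriv_ne_zero (by fun_prop) (by simp), zero_add]

omit [NeZero N] in
theorem pointExp_injective (τ : ℍ) : Injective (pointExp N τ) := by
  rw [injective_iff_map_eq_zero]
  intro f hf
  by_contra hne
  obtain ⟨n, hn⟩ := exists_ordH_eq_natCast f.2.mdiff (fun h => hne (Subtype.ext h)) τ
  have h1 := order_pointExp N τ f
  rw [hf, PowerSeries.order_zero] at h1
  rw [ordH, (analyticAt_comp_ofComplex f.2.mdiff τ).meromorphicOrderAt_eq, ← h1] at hn
  simp at hn

instance : IsDomain (wideAlgebra N) := (cuspExp_injective N).isDomain (cuspExp N).toRingHom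

end Fermat.Agent.X0
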