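import Mathlib.RingTheory.Polynomial.Basic
import Fermat.Agent.MF.FunctionField
import Fermat.Agent.X0.IntVal
import Fermat.Agent.X0.Wide

/-!
# Fields of ratios of forms: expansion homomorphisms and integrality

`L ⊆ ℂ((q))` is a field each of whose elements is a ratio of two forms on a group `Γ ⊇ Γ(W)`
containing `T`; the main case is `Γ = Γ₀(N)`, the class `IsFormField`, with `W = N`.
For `γ ∈ SL(2, ℤ)` and an injective expansion `ψ` of wide functions, `f / g ↦ ψ(f∣γ) / ψ(g∣γ)`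
is a ring homomorphism on `L`.
-/

noncomputable section

open UpperHalfPlane CongruenceSubgroup Function Polynomial
open scoped MatrixGroups ModularForm Manifold IntermediateField

namespace Fermat.Agent.X0

open Fermat.Agent.MF

/-- `F` consists of `q`-expansions of ratios of forms on `Γ ⊇ Γ(W)`, a group containing `T`. -/
structure RatioField (Γ : Subgroup SL(2, ℤ)) (W : ℕ)
    (F : IntermediateField ℂ (LaurentSeries ℂ)) : Prop where
  gamma_le : Gamma W ≤ Γ
  T_mem : ModularGroup.T ∈ Γ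
  exists_ratio : ∀ x ∈ F, IsRatioOn Γ x

/-- Every element of `L` is the `q`-expansion of a ratio of forms of the same weight. -/
class IsFormField (N : ℕ) (L : IntermediateField ℂ (LaurentSeries ℂ)) : Prop where
  exists_rep : ∀ x ∈ L, IsRatioOn (Gamma0 N) x

theorem IsFormField.ratioField (N : ℕ) (L : IntermediateField ℂ (LaurentSeries ℂ))
    [IsFormField N L] : RatioField (Gamma0 N) N L :=
  ⟨Gamma_le_Gamma0_self, T_mem_Gamma0 N, IsFormField.exists_rep⟩

variable {N : ℕ} [NeZero N]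

/-- An injective expansion of wide functions. -/
structure Expansion (N : ℕ) where
  /-- the expansion map -/
  toAlgHom : wideAlgebra N →ₐ[ℂ] PowerSeries ℂ
  injective : Injective toAlgHom

variable (N) in
/-- expansion at `i∞` -/
def cuspExpansion : Expansion N := ⟨cuspExp N, cuspExp_injective N⟩

variable (N) in
/-- expansion at a point -/
def pointExpansion (τ : ℍ) : Expansion N := ⟨pointExp N τ, pointExp_injective N τ⟩

/-- The slash of a form, as a wide function. -/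
def wslash {k : ℤ} {f : ℍ → ℂ} (hf : IsFormFn (Gamma0 N) k f) (γ : SL(2, ℤ)) : wideAlgebra N :=
  ⟨f ∣[k] γ, slash_mem_wideAlgebra hf γ⟩

omit [NeZero N] in
@[simp] theorem coe_wslash {k : ℤ} {f : ℍ → ℂ} (hf : IsFormFn (Gamma0 N) k f) (γ : SL(2, ℤ)) :
    (wslash hf γ : ℍ → ℂ) = f ∣[k] γ := rfl

omit [NeZero N] in
theorem slash_ne_zero {k : ℤ} {f : ℍ → ℂ} (h : f ≠ 0) (γ : SL(2, ℤ)) : f ∣[k] γ ≠ 0 := by
  intro h0
  apply h
  have := congrArg (fun u => u ∣[k] γ⁻¹) h0
  rwa [← SlashAction.slash_mul, mul_inv_cancel, SlashAction.slash_one, SlashAction.zero_slash]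
    at this

namespace Expansion

variable (ψ : Expansion N)

/-- The Laurent series of an expansion. -/
def ls : wideAlgebra N →+* LaurentSeries ℂ :=
  (HahnSeries.ofPowerSeries ℤ ℂ).comp ψ.toAlgHom.toRingHom

omit [NeZero N] in
theorem ls_injective : Injective ψ.ls :=
  HahnSeries.ofPowerSeries_injective.comp ψ.injective

omit [NeZero N] in
theorem ls_algebraMap (c : ℂ) : ψ.ls (algebraMap ℂ (wideAlgebra N) c) = HahnSeries.C c := by
  simp [ls, HahnSeries.ofPowerSeries_C]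

omit [NeZero N] in
theorem ls_wslash_ne_zero {k : ℤ} {g : ℍ → ℂ} (hg : IsFormFn (Gamma0 N) k g) (h : g ≠ 0)
    (γ : SL(2, ℤ)) : ψ.ls (wslash hg γ) ≠ 0 :=
  (map_ne_zero_iff _ ψ.ls_injective).mpr fun h0 =>
    slash_ne_zero h γ (congrArg Subtype.val h0)

end Expansion

namespace RatioField

variable {Γ : Subgroup SL(2, ℤ)} {W : ℕ} {F : IntermediateField ℂ (LaurentSeries ℂ)}
  (D : RatioField Γ W F)
include D

theorem finiteIndex [NeZero W] : Γ.FiniteIndex := Subgroup.finiteIndex_of_le D.gamma_le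

theorem isQFn {k : ℤ} {f : ℍ → ℂ} (hf : IsFormFn Γ k f) : IsQFn f := hf.isQFn D.T_mem

theorem exists_rep (x : F) : IsRatioOn Γ (x : LaurentSeries ℂ) := D.exists_ratio x.1 x.2

/-- The slash of a form, as a wide function. -/
def wslash {k : ℤ} {f : ℍ → ℂ} (hf : IsFormFn Γ k f) (γ : SL(2, ℤ)) : wideAlgebra W :=
  ⟨f ∣[k] γ, slash_mem_wide D.gamma_le hf γ⟩

@[simp] theorem coe_wslash {k : ℤ} {f : ℍ → ℂ} (hf : IsFormFn Γ k f) (γ : SL(2, ℤ)) :
    (D.wslash hf γ : ℍ → ℂ) = f ∣[k] γ := rfl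

theorem ls_wslash_ne_zero (ψ : Expansion W) {k : ℤ} {g : ℍ → ℂ} (hg : IsFormFn Γ k g)
    (h : g ≠ 0) (γ : SL(2, ℤ)) : ψ.ls (D.wslash hg γ) ≠ 0 :=
  (map_ne_zero_iff _ ψ.ls_injective).mpr fun h0 => slash_ne_zero h γ (congrArg Subtype.val h0)

/-- The value at `x` of the conjugate expansion attached to `γ`. -/
def conjVal (ψ : Expansion W) (γ : SL(2, ℤ)) (x : F) : LaurentSeries ℂ :=
  ψ.ls (D.wslash (D.exists_rep x).choose_spec.choose_spec.choose_spec.1 γ) /
    ψ.ls (D.wslash (D.exists_rep x).choose_spec.choose_spec.choose_spec.2.1 γ)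

theorem conjVal_eq (ψ : Expansion W) (γ : SL(2, ℤ)) (x : F) {k : ℤ} {f g : ℍ → ℂ}
    (hf : IsFormFn Γ k f) (hg : IsFormFn Γ k g) (hg0 : g ≠ 0)
    (h : (x : LaurentSeries ℂ) * lq g = lq f) :
    D.conjVal ψ γ x = ψ.ls (D.wslash hf γ) / ψ.ls (D.wslash hg γ) := by
  suffices key : ∀ (k' : ℤ) (f' g' : ℍ → ℂ) (hf' : IsFormFn Γ k' f')
      (hg' : IsFormFn Γ k' g'), g' ≠ 0 → (x : LaurentSeries ℂ) * lq g' = lq f' →
      ψ.ls (D.wslash hf' γ) / ψ.ls (D.wslash hg' γ) =
        ψ.ls (D.wslash hf γ) / ψ.ls (D.wslash hg γ) by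
    have hs := D.exists_rep x
    exact key _ _ _ _ _ hs.choose_spec.choose_spec.choose_spec.2.2.1
      hs.choose_spec.choose_spec.choose_spec.2.2.2
  intro k' f' g' hf' hg' hg'0 h'
  rw [div_eq_div_iff (D.ls_wslash_ne_zero ψ hg' hg'0 γ) (D.ls_wslash_ne_zero ψ hg hg0 γ),
    ← map_mul, ← map_mul]
  congr 1
  apply Subtype.ext
  have e : f' * g = f * g' := by
    rw [← lq_inj ((D.isQFn hf').mul (D.isQFn hg)) ((D.isQFn hf).mul (D.isQFn hg')),
      lq_mul (D.isQFn hf') (D.isQFn hg), lq_mul (D.isQFn hf) (D.isQFn hg'), ← h, ← h']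
    ring
  show (f' ∣[k'] γ) * (g ∣[k] γ) = (f ∣[k] γ) * (g' ∣[k'] γ)
  rw [← ModularForm.mul_slash_SL2, ← ModularForm.mul_slash_SL2, e, add_comm k k']

/-- The conjugate expansion attached to `γ`: `f/g ↦ ψ(f∣γ)/ψ(g∣γ)`. -/
def conjHom (ψ : Expansion W) (γ : SL(2, ℤ)) : F →+* LaurentSeries ℂ where
  toFun := D.conjVal ψ γ
  map_one' := by
    rw [D.conjVal_eq ψ γ 1 IsFormFn.one IsFormFn.one one_ne_zero (by simp)]
    exact div_self (D.ls_wslash_ne_zero ψ _ one_ne_zero γ)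
  map_zero' := by
    rw [D.conjVal_eq ψ γ 0 (IsFormFn.zero (k := 0)) IsFormFn.one one_ne_zero (by simp)]
    have : D.wslash (IsFormFn.zero (Γ := Γ) (k := 0)) γ = 0 :=
      Subtype.ext (SlashAction.zero_slash 0 γ)
    simp [this]
  map_mul' x y := by
    obtain ⟨k, f, g, hf, hg, hg0, h⟩ := D.exists_rep x
    obtain ⟨k', f', g', hf', hg', hg'0, h'⟩ := D.exists_rep y
    have hne : g * g' ≠ 0 := fun h0 =>
      ((UpperHalfPlane.mul_eq_zero_iff hg.mdiff hg'.mdiff).mp h0).elim hg0 hg'0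
    have hlq : ((x * y : F) : LaurentSeries ℂ) * lq (g * g') = lq (f * f') := by
      rw [lq_mul (D.isQFn hg) (D.isQFn hg'), lq_mul (D.isQFn hf) (D.isQFn hf'), ← h, ← h']
      push_cast
      ring
    rw [D.conjVal_eq ψ γ x hf hg hg0 h, D.conjVal_eq ψ γ y hf' hg' hg'0 h',
      D.conjVal_eq ψ γ (x * y) (hf.mul hf') (hg.mul hg') hne hlq, div_mul_div_comm, ← map_mul,
      ← map_mul]
    congr 2 <;> exact Subtype.ext (ModularForm.mul_slash_SL2 k k' γ _ _)
  map_add' x y := by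
    obtain ⟨k, f, g, hf, hg, hg0, h⟩ := D.exists_rep x
    obtain ⟨k', f', g', hf', hg', hg'0, h'⟩ := D.exists_rep y
    have hne : g * g' ≠ 0 := fun h0 =>
      ((UpperHalfPlane.mul_eq_zero_iff hg.mdiff hg'.mdiff).mp h0).elim hg0 hg'0
    have hlq : ((x + y : F) : LaurentSeries ℂ) * lq (g * g') = lq (f * g' + g * f') := by
      rw [lq_add (D.isQFn (hf.mul hg')) (D.isQFn (hg.mul hf')),
        lq_mul (D.isQFn hg) (D.isQFn hg'), lq_mul (D.isQFn hf) (D.isQFn hg'),
        lq_mul (D.isQFn hg) (D.isQFn hf'), ← h, ← h']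
      push_cast
      ring
    rw [D.conjVal_eq ψ γ x hf hg hg0 h, D.conjVal_eq ψ γ y hf' hg' hg'0 h',
      D.conjVal_eq ψ γ (x + y) ((hf.mul hg').add (hg.mul hf')) (hg.mul hg') hne hlq,
      div_add_div _ _ (D.ls_wslash_ne_zero ψ hg hg0 γ) (D.ls_wslash_ne_zero ψ hg' hg'0 γ),
      ← map_mul, ← map_mul, ← map_mul, ← map_add]
    congr 2 <;> apply Subtype.ext
    · show (f * g' + g * f') ∣[k + k'] γ = _
      rw [SlashAction.add_slash, ModularForm.mul_slash_SL2, ModularForm.mul_slash_SL2]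
      rfl
    · exact ModularForm.mul_slash_SL2 k k' γ _ _

theorem conjHom_eq (ψ : Expansion W) (γ : SL(2, ℤ)) (x : F) {k : ℤ} {f g : ℍ → ℂ}
    (hf : IsFormFn Γ k f) (hg : IsFormFn Γ k g) (hg0 : g ≠ 0)
    (h : (x : LaurentSeries ℂ) * lq g = lq f) :
    D.conjHom ψ γ x = ψ.ls (D.wslash hf γ) / ψ.ls (D.wslash hg γ) :=
  D.conjVal_eq ψ γ x hf hg hg0 h

theorem conjHom_algebraMap (ψ : Expansion W) (γ : SL(2, ℤ)) (c : ℂ) :
    D.conjHom ψ γ (algebraMap ℂ F c) = HahnSeries.C c := by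
  rw [D.conjHom_eq ψ γ _ (IsFormFn.const c) IsFormFn.one one_ne_zero (f := fun _ => c) (by
    rw [lq_one, mul_one, lq_const]
    exact ModularCurve.algebraMap_laurentSeries_eq_single ℂ c)]
  have h1 : D.wslash (IsFormFn.const (Γ := Γ) c) γ = algebraMap ℂ (wideAlgebra W) c :=
    Subtype.ext (ModularForm.is_invariant_const γ c)
  have h2 : D.wslash (IsFormFn.one (Γ := Γ)) γ = 1 :=
    Subtype.ext (ModularForm.is_invariant_const γ 1)
  rw [h1, h2, map_one, div_one, ψ.ls_algebraMap]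

/-- The valuation attached to a conjugate expansion. -/
def intVal (ψ : Expansion W) (γ : SL(2, ℤ)) : IntVal ℂ F where
  ord x := (D.conjHom ψ γ x).order
  map_mul hf hg := by
    rw [map_mul, HahnSeries.order_mul ((_root_.map_ne_zero _).mpr hf)
        ((_root_.map_ne_zero _).mpr hg)]
  map_add {f g} _ _ hfg := by
    rw [map_add]
    exact HahnSeries.min_order_le_order_add
        (by rw [← map_add]; exact (_root_.map_ne_zero _).mpr hfg)
  map_const {c} _ := by
    rw [D.conjHom_algebraMap]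
    exact HahnSeries.order_C

theorem intVal_ord (ψ : Expansion W) (γ : SL(2, ℤ)) (x : F) :
    (D.intVal ψ γ).ord x = (D.conjHom ψ γ x).order := rfl

/-- The conjugate expansion only depends on the coset `Γ γ`. -/
theorem conjHom_mul_left (ψ : Expansion W) {δ : SL(2, ℤ)} (hδ : δ ∈ Γ) (γ : SL(2, ℤ)) (x : F) :
    D.conjHom ψ (δ * γ) x = D.conjHom ψ γ x := by
  obtain ⟨k, f, g, hf, hg, hg0, h⟩ := D.exists_rep x
  rw [D.conjHom_eq ψ _ x hf hg hg0 h, D.conjHom_eq ψ _ x hf hg hg0 h]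
  congr 2 <;> apply Subtype.ext <;>
    simp only [coe_wslash, SlashAction.slash_mul, hf.slash_eq δ hδ, hg.slash_eq δ hδ]

end RatioField

namespace Expansion

variable (ψ : Expansion N) {L : IntermediateField ℂ (LaurentSeries ℂ)} [IsFormField N L]

/-- The conjugate expansion attached to `γ`, at level `Γ₀(N)`. -/
def conjHom (γ : SL(2, ℤ)) : L →+* LaurentSeries ℂ :=
  (IsFormField.ratioField N L).conjHom ψ γ

omit [NeZero N] in
theorem conjHom_eq (γ : SL(2, ℤ)) (x : L) {k : ℤ} {f g : ℍ → ℂ}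
    (hf : IsFormFn (Gamma0 N) k f) (hg : IsFormFn (Gamma0 N) k g) (hg0 : g ≠ 0)
    (h : (x : LaurentSeries ℂ) * lq g = lq f) :
    ψ.conjHom γ x = ψ.ls (wslash hf γ) / ψ.ls (wslash hg γ) :=
  (IsFormField.ratioField N L).conjHom_eq ψ γ x hf hg hg0 h

omit [NeZero N] in
theorem conjHom_algebraMap (γ : SL(2, ℤ)) (c : ℂ) :
    ψ.conjHom γ (algebraMap ℂ L c) = HahnSeries.C c :=
  (IsFormField.ratioField N L).conjHom_algebraMap ψ γ c

/-- The valuation attached to a conjugate expansion, at level `Γ₀(N)`. -/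
def intVal (γ : SL(2, ℤ)) : IntVal ℂ L := (IsFormField.ratioField N L).intVal ψ γ

omit [NeZero N] in
/-- The conjugate expansion only depends on the coset `Γ₀(N) γ`. -/
theorem conjHom_mul_left {δ : SL(2, ℤ)} (hδ : δ ∈ Gamma0 N) (γ : SL(2, ℤ)) (x : L) :
    ψ.conjHom (δ * γ) x = ψ.conjHom γ x :=
  (IsFormField.ratioField N L).conjHom_mul_left ψ hδ γ x

end Expansion

end Fermat.Agent.X0
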