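import Fermat.Agent.Grp.Interface
import Fermat.Agent.Grp.PermOrbits
import Fermat.Agent.X0.Points

/-!
# Number of places of `X₀(N)_ℂ` over `0` and `1728`, and unramifiedness at other finite values

For the curve of any `Γ ⊇ Γ(W)` the places over a finite value of `j` correspond to orbits of a
stabiliser on `SL(2, ℤ) ⧸ Γ`; for `Γ₀(N)` the counts are the ramification data for the genus
formula.
-/

noncomputable section

open UpperHalfPlane CongruenceSubgroup Function AlgebraicCurve ModularGroup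
open scoped MatrixGroups ModularForm Manifold Topology IntermediateField Real

namespace Fermat.Agent.X0

open Fermat.Agent.MF

local notation "FC" => Fermat.Agent.Mono.FC

variable {N : ℕ} [NeZero N]

/-! ### The two elliptic points -/

/-- `ρ = (-1 + √3 i) / 2`. -/
def rhoPt : ℍ := ⟨⟨-1 / 2, Real.sqrt 3 / 2⟩, by positivity⟩

theorem rhoPt_sq : (rhoPt : ℂ) ^ 2 + rhoPt + 1 = 0 := by
  have h3 : Real.sqrt 3 ^ 2 = 3 := Real.sq_sqrt (by norm_num)
  apply Complex.ext <;> simp [rhoPt, pow_two, Complex.mul_re, Complex.mul_im] <;> nlinarith [h3]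

theorem denom_ST (τ : ℍ) : denom (S * T : SL(2, ℤ)) (τ : ℂ) = (τ : ℂ) + 1 := by
  rw [ModularGroup.denom_apply]
  simp [ModularGroup.coe_S, ModularGroup.coe_T]

theorem ST_smul_rhoPt : (S * T : SL(2, ℤ)) • rhoPt = rhoPt := by
  apply UpperHalfPlane.ext
  rw [coe_specialLinearGroup_apply]
  simp only [Matrix.SpecialLinearGroup.coe_mul, ModularGroup.coe_S, ModularGroup.coe_T,
    algebraMap_int_eq, eq_intCast]
  have hne : (rhoPt : ℂ) + 1 ≠ 0 := by
    rw [← denom_ST]; exact denom_ne_zero _ _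
  norm_num [Matrix.mul_fin_two]
  rw [div_eq_iff hne]
  linear_combination -rhoPt_sq

theorem denom_S (τ : ℍ) : denom (S : SL(2, ℤ)) (τ : ℂ) = (τ : ℂ) := by
  rw [ModularGroup.denom_apply]; simp [ModularGroup.coe_S]

theorem S_smul_I : (S : SL(2, ℤ)) • UpperHalfPlane.I = UpperHalfPlane.I := by
  apply UpperHalfPlane.ext
  rw [UpperHalfPlane.modular_S_smul]
  simp

theorem E₄_rhoPt : ModularForm.E₄ rhoPt = 0 := by
  have h := form_smul_apply (k := 4) ModularForm.E₄ (S * T) rhoPt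
  rw [ST_smul_rhoPt, denom_ST] at h
  have hρ := rhoPt_sq
  have h4 : ((rhoPt : ℂ) + 1) ^ (4 : ℤ) = rhoPt ^ 2 := by
    rw [show (4 : ℤ) = ((4 : ℕ) : ℤ) from rfl, zpow_natCast]
    linear_combination ((rhoPt : ℂ) ^ 2 + 3 * rhoPt + 1) * hρ
  rw [h4] at h
  have h' : ((rhoPt : ℂ) ^ 2 - 1) * ModularForm.E₄ rhoPt = 0 := by linear_combination -h
  refine (mul_eq_zero.mp h').resolve_left fun h1 => ?_
  have h2 : (rhoPt : ℂ) = -2 := by linear_combination hρ - h1
  rw [h2] at h1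
  norm_num at h1

theorem E₆_I : ModularForm.E₆ UpperHalfPlane.I = 0 := by
  have h := form_smul_apply (k := 6) ModularForm.E₆ S UpperHalfPlane.I
  rw [S_smul_I, denom_S, UpperHalfPlane.coe_I,
    show Complex.I ^ (6 : ℤ) = -1 by norm_num [zpow_ofNat, pow_succ]] at h
  linear_combination h / 2

theorem ellOrder_rhoPt : ellOrder rhoPt = 3 := by simp [ellOrder, E₄_rhoPt]

theorem ellOrder_I : ellOrder UpperHalfPlane.I = 2 := by
  simp [ellOrder, E₆_I, E₄_ne_zero_of_E₆_eq_zero E₆_I]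

theorem jFun_rhoPt : X0.jFun rhoPt = 0 := jFun_eq_zero_iff.mpr E₄_rhoPt

theorem jFun_I : X0.jFun UpperHalfPlane.I = 1728 := jFun_eq_1728_iff.mpr E₆_I

theorem isPrimitiveRoot_denom_ST :
    IsPrimitiveRoot ((denom (S * T : SL(2, ℤ)) (rhoPt : ℂ)) ^ 2) (ellOrder rhoPt) := by
  rw [denom_ST, ellOrder_rhoPt,
    show ((rhoPt : ℂ) + 1) ^ 2 = rhoPt by linear_combination rhoPt_sq]
  have := Fact.mk Nat.prime_three
  have h3 : (rhoPt : ℂ) ^ 3 = 1 := by
    linear_combination ((rhoPt : ℂ) - 1) * rhoPt_sq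
  have h1 : (rhoPt : ℂ) ≠ 1 := fun e => by
    have := rhoPt_sq
    rw [e] at this
    norm_num at this
  rw [← orderOf_eq_prime h3 h1]
  exact IsPrimitiveRoot.orderOf _

theorem isPrimitiveRoot_denom_S :
    IsPrimitiveRoot ((denom (S : SL(2, ℤ)) (UpperHalfPlane.I : ℂ)) ^ 2)
      (ellOrder UpperHalfPlane.I) := by
  rw [denom_S, UpperHalfPlane.coe_I, Complex.I_sq, ellOrder_I]
  exact IsPrimitiveRoot.neg_one 0 (by norm_num)

theorem ST_pow_three : (S * T : SL(2, ℤ)) ^ 3 = -1 := Grp.R_pow_three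

theorem S_pow_two : (S : SL(2, ℤ)) ^ 2 = -1 := (pow_two S).trans Grp.S_mul_S

/-- Over every value of `j` a point fixed by a rotation of exact order `ellOrder`, up to sign. -/
theorem exists_base_point (a : ℂ) : ∃ (τ : ℍ) (R : SL(2, ℤ)), X0.jFun τ = a ∧ R • τ = τ ∧
    IsPrimitiveRoot ((denom R (τ : ℂ)) ^ 2) (ellOrder τ) ∧
    (R ^ ellOrder τ = 1 ∨ R ^ ellOrder τ = -1) ∧
    ∀ d, 0 < d → d < ellOrder τ → |Grp.tr (R ^ d)| ≤ 1 := by
  by_cases h0 : a = 0
  · subst h0
    refine ⟨rhoPt, S * T, jFun_rhoPt, ST_smul_rhoPt, isPrimitiveRoot_denom_ST,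
      Or.inr (by rw [ellOrder_rhoPt, ST_pow_three]), fun d hd hlt => ?_⟩
    rw [ellOrder_rhoPt] at hlt
    interval_cases d <;>
      simp [Grp.tr_eq, pow_succ, ModularGroup.coe_S, ModularGroup.coe_T]
  by_cases h1 : a = 1728
  · subst h1
    refine ⟨UpperHalfPlane.I, S, jFun_I, S_smul_I, isPrimitiveRoot_denom_S,
      Or.inr (by rw [ellOrder_I, S_pow_two]), fun d hd hlt => ?_⟩
    rw [ellOrder_I] at hlt
    interval_cases d
    simp [Grp.tr_eq, ModularGroup.coe_S]
  obtain ⟨τ, hτ⟩ := X0.jFun_surjective a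
  have hell : ellOrder τ = 1 := by rw [ellOrder_eq, hτ, if_neg h0, if_neg h1]
  refine ⟨τ, 1, hτ, one_smul _ τ, ?_, Or.inl (one_pow _), fun d hd hlt => by omega⟩
  rw [hell, IsPrimitiveRoot.one_right_iff]
  simp

/-! ### The value of `j - a` -/

/-- `E₄³ - aΔ`. -/
def shiftForm (a : ℂ) : ℍ → ℂ := E4fn ^ 3 - a • deltaFn

theorem isFormFn_shiftForm (a : ℂ) : IsFormFn ⊤ 12 (shiftForm a) :=
  ((isFormFn_E4.pow 3).cast (by norm_num)).sub (isFormFn_delta.smul a)

theorem shiftForm_apply (a : ℂ) (τ : ℍ) :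
    shiftForm a τ = (X0.jFun τ - a) * deltaFn τ := by
  have h := deltaFn_ne_zero τ
  simp only [shiftForm, X0.jFun, E4fn, deltaFn, Pi.sub_apply, Pi.pow_apply, Pi.smul_apply,
    smul_eq_mul] at h ⊢
  field_simp

/-! ### Orbits on cosets -/

section General

variable {Γ : Subgroup SL(2, ℤ)} {W : ℕ} {F : IntermediateField ℂ (LaurentSeries ℂ)}

theorem natCard_orbit_zpowers [Finite (SL(2, ℤ) ⧸ Γ)] (R : SL(2, ℤ)) (q : SL(2, ℤ) ⧸ Γ) :
    Nat.card (MulAction.orbit (Subgroup.zpowers R) q) = Function.minimalPeriod (R • ·) q := by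
  classical
  let := Fintype.ofFinite (SL(2, ℤ) ⧸ Γ)
  rw [Nat.card_eq_fintype_card, MulAction.minimalPeriod_eq_card]
  exact Fintype.card_congr (Equiv.refl _)

theorem pow_minimalPeriod_smul (R : SL(2, ℤ)) (q : SL(2, ℤ) ⧸ Γ) :
    (R ^ Function.minimalPeriod (R • ·) q) • q = q := by
  have h := Function.iterate_minimalPeriod
    (f := (R • · : SL(2, ℤ) ⧸ Γ → SL(2, ℤ) ⧸ Γ)) (x := q)
  rwa [smul_iterate] at h

theorem conj_mem_of_smul_eq {e : SL(2, ℤ)} {q : SL(2, ℤ) ⧸ Γ} (h : e • q = q) :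
    cosetRep q * e * (cosetRep q)⁻¹ ∈ Γ := by
  obtain ⟨δ, hδ, h'⟩ := exists_cosetRep_mul q e
  rw [show e⁻¹ • q = q by rw [inv_smul_eq_iff, h]] at h'
  rwa [h', mul_inv_cancel_right]

theorem zpowers_smul_eq {R : SL(2, ℤ)} {τ : ℍ} (hR : R • τ = τ) {e : SL(2, ℤ)}
    (he : e ∈ Subgroup.zpowers R) : e • τ = τ := by
  have : Subgroup.zpowers R ≤ MulAction.stabilizer SL(2, ℤ) τ :=
    Subgroup.zpowers_le.mpr hR
  exact this he

namespace JRatioField

variable (D : JRatioField Γ W F)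
include D

theorem jEl_sub_mul_lq (a : ℂ) :
    ((D.jEl - algebraMap ℂ F a : F) : LaurentSeries ℂ) * lq deltaFn
      = lq (shiftForm a) := by
  have h4 := isFormFn_E4.isQFnTop
  have hd := isFormFn_delta.isQFnTop
  show (ModularCurve.jqModC ℂ - algebraMap ℂ (LaurentSeries ℂ) a) * lq deltaFn = _
  rw [shiftForm, sub_mul, jqModC_mul_lq_delta, ← lq_pow h4,
    ModularCurve.algebraMap_laurentSeries_eq_single]
  have hs : IsQFn (E4fn ^ 3 - a • deltaFn) := (isFormFn_shiftForm a).isQFnTop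
  have h := lq_add hs (hd.smul a)
  rw [sub_add_cancel, lq_smul hd] at h
  rw [h]
  exact add_sub_cancel_right _ _

theorem point_ord_jEl_sub {τ : ℍ} {a : ℂ} (hτ : X0.jFun τ = a) (q : SL(2, ℤ) ⧸ Γ) :
    (D.cosetVal (pointExpansion W τ) q).ord (D.jEl - algebraMap ℂ F a) = ellOrder τ := by
  have hf := isFormFn_shiftForm a
  have hg := isFormFn_delta
  rw [RatioField.cosetVal, D.intVal_ord, D.conjHom_eq (pointExpansion W τ) _ _
    (hf.mono le_top) (hg.mono le_top) deltaFn_ne_zero' (D.jEl_sub_mul_lq a), D.wslash_levelOne hf,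
    D.wslash_levelOne hg]
  have hf0 : (lwide hf : wideAlgebra W) ≠ 0 := by
    intro h
    have h0 : shiftForm a = 0 := congrArg Subtype.val h
    obtain ⟨b, hb⟩ := X0.jFun_surjective (a + 1)
    have := congrFun h0 b
    rw [shiftForm_apply, hb] at this
    simp [deltaFn_ne_zero] at this
  have hg0 : (lwide hg : wideAlgebra W) ≠ 0 := lwide_ne_zero hg deltaFn_ne_zero'
  rw [order_div ((map_ne_zero_iff _ (pointExpansion W τ).ls_injective).mpr hf0)
    ((map_ne_zero_iff _ (pointExpansion W τ).ls_injective).mpr hg0)]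
  have hΔ0 : ordH deltaFn τ = 0 :=
    ordH_eq_zero_of_ne_zero hg.mdiff (deltaFn_ne_zero τ)
  have h1 : ordH (shiftForm a) τ = (ellOrder τ : ℤ) := by
    rw [show shiftForm a = fun z => (X0.jFun z - X0.jFun τ) * deltaFn z from
      funext fun z => by rw [shiftForm_apply, hτ]]
    rw [ordH_mul (f := fun z => X0.jFun z - X0.jFun τ) (mdiff_jFun.sub mdifferentiable_const)
      hg.mdiff, ordH_jFun_sub, hΔ0, add_zero]
  have e1 := ordH_eq_order_point τ hf0
  have e2 := ordH_eq_order_point τ hg0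
  rw [show ((lwide hf : wideAlgebra W) : ℍ → ℂ) = shiftForm a from rfl, h1] at e1
  rw [show ((lwide hg : wideAlgebra W) : ℍ → ℂ) = deltaFn from rfl, hΔ0] at e2
  norm_cast at e1 e2
  omega

end JRatioField

namespace CurveField

variable (D : CurveField Γ W F)
include D

/-- The places over a finite value of `j`: orbits of a rotation about a point with that value. -/
theorem exists_places_point [NeZero W] {τ : ℍ} {a : ℂ} (hτ : X0.jFun τ = a) {R : SL(2, ℤ)}
    (hR : R • τ = τ) (hζ : IsPrimitiveRoot ((denom R (τ : ℂ)) ^ 2) (ellOrder τ)) :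
    ∃ pl : MulAction.orbitRel.Quotient (Subgroup.zpowers R) (SL(2, ℤ) ⧸ Γ) → Place ℂ F,
      Injective pl ∧ (∀ w, 0 < w.ord (D.jEl - algebraMap ℂ F a) ↔ w ∈ Set.range pl) ∧
      ∀ q : SL(2, ℤ) ⧸ Γ, (pl ⟦q⟧).ord (D.jEl - algebraMap ℂ F a) =
          Nat.card (MulAction.orbit (Subgroup.zpowers R) q) ∧
        ∃ k : ℕ, 0 < k ∧ k * Nat.card (MulAction.orbit (Subgroup.zpowers R) q) = ellOrder τ ∧
          ∀ f : F, f ≠ 0 →
            (D.cosetVal (pointExpansion W τ) q).ord f = k * (pl ⟦q⟧).ord f := by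
  have := D.finiteIndex
  refine D.exists_places_equiv_orbits (pointExpansion W τ) R (D.sub_const_ne_zero a)
    (FF.adjoin_sub_const_eq _ _) (one_le_ellOrder τ) (fun q => D.point_ord_jEl_sub hτ q)
    (fun e he q => funext fun x => D.point_stab τ (zpowers_smul_eq hR he) q x) (fun q f hf => ?_)
  rw [natCard_orbit_zpowers]
  have h1 := D.point_multiplier τ (smul_pow_fixed hR _) (pow_minimalPeriod_smul R q) hf
  rw [denom_pow_fixed hR, ← pow_mul, mul_comm, pow_mul, inv_zpow, inv_eq_one,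
    ← zpow_natCast ((denom R (τ : ℂ)) ^ 2) (Function.minimalPeriod _ _), ← zpow_mul] at h1
  exact (hζ.zpow_eq_one_iff_dvd _).mp h1

theorem pow_ellOrder_smul {τ : ℍ} {R : SL(2, ℤ)}
    (hpow : R ^ ellOrder τ = 1 ∨ R ^ ellOrder τ = -1) (q : SL(2, ℤ) ⧸ Γ) :
    R ^ ellOrder τ • q = q := by
  rcases hpow with h | h <;> rw [h]
  exacts [one_smul _ q, Grp.neg_one_smul_coset D.neg_one_mem q]

end CurveField

end General

/-! ### The counts for `Γ₀(N)` -/

theorem jC_sub_ne_zero (a : ℂ) : jC N - algebraMap ℂ (FC N) a ≠ 0 :=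
  (curveField N).sub_const_ne_zero a

theorem jC_ne_zero : jC N ≠ 0 := (curveField N).jEl_ne_zero

theorem point_ord_jC_sub {τ : ℍ} {a : ℂ} (hτ : X0.jFun τ = a) (q : Coset N) :
    (cosetVal (pointExpansion N τ) q).ord (jC N - algebraMap ℂ (FC N) a) = ellOrder τ :=
  (curveField N).point_ord_jEl_sub hτ q

theorem natCard_subtype_eq_of_range {α ι : Type*} {P : α → Prop} (pl : ι → α) (h1 : Injective pl)
    (h2 : ∀ w, P w ↔ w ∈ Set.range pl) : Nat.card {w // P w} = Nat.card ι := by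
  rw [Nat.card_congr (Equiv.subtypeEquivRight h2)]
  exact (Nat.card_congr (Equiv.ofInjective pl h1)).symm

/-- The number of places over a value fixed by an elliptic element of prime order. -/
theorem natCard_zeros_of_prime {τ : ℍ} {a : ℂ} (hτ : X0.jFun τ = a) {R : SL(2, ℤ)}
    (hR : R • τ = τ) (hζ : IsPrimitiveRoot ((denom R (τ : ℂ)) ^ 2) (ellOrder τ))
    {h : ℕ} (hh : ellOrder τ = h) (hprime : h.Prime) (hpow : R ^ h = -1) :
    h * Nat.card {w : Place ℂ (FC N) // 0 < w.ord (jC N - algebraMap ℂ (FC N) a)} =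
      Nat.card (Coset N) + (h - 1) * Nat.card {x : Coset N // R • x = x} := by
  subst hh
  obtain ⟨pl, h1, h2, -⟩ := (curveField N).exists_places_point hτ hR hζ
  have := Fact.mk hprime
  have e : Nat.card {w : Place ℂ (FC N) // 0 < w.ord (jC N - algebraMap ℂ (FC N) a)} = _ :=
    natCard_subtype_eq_of_range pl h1 h2
  rw [e]
  exact Grp.prime_mul_natCard_orbits R ((curveField N).pow_ellOrder_smul (Or.inr hpow))

variable (N)

/-- Over `j = 0`. -/
theorem natCard_zeros_jC :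
    3 * Nat.card {w : Place ℂ (FC N) // 0 < w.ord (jC N)} =
      ModularCurve.dedekindPsi N + 2 * ModularCurve.nuThree N := by
  have h := natCard_zeros_of_prime (N := N) jFun_rhoPt ST_smul_rhoPt isPrimitiveRoot_denom_ST
    ellOrder_rhoPt Nat.prime_three ST_pow_three
  rw [show jC N - algebraMap ℂ (FC N) 0 = jC N by simp, ← Subgroup.index_eq_card,
    Grp.index_Gamma0, Grp.natCard_fixed_ST] at h
  simpa using h

/-- Over `j = 1728`. -/
theorem natCard_zeros_jC_sub_1728 :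
    2 * Nat.card {w : Place ℂ (FC N) // 0 < w.ord (jC N - algebraMap ℂ (FC N) 1728)} =
      ModularCurve.dedekindPsi N + ModularCurve.nuTwo N := by
  have h := natCard_zeros_of_prime (N := N) jFun_I S_smul_I isPrimitiveRoot_denom_S ellOrder_I
    Nat.prime_two S_pow_two
  rw [← Subgroup.index_eq_card, Grp.index_Gamma0, Grp.natCard_fixed_S] at h
  simpa using h

/-- No ramification over other finite values. -/
theorem ord_jC_sub_eq_one {a : ℂ} (h0 : a ≠ 0) (h1 : a ≠ 1728) (w : Place ℂ (FC N))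
    (hw : 0 < w.ord (jC N - algebraMap ℂ (FC N) a)) :
    w.ord (jC N - algebraMap ℂ (FC N) a) = 1 := by
  obtain ⟨τ, R, hτ, hR, hζ, hpow, -⟩ := exists_base_point a
  have hell : ellOrder τ = 1 := by rw [ellOrder_eq, hτ, if_neg h0, if_neg h1]
  have hfix := fun q : Coset N => (curveField N).pow_ellOrder_smul hpow q
  simp only [hell, pow_one] at hfix
  obtain ⟨pl, -, h2, h3⟩ := (curveField N).exists_places_point hτ hR hζ
  obtain ⟨o, rfl⟩ := (h2 w).mp hw
  induction o using Quotient.inductionOn with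
  | h q =>
    refine (h3 q).1.trans ?_
    rw [natCard_orbit_zpowers, Function.minimalPeriod_eq_one_iff_isFixedPt.mpr (hfix q)]
    rfl

end Fermat.Agent.X0
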